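/-
S55 / 36-CS (helper79), generic part 1: finite-level bridge for BIG smooth modules.

`Profin15.LevelStr` level cohomology of a smooth module `A` (e.g. `E_S`, `J_S`, `C_S`, which are
not fixed by any single level) versus the ordinary cohomology of the finite quotients `Q = Γ/U`
with coefficients in the invariants `B = A^U`.  The finite level is presented abstractly by an
*invariant descent datum* `(p : Γ →* Q, B : Rep k Q, e : B →ₗ[k] A)`:
`e` is injective, its range is the module of `ker p`-invariants and `e` is equivariant along `p`.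
(`ProfinGlobal22.IsDescent` is the special case where `e` is bijective.)
-/
import Mathlib
import Fermat.Agent.S55.Profin15.Cohomology

set_option autoImplicit false

universe u

open CategoryTheory groupCohomology

namespace Fermat.Agent.S55.CS79.InvDescent

open Fermat.Agent.S55.Profin15

variable {k Γ Q : Type u} [CommRing k] [Group Γ] [Group Q]

/-- `B` is the representation of `Q` on the `ker p`-invariants of `A`, embedded by `e`. -/
structure IsInvDescent (A : Rep k Γ) (p : Γ →* Q) (B : Rep k Q) (e : B →ₗ[k] A) : Prop where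
  inj : Function.Injective e
  mem_range : ∀ a : A, a ∈ LinearMap.range e ↔ ∀ s : Γ, p s = 1 → A.ρ s a = a
  equivariant : ∀ (g : Γ) (b : B), A.ρ g (e b) = e (B.ρ (p g) b)

section Pull

variable {X Y : Type*} [AddCommGroup X] [Module k X] [AddCommGroup Y] [Module k Y]
  (p : Γ →* Q) (e : Y →ₗ[k] X)

/-- pull back a `1`-cochain along `p` and push its values along `e` -/
def pull₁ : (Q → Y) →ₗ[k] (Γ → X) where
  toFun x := fun g => e (x (p g))
  map_add' _ _ := by funext g; simp
  map_smul' _ _ := by funext g; simp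

/-- pull back a `2`-cochain along `p` and push its values along `e` -/
def pull₂ : (Q × Q → Y) →ₗ[k] (Γ × Γ → X) where
  toFun c := fun g => e (c (p g.1, p g.2))
  map_add' _ _ := by funext g; simp
  map_smul' _ _ := by funext g; simp

/-- pull back a `3`-cochain along `p` and push its values along `e` -/
def pull₃ : (Q × Q × Q → Y) →ₗ[k] (Γ × Γ × Γ → X) where
  toFun c := fun g => e (c (p g.1, p g.2.1, p g.2.2))
  map_add' _ _ := by funext g; simp
  map_smul' _ _ := by funext g; simp

@[simp] theorem pull₁_apply (x : Q → Y) (g : Γ) : pull₁ p e x g = e (x (p g)) := rfl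

@[simp] theorem pull₂_apply (c : Q × Q → Y) (g : Γ × Γ) :
    pull₂ p e c g = e (c (p g.1, p g.2)) := rfl

@[simp] theorem pull₃_apply (c : Q × Q × Q → Y) (g : Γ × Γ × Γ) :
    pull₃ p e c g = e (c (p g.1, p g.2.1, p g.2.2)) := rfl

theorem pull₁_injective (hp : Function.Surjective p) (he : Function.Injective e) :
    Function.Injective (pull₁ p e) := by
  intro x y h
  funext q
  obtain ⟨g, rfl⟩ := hp q
  exact he (congrFun h g)

theorem pull₂_injective (hp : Function.Surjective p) (he : Function.Injective e) :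
    Function.Injective (pull₂ p e) := by
  intro x y h
  funext ⟨q, q'⟩
  obtain ⟨g, rfl⟩ := hp q
  obtain ⟨g', rfl⟩ := hp q'
  exact he (congrFun h (g, g'))

theorem pull₃_injective (hp : Function.Surjective p) (he : Function.Injective e) :
    Function.Injective (pull₃ p e) := by
  intro x y h
  funext ⟨q, q', q''⟩
  obtain ⟨g, rfl⟩ := hp q
  obtain ⟨g', rfl⟩ := hp q'
  obtain ⟨g'', rfl⟩ := hp q''
  exact he (congrFun h (g, g', g''))

theorem pull₁_const (x : Q → Y) (g s : Γ) (hs : p s = 1) :
    pull₁ p e x (g * s) = pull₁ p e x g := by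
  simp only [pull₁_apply, map_mul, hs, mul_one]

theorem pull₂_const (c : Q × Q → Y) (g g' s s' : Γ) (hs : p s = 1) (hs' : p s' = 1) :
    pull₂ p e c (g * s, g' * s') = pull₂ p e c (g, g') := by
  simp only [pull₂_apply, map_mul, hs, hs', mul_one]

theorem pull₃_const (c : Q × Q × Q → Y) (g g' g'' s s' s'' : Γ) (hs : p s = 1) (hs' : p s' = 1)
    (hs'' : p s'' = 1) :
    pull₃ p e c (g * s, g' * s', g'' * s'') = pull₃ p e c (g, g', g'') := by
  simp only [pull₃_apply, map_mul, hs, hs', hs'', mul_one]

end Pull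

section Factor

variable {A : Rep k Γ} {p : Γ →* Q} {B : Rep k Q} {e : B →ₗ[k] A}

/-- the section `A^{ker p} → B` -/
theorem IsInvDescent.exists_eq (h : IsInvDescent A p B e) {a : A}
    (ha : ∀ s : Γ, p s = 1 → A.ρ s a = a) : ∃ b : B, e b = a :=
  (h.mem_range a).2 ha

theorem IsInvDescent.fixed (h : IsInvDescent A p B e) (b : B) {s : Γ} (hs : p s = 1) :
    A.ρ s (e b) = e b :=
  (h.mem_range (e b)).1 ⟨b, rfl⟩ s hs

/-- a `1`-cochain on `Γ` which is right-constant modulo `ker p` and has `ker p`-invariant values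
comes from the finite level -/
theorem IsInvDescent.exists_eq_pull₁ (h : IsInvDescent A p B e) (hp : Function.Surjective p)
    (f : Γ → A) (hf : ∀ g s : Γ, p s = 1 → f (g * s) = f g)
    (hfix : ∀ g s : Γ, p s = 1 → A.ρ s (f g) = f g) : ∃ x : Q → B, f = pull₁ p e x := by
  choose b hb using fun g => h.exists_eq (hfix g)
  refine ⟨fun q => b (Function.surjInv hp q), ?_⟩
  funext g
  rw [pull₁_apply, hb]
  have h1 : p ((Function.surjInv hp (p g))⁻¹ * g) = 1 := by
    rw [map_mul, map_inv, Function.surjInv_eq hp, inv_mul_cancel]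
  have h2 := hf (Function.surjInv hp (p g)) _ h1
  rw [← h2]
  congr 1
  group

theorem IsInvDescent.exists_eq_pull₂ (h : IsInvDescent A p B e) (hp : Function.Surjective p)
    (f : Γ × Γ → A)
    (hf : ∀ g g' s s' : Γ, p s = 1 → p s' = 1 → f (g * s, g' * s') = f (g, g'))
    (hfix : ∀ g s, p s = 1 → A.ρ s (f g) = f g) : ∃ c : Q × Q → B, f = pull₂ p e c := by
  choose b hb using fun g => h.exists_eq (hfix g)
  refine ⟨fun q => b (Function.surjInv hp q.1, Function.surjInv hp q.2), ?_⟩
  funext ⟨g, g'⟩
  rw [pull₂_apply, hb]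
  have h1 : p ((Function.surjInv hp (p g))⁻¹ * g) = 1 := by
    rw [map_mul, map_inv, Function.surjInv_eq hp, inv_mul_cancel]
  have h1' : p ((Function.surjInv hp (p g'))⁻¹ * g') = 1 := by
    rw [map_mul, map_inv, Function.surjInv_eq hp, inv_mul_cancel]
  have h2 := hf (Function.surjInv hp (p g)) (Function.surjInv hp (p g')) _ _ h1 h1'
  rw [← h2]
  congr 2 <;> group

theorem IsInvDescent.exists_eq_pull₃ (h : IsInvDescent A p B e) (hp : Function.Surjective p)
    (f : Γ × Γ × Γ → A)
    (hf : ∀ g g' g'' s s' s'' : Γ, p s = 1 → p s' = 1 → p s'' = 1 →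
      f (g * s, g' * s', g'' * s'') = f (g, g', g''))
    (hfix : ∀ g s, p s = 1 → A.ρ s (f g) = f g) : ∃ c : Q × Q × Q → B, f = pull₃ p e c := by
  choose b hb using fun g => h.exists_eq (hfix g)
  refine ⟨fun q => b (Function.surjInv hp q.1, Function.surjInv hp q.2.1,
    Function.surjInv hp q.2.2), ?_⟩
  funext ⟨g, g', g''⟩
  rw [pull₃_apply, hb]
  have h1 : p ((Function.surjInv hp (p g))⁻¹ * g) = 1 := by
    rw [map_mul, map_inv, Function.surjInv_eq hp, inv_mul_cancel]
  have h1' : p ((Function.surjInv hp (p g'))⁻¹ * g') = 1 := by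
    rw [map_mul, map_inv, Function.surjInv_eq hp, inv_mul_cancel]
  have h1'' : p ((Function.surjInv hp (p g''))⁻¹ * g'') = 1 := by
    rw [map_mul, map_inv, Function.surjInv_eq hp, inv_mul_cancel]
  have h2 := hf (Function.surjInv hp (p g)) (Function.surjInv hp (p g'))
    (Function.surjInv hp (p g'')) _ _ _ h1 h1' h1''
  rw [← h2]
  congr 3 <;> group

end Factor

section Differentials

variable {A : Rep k Γ} {p : Γ →* Q} {B : Rep k Q} {e : B →ₗ[k] A}

theorem IsInvDescent.d₀₁_pull (h : IsInvDescent A p B e) (b : B) :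
    (d₀₁ A).hom (e b) = pull₁ p e ((d₀₁ B).hom b) := by
  funext g
  simp only [d₀₁_hom_apply, pull₁_apply, map_sub, h.equivariant]

theorem IsInvDescent.d₁₂_pull₁ (h : IsInvDescent A p B e) (x : Q → B) :
    (d₁₂ A).hom (pull₁ p e x) = pull₂ p e ((d₁₂ B).hom x) := by
  funext ⟨g, g'⟩
  simp only [d₁₂_hom_apply, pull₁_apply, pull₂_apply, map_mul, map_add, map_sub, h.equivariant]

theorem IsInvDescent.d₂₃_pull₂ (h : IsInvDescent A p B e) (c : Q × Q → B) :
    (d₂₃ A).hom (pull₂ p e c) = pull₃ p e ((d₂₃ B).hom c) := by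
  funext ⟨g, g', g''⟩
  simp only [d₂₃_hom_apply, pull₂_apply, pull₃_apply, map_mul, map_add, map_sub, h.equivariant]

theorem IsInvDescent.pull₁_mem_cocycles₁_iff (h : IsInvDescent A p B e)
    (hp : Function.Surjective p) (x : Q → B) :
    pull₁ p e x ∈ cocycles₁ A ↔ x ∈ cocycles₁ B := by
  rw [mem_cocycles₁_def, mem_cocycles₁_def]
  constructor
  · intro hx q q'
    obtain ⟨g, rfl⟩ := hp q
    obtain ⟨g', rfl⟩ := hp q'
    apply h.inj
    have := hx g g'
    simp only [pull₁_apply, map_mul, h.equivariant] at this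
    simpa only [map_sub, map_add, map_zero] using this
  · intro hx g g'
    have := congrArg e (hx (p g) (p g'))
    simpa only [pull₁_apply, map_mul, h.equivariant, map_sub, map_add, map_zero] using this

theorem IsInvDescent.pull₂_mem_cocycles₂_iff (h : IsInvDescent A p B e)
    (hp : Function.Surjective p) (c : Q × Q → B) :
    pull₂ p e c ∈ cocycles₂ A ↔ c ∈ cocycles₂ B := by
  rw [mem_cocycles₂_def, mem_cocycles₂_def]
  constructor
  · intro hx q q' q''
    obtain ⟨g, rfl⟩ := hp q
    obtain ⟨g', rfl⟩ := hp q'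
    obtain ⟨g'', rfl⟩ := hp q''
    apply h.inj
    have := hx g g' g''
    simp only [pull₂_apply, map_mul, h.equivariant] at this
    simpa only [map_sub, map_add, map_zero] using this
  · intro hx g g' g''
    have := congrArg e (hx (p g) (p g') (p g''))
    simpa only [pull₂_apply, map_mul, h.equivariant, map_sub, map_add, map_zero] using this

end Differentials

end Fermat.Agent.S55.CS79.InvDescent
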