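/-
S55 / 36-CS (helper79), generic part 2: level cochains of a BIG smooth module come from finite
levels.  For a smooth `A` over `(Γ, 𝒰)` every level cochain is the pull-back of a cochain of
`Q = Γ / ker p` with values in `B = A^{ker p}` for EVERY invariant descent datum `(p, B, e)` whose
kernel is small enough; consequences: vanishing of level `H¹`/`H²` from vanishing at a cofinal
family of finite levels, and the kernel criterion ("dies at a deeper level").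
-/
import Fermat.Agent.S55.CS79.InvDescent

set_option autoImplicit false

universe u

open CategoryTheory groupCohomology

namespace Fermat.Agent.S55.CS79.FinLevel

open Fermat.Agent.S55.Profin15 Fermat.Agent.S55.CS79.InvDescent

variable {k Γ : Type u} [CommRing k] [Group Γ] {𝒰 : LevelStr Γ} {A : Rep k Γ}

/-- a level `1`-cochain of a smooth module is constant modulo a level `W` (below any given level)
which also fixes all its values -/
theorem exists_level₁ (hA : 𝒰.IsSmooth A) {f : Γ → A} (hf : 𝒰.IsConst₁ f) {V : Subgroup Γ}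
    (hV : V ∈ 𝒰.levels) :
    ∃ W ∈ 𝒰.levels, W ≤ V ∧ (∀ g s, s ∈ W → f (g * s) = f g) ∧
      ∀ g s, s ∈ W → A.ρ s (f g) = f g := by
  obtain ⟨V', hV', hfix⟩ := hA.exists_level_of_finite hf.finite_range
  obtain ⟨V'', hV'', hle⟩ := 𝒰.directed V hV V' hV'
  obtain ⟨W, hW, hle', hc⟩ := hf.exists_le hV''
  exact ⟨W, hW, hle'.trans (hle.trans inf_le_left), hc,
    fun g s hs => hfix (f g) ⟨g, rfl⟩ s ((hle'.trans (hle.trans inf_le_right)) hs)⟩

theorem exists_level₂ (hA : 𝒰.IsSmooth A) {f : Γ × Γ → A} (hf : 𝒰.IsConst₂ f) {V : Subgroup Γ}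
    (hV : V ∈ 𝒰.levels) :
    ∃ W ∈ 𝒰.levels, W ≤ V ∧
      (∀ g g' s s', s ∈ W → s' ∈ W → f (g * s, g' * s') = f (g, g')) ∧
      ∀ g s, s ∈ W → A.ρ s (f g) = f g := by
  obtain ⟨V', hV', hfix⟩ := hA.exists_level_of_finite hf.finite_range
  obtain ⟨V'', hV'', hle⟩ := 𝒰.directed V hV V' hV'
  obtain ⟨W, hW, hle', hc⟩ := hf.exists_le hV''
  exact ⟨W, hW, hle'.trans (hle.trans inf_le_left), hc,
    fun g s hs => hfix (f g) ⟨g, rfl⟩ s ((hle'.trans (hle.trans inf_le_right)) hs)⟩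

/-- a level-constant function on `Γ³` has finite range -/
theorem IsConst₃.finite_range {X : Type*} {f : Γ × Γ × Γ → X} (hf : 𝒰.IsConst₃ f) :
    (Set.range f).Finite := by
  obtain ⟨U, hU, h⟩ := hf
  have := 𝒰.finiteIndex U hU
  have : Finite (Γ ⧸ U) := Subgroup.finite_quotient_of_finiteIndex
  have key : ∀ a b c a' b' c' : Γ, (a : Γ ⧸ U) = a' → (b : Γ ⧸ U) = b' → (c : Γ ⧸ U) = c' →
      f (a, b, c) = f (a', b', c') := by
    intro a b c a' b' c' ha hb hc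
    have ha' : a⁻¹ * a' ∈ U := QuotientGroup.eq.1 ha
    have hb' : b⁻¹ * b' ∈ U := QuotientGroup.eq.1 hb
    have hc' : c⁻¹ * c' ∈ U := QuotientGroup.eq.1 hc
    have := h a b c (a⁻¹ * a') (b⁻¹ * b') (c⁻¹ * c') ha' hb' hc'
    rw [mul_inv_cancel_left, mul_inv_cancel_left, mul_inv_cancel_left] at this
    exact this.symm
  let f' : (Γ ⧸ U) × (Γ ⧸ U) × (Γ ⧸ U) → X := fun x =>
    f (Quotient.out x.1, Quotient.out x.2.1, Quotient.out x.2.2)
  have : Set.range f ⊆ Set.range f' := by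
    rintro _ ⟨⟨a, b, c⟩, rfl⟩
    refine ⟨(QuotientGroup.mk a, QuotientGroup.mk b, QuotientGroup.mk c), ?_⟩
    exact key _ _ _ _ _ _ (QuotientGroup.out_eq' _) (QuotientGroup.out_eq' _)
      (QuotientGroup.out_eq' _)
  exact (Set.finite_range f').subset this

theorem IsConst₃.exists_le {X : Type*} {f : Γ × Γ × Γ → X} (hf : 𝒰.IsConst₃ f) {V : Subgroup Γ}
    (hV : V ∈ 𝒰.levels) : ∃ W ∈ 𝒰.levels, W ≤ V ∧
      ∀ g g' g'' s s' s'', s ∈ W → s' ∈ W → s'' ∈ W →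
        f (g * s, g' * s', g'' * s'') = f (g, g', g'') := by
  obtain ⟨U, hU, h⟩ := hf
  obtain ⟨W, hW, hle⟩ := 𝒰.directed U hU V hV
  exact ⟨W, hW, hle.trans inf_le_right, fun g g' g'' s s' s'' hs hs' hs'' =>
    h g g' g'' s s' s'' (hle.trans inf_le_left hs) (hle.trans inf_le_left hs')
      (hle.trans inf_le_left hs'')⟩

theorem exists_level₃ (hA : 𝒰.IsSmooth A) {f : Γ × Γ × Γ → A} (hf : 𝒰.IsConst₃ f)
    {V : Subgroup Γ} (hV : V ∈ 𝒰.levels) :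
    ∃ W ∈ 𝒰.levels, W ≤ V ∧
      (∀ g g' g'' s s' s'', s ∈ W → s' ∈ W → s'' ∈ W →
        f (g * s, g' * s', g'' * s'') = f (g, g', g'')) ∧
      ∀ g s, s ∈ W → A.ρ s (f g) = f g := by
  obtain ⟨V', hV', hfix⟩ := hA.exists_level_of_finite (IsConst₃.finite_range hf)
  obtain ⟨V'', hV'', hle⟩ := 𝒰.directed V hV V' hV'
  obtain ⟨W, hW, hle', hc⟩ := IsConst₃.exists_le hf hV''
  exact ⟨W, hW, hle'.trans (hle.trans inf_le_left), hc,
    fun g s hs => hfix (f g) ⟨g, rfl⟩ s ((hle'.trans (hle.trans inf_le_right)) hs)⟩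

section Data

variable {Q : Type u} [Group Q] {p : Γ →* Q} {B : Rep k Q} {e : B →ₗ[k] A}

/-- **(P1)** every level `1`-cochain of a smooth module is a pull-back from every sufficiently
deep finite level -/
theorem exists_level_forall_pull₁ (hA : 𝒰.IsSmooth A) {f : Γ → A} (hf : 𝒰.IsConst₁ f)
    {V : Subgroup Γ} (hV : V ∈ 𝒰.levels) :
    ∃ W ∈ 𝒰.levels, W ≤ V ∧ ∀ {Q : Type u} [Group Q] {p : Γ →* Q} {B : Rep k Q}
      {e : B →ₗ[k] A}, IsInvDescent A p B e → Function.Surjective p → p.ker ≤ W →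
      ∃ x : Q → B, f = pull₁ p e x := by
  obtain ⟨W, hW, hle, hc, hfix⟩ := exists_level₁ hA hf hV
  refine ⟨W, hW, hle, fun {Q} _ {p} {B} {e} h hp hker => ?_⟩
  exact h.exists_eq_pull₁ hp f (fun g s hs => hc g s (hker hs))
    (fun g s hs => hfix g s (hker hs))

/-- **(P2)** -/
theorem exists_level_forall_pull₂ (hA : 𝒰.IsSmooth A) {f : Γ × Γ → A} (hf : 𝒰.IsConst₂ f)
    {V : Subgroup Γ} (hV : V ∈ 𝒰.levels) :
    ∃ W ∈ 𝒰.levels, W ≤ V ∧ ∀ {Q : Type u} [Group Q] {p : Γ →* Q} {B : Rep k Q}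
      {e : B →ₗ[k] A}, IsInvDescent A p B e → Function.Surjective p → p.ker ≤ W →
      ∃ c : Q × Q → B, f = pull₂ p e c := by
  obtain ⟨W, hW, hle, hc, hfix⟩ := exists_level₂ hA hf hV
  refine ⟨W, hW, hle, fun {Q} _ {p} {B} {e} h hp hker => ?_⟩
  exact h.exists_eq_pull₂ hp f (fun g g' s s' hs hs' => hc g g' s s' (hker hs) (hker hs'))
    (fun g s hs => hfix g s (hker hs))

/-- **(P3)** -/
theorem exists_level_forall_pull₃ (hA : 𝒰.IsSmooth A) {f : Γ × Γ × Γ → A} (hf : 𝒰.IsConst₃ f)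
    {V : Subgroup Γ} (hV : V ∈ 𝒰.levels) :
    ∃ W ∈ 𝒰.levels, W ≤ V ∧ ∀ {Q : Type u} [Group Q] {p : Γ →* Q} {B : Rep k Q}
      {e : B →ₗ[k] A}, IsInvDescent A p B e → Function.Surjective p → p.ker ≤ W →
      ∃ c : Q × Q × Q → B, f = pull₃ p e c := by
  obtain ⟨W, hW, hle, hc, hfix⟩ := exists_level₃ hA hf hV
  refine ⟨W, hW, hle, fun {Q} _ {p} {B} {e} h hp hker => ?_⟩
  exact h.exists_eq_pull₃ hp f
    (fun g g' g'' s s' s'' hs hs' hs'' => hc g g' g'' s s' s'' (hker hs) (hker hs') (hker hs''))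
    (fun g s hs => hfix g s (hker hs))

/-- pulled-back cochains are level cochains when `ker p` contains a level -/
theorem isConst₁_pull₁ {U : Subgroup Γ} (hU : U ∈ 𝒰.levels) (hker : U ≤ p.ker) (x : Q → B) :
    𝒰.IsConst₁ (pull₁ p e x) :=
  ⟨U, hU, fun g s hs => pull₁_const p e x g s (hker hs)⟩

theorem isConst₂_pull₂ {U : Subgroup Γ} (hU : U ∈ 𝒰.levels) (hker : U ≤ p.ker)
    (c : Q × Q → B) : 𝒰.IsConst₂ (pull₂ p e c) :=
  ⟨U, hU, fun g g' s s' hs hs' => pull₂_const p e c g g' s s' (hker hs) (hker hs')⟩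

theorem isConst₃_pull₃ {U : Subgroup Γ} (hU : U ∈ 𝒰.levels) (hker : U ≤ p.ker)
    (c : Q × Q × Q → B) : 𝒰.IsConst₃ (pull₃ p e c) :=
  ⟨U, hU, fun g g' g'' s s' s'' hs hs' hs'' =>
    pull₃_const p e c g g' g'' s s' s'' (hker hs) (hker hs') (hker hs'')⟩

end Data

/-- A cofinal family of finite levels with vanishing `H¹`. -/
def CofinalH1Vanishing (𝒰 : LevelStr Γ) (A : Rep k Γ) : Prop :=
  ∀ V ∈ 𝒰.levels, ∃ W ∈ 𝒰.levels, W ≤ V ∧
    ∃ (Q : Type u) (_ : Group Q) (p : Γ →* Q) (B : Rep.{u} k Q) (e : B →ₗ[k] A),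
      IsInvDescent A p B e ∧ Function.Surjective p ∧ p.ker = W ∧
      ∀ c : Q → B, c ∈ cocycles₁ B → c ∈ coboundaries₁ B

/-- A cofinal family of finite levels with vanishing `H²`. -/
def CofinalH2Vanishing (𝒰 : LevelStr Γ) (A : Rep k Γ) : Prop :=
  ∀ V ∈ 𝒰.levels, ∃ W ∈ 𝒰.levels, W ≤ V ∧
    ∃ (Q : Type u) (_ : Group Q) (p : Γ →* Q) (B : Rep.{u} k Q) (e : B →ₗ[k] A),
      IsInvDescent A p B e ∧ Function.Surjective p ∧ p.ker = W ∧
      ∀ c : Q × Q → B, c ∈ cocycles₂ B → c ∈ coboundaries₂ B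

/-- **Level `H¹` vanishes if `H¹(Γ/W, A^W) = 0` for a cofinal family of levels `W`.** -/
theorem H1_eq_zero_of_cofinal (hA : 𝒰.IsSmooth A) (h : CofinalH1Vanishing 𝒰 A)
    (x : 𝒰.H1 A) : x = 0 := by
  obtain ⟨z, rfl⟩ := Submodule.mkQ_surjective _ x
  obtain ⟨V, hV⟩ := 𝒰.nonempty
  obtain ⟨W₀, hW₀, -, hW₀'⟩ := exists_level_forall_pull₁ hA z.2.2 hV
  obtain ⟨W, hW, hle, Q, _, p, B, e, hdesc, hp, hker, hvan⟩ := h W₀ hW₀
  obtain ⟨c, hc⟩ := hW₀' hdesc hp (hker.le.trans hle)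
  have hcz : c ∈ cocycles₁ B := by
    rw [← hdesc.pull₁_mem_cocycles₁_iff hp, ← hc]
    exact z.2.1
  obtain ⟨b, rfl⟩ := hvan c hcz
  rw [Submodule.mkQ_apply, Submodule.Quotient.mk_eq_zero, Submodule.mem_comap]
  refine ⟨e b, ?_⟩
  rw [hdesc.d₀₁_pull]
  exact hc.symm

/-- **Level `H²` vanishes if `H²(Γ/W, A^W) = 0` for a cofinal family of levels `W`.** -/
theorem H2_eq_zero_of_cofinal (hA : 𝒰.IsSmooth A) (h : CofinalH2Vanishing 𝒰 A)
    (x : 𝒰.H2 A) : x = 0 := by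
  obtain ⟨z, rfl⟩ := Submodule.mkQ_surjective _ x
  obtain ⟨V, hV⟩ := 𝒰.nonempty
  obtain ⟨W₀, hW₀, -, hW₀'⟩ := exists_level_forall_pull₂ hA z.2.2 hV
  obtain ⟨W, hW, hle, Q, _, p, B, e, hdesc, hp, hker, hvan⟩ := h W₀ hW₀
  obtain ⟨c, hc⟩ := hW₀' hdesc hp (hker.le.trans hle)
  have hcz : c ∈ cocycles₂ B := by
    rw [← hdesc.pull₂_mem_cocycles₂_iff hp, ← hc]
    exact z.2.1
  obtain ⟨y, rfl⟩ := hvan c hcz
  rw [Submodule.mkQ_apply, Submodule.Quotient.mk_eq_zero, Submodule.mem_comap]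
  refine ⟨pull₁ p e y, isConst₁_pull₁ hW hker.ge y, ?_⟩
  rw [hdesc.d₁₂_pull₁]
  exact hc.symm

/-- **Kernel criterion**: if the pull-back of a finite-level `2`-cochain is the coboundary of a
level `1`-cochain, then it is the pull-back of a coboundary from every sufficiently deep finite
level. -/
theorem exists_level_forall_pull_coboundary (hA : 𝒰.IsSmooth A) {f : Γ × Γ → A}
    (hf : f ∈ 𝒰.B₂ A) {V : Subgroup Γ} (hV : V ∈ 𝒰.levels) :
    ∃ W ∈ 𝒰.levels, W ≤ V ∧ ∀ {Q : Type u} [Group Q] {p : Γ →* Q} {B : Rep k Q}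
      {e : B →ₗ[k] A}, IsInvDescent A p B e → Function.Surjective p → p.ker ≤ W →
      ∃ y : Q → B, f = pull₂ p e ((d₁₂ B).hom y) := by
  obtain ⟨x, hx, rfl⟩ := (𝒰.mem_B₂_iff A f).1 hf
  obtain ⟨W, hW, hle, hW'⟩ := exists_level_forall_pull₁ hA hx hV
  refine ⟨W, hW, hle, fun {Q} _ {p} {B} {e} h hp hker => ?_⟩
  obtain ⟨y, rfl⟩ := hW' h hp hker
  exact ⟨y, h.d₁₂_pull₁ y⟩

end Fermat.Agent.S55.CS79.FinLevel
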