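/-
S55 / 36-CS (helper79), part 2a: `p`-primary bookkeeping.

* `(36-A)` the `p`-primary form of the finite-level bridge: if the `p`-primary part of
  `H¹(Γ/W, A^W)` vanishes for a cofinal family of levels, the `p`-primary part of level `H¹(A)`
  vanishes.
* `(36-C)` for a short exact sequence `0 → A → B → T → 0` of smooth modules with `T` torsion of
  order prime to `p` (the limit of the `S`-class groups after `p`-capitulation):
  `H¹(B)(p) = 0 ⇒ H¹(A)(p) = 0`, and `H²(A) → H²(B)` is injective on `p`-primary classes.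
  (`A = J_S/E_S`, `B = C_S`, `T = Cl_S`.)
-/
import Fermat.Agent.S55.CS79.FinLevel
import Fermat.Agent.S55.LevelLES13.Exact

set_option autoImplicit false

universe u

open CategoryTheory groupCohomology

namespace Fermat.Agent.S55.CS79.Primary

open Fermat.Agent.S55.Profin15 Fermat.Agent.S55.CS79.InvDescent Fermat.Agent.S55.CS79.FinLevel
open Fermat.Agent.S55.LevelLES13

section Arith

/-- coprime annihilators kill -/
theorem eq_zero_of_coprime_nsmul {X : Type*} [AddCommGroup X] {m n : ℕ} (h : Nat.Coprime m n)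
    {x : X} (hm : m • x = 0) (hn : n • x = 0) : x = 0 := by
  have h1 : ((m : ℤ) * Nat.gcdA m n + (n : ℤ) * Nat.gcdB m n) • x = 0 := by
    rw [add_smul, mul_comm, mul_smul, mul_comm, mul_smul, natCast_zsmul, natCast_zsmul, hm, hn,
      smul_zero, smul_zero, add_zero]
  have h2 : ((m : ℤ) * Nat.gcdA m n + (n : ℤ) * Nat.gcdB m n) = 1 := by
    have := Nat.gcd_eq_gcd_ab m n
    rw [h] at this
    exact_mod_cast this.symm
  rwa [h2, one_smul] at h1

/-- a torsion group without `p`-torsion: every element is killed by an integer prime to `p` -/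
theorem exists_prime_to_p_nsmul {T : Type*} [AddCommGroup T] {p : ℕ} (hp : p.Prime)
    (htors : ∀ t : T, ∃ m : ℕ, 0 < m ∧ m • t = 0) (hnop : ∀ t : T, p • t = 0 → t = 0) (t : T) :
    ∃ m : ℕ, 0 < m ∧ ¬ p ∣ m ∧ m • t = 0 := by
  obtain ⟨m, hm0, hm⟩ := htors t
  obtain ⟨j, m', hm', rfl⟩ := Nat.exists_eq_pow_mul_and_not_dvd hm0.ne' p hp.ne_one
  refine ⟨m', Nat.pos_of_ne_zero ?_, hm', ?_⟩
  · rintro rfl
    exact hm' (dvd_zero p)
  · clear hm0
    induction j with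
    | zero => simpa using hm
    | succ j ih =>
      apply ih
      apply hnop
      rw [← mul_smul, ← mul_assoc, ← pow_succ']
      exact hm

end Arith

variable {k Γ : Type u} [CommRing k] [Group Γ] {𝒰 : LevelStr Γ}

/-- the `p`-primary part of level `H¹` vanishes -/
def H1PrimaryVanishes (𝒰 : LevelStr Γ) (p : ℕ) (A : Rep k Γ) : Prop :=
  ∀ x : 𝒰.H1 A, (∃ n : ℕ, p ^ n • x = 0) → x = 0

/-- A cofinal family of finite levels with vanishing `p`-primary `H¹`. -/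
def CofinalH1PrimaryVanishing (𝒰 : LevelStr Γ) (p : ℕ) (A : Rep k Γ) : Prop :=
  ∀ V ∈ 𝒰.levels, ∃ W ∈ 𝒰.levels, W ≤ V ∧
    ∃ (Q : Type u) (_ : Group Q) (π : Γ →* Q) (B : Rep.{u} k Q) (e : B →ₗ[k] A),
      IsInvDescent A π B e ∧ Function.Surjective π ∧ π.ker = W ∧
      ∀ c : Q → B, c ∈ cocycles₁ B → (∃ n : ℕ, p ^ n • c ∈ coboundaries₁ B) →
        c ∈ coboundaries₁ B

/-- **(36-A)** the `p`-primary part of level `H¹` vanishes if the `p`-primary part of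
`H¹(Γ/W, A^W)` vanishes for a cofinal family of levels `W`. -/
theorem h1PrimaryVanishes_of_cofinal {A : Rep k Γ} (hA : 𝒰.IsSmooth A) (p : ℕ)
    (h : CofinalH1PrimaryVanishing 𝒰 p A) : H1PrimaryVanishes 𝒰 p A := by
  intro x hx
  obtain ⟨n, hn⟩ := hx
  obtain ⟨z, rfl⟩ := Submodule.mkQ_surjective _ x
  have hn' : (p ^ n • (z : Γ → A)) ∈ coboundaries₁ A := by
    have : 𝒰.H1π A (p ^ n • z) = 0 := by rw [map_nsmul]; exact hn
    rw [LevelStr.H1π_eq_zero_iff] at this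
    exact this
  obtain ⟨a, ha⟩ := hn'
  obtain ⟨V, hV⟩ := 𝒰.nonempty
  obtain ⟨W₀, hW₀, -, hW₀'⟩ := exists_level_forall_pull₁ hA z.2.2 hV
  -- a level fixing `a`
  obtain ⟨W₁, hW₁, ha₁⟩ := hA a
  obtain ⟨W₂, hW₂, hle₂⟩ := 𝒰.directed W₀ hW₀ W₁ hW₁
  obtain ⟨W, hW, hle, Q, _, π, B, e, hdesc, hπ, hker, hvan⟩ := h W₂ hW₂
  obtain ⟨c, hc⟩ := hW₀' hdesc hπ (hker.le.trans (hle.trans (hle₂.trans inf_le_left)))
  have hcz : c ∈ cocycles₁ B := by
    rw [← hdesc.pull₁_mem_cocycles₁_iff hπ, ← hc]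
    exact z.2.1
  obtain ⟨b, hb⟩ := hdesc.exists_eq (a := a) (fun s hs =>
    ha₁ s ((hle.trans (hle₂.trans inf_le_right)) (hker ▸ (MonoidHom.mem_ker.2 hs))))
  have hcb : p ^ n • c ∈ coboundaries₁ B := by
    refine ⟨b, ?_⟩
    apply pull₁_injective π e hπ hdesc.inj
    rw [← hdesc.d₀₁_pull, hb, map_nsmul, ← hc]
    exact ha
  obtain ⟨b', rfl⟩ := hvan c hcz ⟨n, hcb⟩
  rw [Submodule.mkQ_apply, Submodule.Quotient.mk_eq_zero, Submodule.mem_comap]
  refine ⟨e b', ?_⟩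
  rw [hdesc.d₀₁_pull]
  exact hc.symm

section Sequence

variable {A B T : Rep k Γ} {f : A ⟶ B} {g : B ⟶ T}

/-- classes of level `H¹` with values in a torsion module of order prime to `p` are killed by an
integer prime to `p` -/
theorem exists_prime_to_p_nsmul_H1 {p : ℕ} (hp : p.Prime)
    (hT : ∀ t : T, ∃ m : ℕ, 0 < m ∧ ¬ p ∣ m ∧ m • t = 0) (y : 𝒰.H1 T) :
    ∃ m : ℕ, 0 < m ∧ ¬ p ∣ m ∧ m • y = 0 := by
  obtain ⟨z, rfl⟩ := Submodule.mkQ_surjective _ y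
  have hfin : (Set.range (z : Γ → T)).Finite := z.2.2.finite_range
  choose m hm0 hmp hm using hT
  refine ⟨∏ t ∈ hfin.toFinset, m t, Finset.prod_pos fun t _ => hm0 t, ?_, ?_⟩
  · rw [Prime.dvd_finsetProd_iff hp.prime]
    rintro ⟨t, -, ht⟩
    exact hmp t ht
  · rw [← map_nsmul]
    have : (∏ t ∈ hfin.toFinset, m t) • z = 0 := by
      apply Subtype.ext
      funext x
      have hx : (z : Γ → T) x ∈ hfin.toFinset := hfin.mem_toFinset.2 ⟨x, rfl⟩
      obtain ⟨d, hd⟩ := Finset.dvd_prod_of_mem m hx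
      show (∏ t ∈ hfin.toFinset, m t) • (z : Γ → T) x = 0
      rw [hd, mul_comm, mul_smul, hm, smul_zero]
    rw [this, map_zero]

/-- **(36-C)(i)** `H¹(B)(p) = 0 ⇒ H¹(A)(p) = 0` when the cokernel is torsion of order prime
to `p`. -/
theorem h1PrimaryVanishes_of_shortExact (h : ShortExact f g) (hB : 𝒰.IsSmooth B) {p : ℕ}
    (hp : p.Prime) (hT : ∀ t : T, ∃ m : ℕ, 0 < m ∧ ¬ p ∣ m ∧ m • t = 0)
    (hvan : H1PrimaryVanishes 𝒰 p B) : H1PrimaryVanishes 𝒰 p A := by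
  intro x ⟨n, hn⟩
  have h1 : H1map 𝒰 f x = 0 := hvan _ ⟨n, by rw [← map_nsmul, hn, map_zero]⟩
  have h2 : x ∈ LinearMap.range (δ₀ 𝒰 h hB) := by
    rw [← exact_H1A 𝒰 h hB]
    exact h1
  obtain ⟨c, rfl⟩ := h2
  obtain ⟨m, -, hmp, hm⟩ := hT (c : T)
  have hmc : m • c = 0 := Subtype.ext hm
  have h3 : m • δ₀ 𝒰 h hB c = 0 := by rw [← map_nsmul, hmc, map_zero]
  exact eq_zero_of_coprime_nsmul
    ((Nat.Coprime.pow_right n ((Nat.Prime.coprime_iff_not_dvd hp).2 hmp).symm)) h3 hn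

/-- **(36-C)(ii)** `H²(A) → H²(B)` is injective on `p`-primary classes when the cokernel is
torsion of order prime to `p`. -/
theorem H2map_injective_on_primary (h : ShortExact f g) (hB : 𝒰.IsSmooth B) {p : ℕ}
    (hp : p.Prime) (hT : ∀ t : T, ∃ m : ℕ, 0 < m ∧ ¬ p ∣ m ∧ m • t = 0)
    (x : 𝒰.H2 A) (hx : ∃ n : ℕ, p ^ n • x = 0) (hfx : H2map 𝒰 f x = 0) : x = 0 := by
  obtain ⟨n, hn⟩ := hx
  have h2 : x ∈ LinearMap.range (δ₁ 𝒰 h hB) := by
    rw [← exact_H2A 𝒰 h hB]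
    exact hfx
  obtain ⟨y, rfl⟩ := h2
  obtain ⟨m, -, hmp, hm⟩ := exists_prime_to_p_nsmul_H1 (𝒰 := 𝒰) hp hT y
  have h3 : m • δ₁ 𝒰 h hB y = 0 := by rw [← map_nsmul, hm, map_zero]
  exact eq_zero_of_coprime_nsmul
    ((Nat.Coprime.pow_right n ((Nat.Prime.coprime_iff_not_dvd hp).2 hmp).symm)) h3 hn

end Sequence

end Fermat.Agent.S55.CS79.Primary
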