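/-
S55 / 36-CS (helper79), part 2b: restriction of invariant descent data to an open subgroup.

If `(π : Γ →* Q, B, e)` presents the `ker π`-invariants of `A` and `ker π ≤ V ≤ Γ`, then
`(π|_V : V →* π(V), Res B, e)` presents the `ker π`-invariants of `Res_V A`.  With helper3's
`CD3.restrictLevels 𝒰 V` this makes the big-module bridge of `FinLevel` available for the open
subgroups `V = G_{L,S}` (finite levels `Gal(L'/L)`, `L ≤ L'`).
-/
import Fermat.Agent.S55.CS79.FinLevel
import Fermat.Agent.S55.CD3.Restrict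

set_option autoImplicit false

universe u

open CategoryTheory groupCohomology

namespace Fermat.Agent.S55.CS79.Restrict

open Fermat.Agent.S55.Profin15 Fermat.Agent.S55.CS79.InvDescent Fermat.Agent.S55.CD3

variable {k Γ Q : Type u} [CommRing k] [Group Γ] [Group Q]

/-- `π` restricted to `V`, onto its image -/
abbrev resHom (π : Γ →* Q) (V : Subgroup Γ) : ↥V →* ↥(V.map π) := π.subgroupMap V

theorem resHom_surjective (π : Γ →* Q) (V : Subgroup Γ) : Function.Surjective (resHom π V) :=
  π.subgroupMap_surjective V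

theorem resHom_eq_one_iff (π : Γ →* Q) (V : Subgroup Γ) (s : ↥V) :
    resHom π V s = 1 ↔ π (s : Γ) = 1 := by
  rw [← Subtype.coe_inj]
  rfl

theorem resHom_ker (π : Γ →* Q) (V : Subgroup Γ) :
    (resHom π V).ker = π.ker.subgroupOf V := by
  ext s
  rw [MonoidHom.mem_ker, resHom_eq_one_iff, Subgroup.mem_subgroupOf, MonoidHom.mem_ker]

/-- **restriction of an invariant descent datum to a subgroup containing `ker π`** -/
theorem isInvDescent_res {A : Rep.{u} k Γ} {π : Γ →* Q} {B : Rep.{u} k Q} {e : B →ₗ[k] A}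
    (h : IsInvDescent A π B e) (V : Subgroup Γ) (hV : π.ker ≤ V) :
    IsInvDescent (Rep.res V.subtype A) (resHom π V) (Rep.res (V.map π).subtype B) e where
  inj := h.inj
  mem_range := by
    intro a
    rw [h.mem_range a]
    constructor
    · intro ha s hs
      exact ha (s : Γ) ((resHom_eq_one_iff π V s).1 hs)
    · intro ha s hs
      exact ha ⟨s, hV (MonoidHom.mem_ker.2 hs)⟩ ((resHom_eq_one_iff π V _).2 hs)
  equivariant := fun g b => h.equivariant (g : Γ) b

/-- levels of the restricted level structure -/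
theorem subgroupOf_mem_restrictLevels {𝒰 : LevelStr Γ} {V : Subgroup Γ} (hV : IsOpenSub 𝒰 V)
    {W : Subgroup Γ} (hW : W ∈ 𝒰.levels) (hWV : W ≤ V) :
    W.subgroupOf V ∈ (restrictLevels 𝒰 V hV).levels :=
  ⟨W, hW, hWV, rfl⟩

/-- smoothness passes to open subgroups -/
theorem isSmooth_res {𝒰 : LevelStr Γ} {A : Rep.{u} k Γ} (hA : 𝒰.IsSmooth A) {V : Subgroup Γ}
    (hV : IsOpenSub 𝒰 V) : (restrictLevels 𝒰 V hV).IsSmooth (Rep.res V.subtype A) := by
  intro a
  obtain ⟨U, hU, h⟩ := hA a
  obtain ⟨U0, hU0, hle0⟩ := hV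
  obtain ⟨W, hW, hle⟩ := 𝒰.directed U hU U0 hU0
  refine ⟨W.subgroupOf V, ⟨W, hW, (hle.trans inf_le_right).trans hle0, rfl⟩, fun s hs => ?_⟩
  rw [Subgroup.mem_subgroupOf] at hs
  exact h _ (hle.trans inf_le_left hs)

end Fermat.Agent.S55.CS79.Restrict
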