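/-
S55 / 36-CS (helper79), generic part 3: invariants of a coinduced module.

For `φ' : Γ₀ →* G'`, a surjection `π : G' →* G` and `A : Rep k Γ₀`, the `ker π`-invariants of
`Rep.coind φ' A` are `Rep.coind (π.comp φ') A`, embedded by `f ↦ f ∘ π`.  With `G' = G_ℚ`,
`G = Gal(L/ℚ)`, `Γ₀ = Gal(PadicAlgCl q/ℚ_q)` this says that helper73's finite-level semilocal module
`Jq q L = Rep.coind (locHom q L) (localUnits q)` is the module of `Gal(ℚbar/L)`-invariants of the
big module `Rep.coind (localGaloisToGlobal q) (localUnits q)`.
-/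
import Fermat.Agent.S55.CS79.InvDescent

set_option autoImplicit false

universe u

open CategoryTheory

namespace Fermat.Agent.S55.CS79.CoindInv

open Fermat.Agent.S55.CS79.InvDescent

variable {k Γ₀ G' G : Type u} [CommRing k] [Group Γ₀] [Group G'] [Group G]
  (φ' : Γ₀ →* G') (π : G' →* G) (A : Rep.{u} k Γ₀)

/-- inflation of coinduced functions along `π`: `f ↦ f ∘ π`. -/
def coindInfl : (Rep.coind (π.comp φ') A) →ₗ[k] (Rep.coind φ' A) where
  toFun f := ⟨fun g => f.1 (π g), fun γ g => by
    have := f.2 γ (π g)
    simpa only [MonoidHom.comp_apply, map_mul] using this⟩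
  map_add' _ _ := rfl
  map_smul' _ _ := rfl

@[simp] theorem coindInfl_apply (f : Rep.coind (π.comp φ') A) (g : G') :
    (coindInfl φ' π A f).1 g = f.1 (π g) := rfl

theorem coind_ρ_apply {H₀ H : Type u} [Group H₀] [Group H] (ψ : H₀ →* H) (A : Rep.{u} k H₀)
    (h : H) (f : Rep.coind ψ A) (x : H) : ((Rep.coind ψ A).ρ h f).1 x = f.1 (x * h) := rfl

/-- **the `ker π`-invariants of `coind φ' A` are `coind (π ∘ φ') A`** -/
theorem isInvDescent_coind (hπ : Function.Surjective π) :
    IsInvDescent (Rep.coind φ' A) π (Rep.coind (π.comp φ') A) (coindInfl φ' π A) where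
  inj := by
    intro f f' h
    apply Subtype.ext
    funext q
    obtain ⟨g, rfl⟩ := hπ q
    exact congrFun (congrArg Subtype.val h) g
  mem_range := by
    intro a
    constructor
    · rintro ⟨f, rfl⟩ s hs
      apply Subtype.ext
      funext g
      rw [coind_ρ_apply, coindInfl_apply, coindInfl_apply, map_mul, hs, mul_one]
    · intro ha
      have key : ∀ g g' : G', π g = π g' → a.1 g = a.1 g' := by
        intro g g' hgg'
        have hs : π (g⁻¹ * g') = 1 := by rw [map_mul, map_inv, hgg', inv_mul_cancel]
        have := congrFun (congrArg Subtype.val (ha _ hs)) g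
        rw [coind_ρ_apply, mul_inv_cancel_left] at this
        exact this.symm
      refine ⟨⟨fun q => a.1 (Function.surjInv hπ q), fun γ q => ?_⟩, ?_⟩
      · have h1 : π (Function.surjInv hπ ((π.comp φ') γ * q)) =
            π (φ' γ * Function.surjInv hπ q) := by
          rw [Function.surjInv_eq hπ, map_mul, Function.surjInv_eq hπ, MonoidHom.comp_apply]
        show a.1 (Function.surjInv hπ ((π.comp φ') γ * q)) = A.ρ γ (a.1 (Function.surjInv hπ q))
        rw [key _ _ h1]
        exact a.2 γ _
      · apply Subtype.ext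
        funext g
        exact key _ _ (Function.surjInv_eq hπ (π g))
  equivariant := by
    intro g f
    apply Subtype.ext
    funext x
    rw [coind_ρ_apply, coindInfl_apply, coindInfl_apply, coind_ρ_apply, map_mul]

/-- naturality of `coindInfl` in the coefficient module -/
theorem coindInfl_coindMap {A A' : Rep.{u} k Γ₀} (f : A ⟶ A') (x : Rep.coind (π.comp φ') A) :
    coindInfl φ' π A' ((Rep.coindMap (π.comp φ') f).hom x) =
      (Rep.coindMap φ' f).hom (coindInfl φ' π A x) := rfl

end Fermat.Agent.S55.CS79.CoindInv
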