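/-
S55 / 36-CS (helper79), generic part 4: the smooth part of a representation for a level structure.

`smooth 𝒰 M` is the subrepresentation of vectors fixed by some level.  It is smooth, it has the
same invariants under every subgroup containing a level, and it is functorial.  This is how the
limit modules `J_S`, `C_S` are cut out of the big coinduced modules.
-/
import Fermat.Agent.S55.CS79.InvDescent

set_option autoImplicit false

universe u

open CategoryTheory

namespace Fermat.Agent.S55.CS79.Smooth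

open Fermat.Agent.S55.Profin15 Fermat.Agent.S55.CS79.InvDescent

variable {k G : Type u} [CommRing k] [Group G] (𝒰 : LevelStr G) (M : Rep.{u} k G)

/-- the vectors fixed by some level -/
def smoothSub : Submodule k M where
  carrier := {m | ∃ U ∈ 𝒰.levels, ∀ s ∈ U, M.ρ s m = m}
  add_mem' := by
    rintro a b ⟨U, hU, ha⟩ ⟨V, hV, hb⟩
    obtain ⟨W, hW, hle⟩ := 𝒰.directed U hU V hV
    exact ⟨W, hW, fun s hs => by
      rw [map_add, ha s (hle.trans inf_le_left hs), hb s (hle.trans inf_le_right hs)]⟩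
  zero_mem' := by
    obtain ⟨U, hU⟩ := 𝒰.nonempty
    exact ⟨U, hU, fun s _ => map_zero _⟩
  smul_mem' := by
    rintro c a ⟨U, hU, ha⟩
    exact ⟨U, hU, fun s hs => by rw [map_smul, ha s hs]⟩

theorem mem_smoothSub_iff (m : M) :
    m ∈ smoothSub 𝒰 M ↔ ∃ U ∈ 𝒰.levels, ∀ s ∈ U, M.ρ s m = m := Iff.rfl

theorem smoothSub_le_comap (g : G) : smoothSub 𝒰 M ≤ (smoothSub 𝒰 M).comap (M.ρ g) := by
  rintro m ⟨U, hU, hm⟩
  refine ⟨U, hU, fun s hs => ?_⟩
  have hn := 𝒰.normal U hU
  have h1 : g⁻¹ * s * g ∈ U := by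
    have := hn.conj_mem s hs g⁻¹
    simpa using this
  have h2 : s * g = g * (g⁻¹ * s * g) := by group
  rw [← Module.End.mul_apply, ← map_mul, h2, map_mul, Module.End.mul_apply, hm _ h1]

/-- the smooth part of `M` -/
noncomputable abbrev smooth : Rep.{u} k G :=
  Rep.subrepresentation M (smoothSub 𝒰 M) (smoothSub_le_comap 𝒰 M)

/-- the inclusion of the smooth part -/
noncomputable def smoothι : smooth 𝒰 M ⟶ M :=
  Rep.subtype M (smoothSub 𝒰 M) (smoothSub_le_comap 𝒰 M)

/-- the underlying linear inclusion -/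
def smoothIncl : smooth 𝒰 M →ₗ[k] M := (smoothSub 𝒰 M).subtype

theorem smoothIncl_injective : Function.Injective (smoothIncl 𝒰 M) :=
  (smoothSub 𝒰 M).injective_subtype

theorem smoothIncl_ρ (g : G) (m : smooth 𝒰 M) :
    smoothIncl 𝒰 M ((smooth 𝒰 M).ρ g m) = M.ρ g (smoothIncl 𝒰 M m) := rfl

theorem smoothι_hom_apply (m : smooth 𝒰 M) : (smoothι 𝒰 M).hom m = smoothIncl 𝒰 M m := rfl

theorem mem_range_smoothIncl_iff (m : M) :
    m ∈ LinearMap.range (smoothIncl 𝒰 M) ↔ ∃ U ∈ 𝒰.levels, ∀ s ∈ U, M.ρ s m = m := by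
  rw [smoothIncl, Submodule.range_subtype]
  exact Iff.rfl

theorem isSmooth_smooth : 𝒰.IsSmooth (smooth 𝒰 M) := by
  rintro ⟨m, U, hU, hm⟩
  exact ⟨U, hU, fun s hs => Subtype.ext (hm s hs)⟩

/-- a smooth representation is its own smooth part -/
theorem smoothSub_eq_top {M : Rep.{u} k G} (hM : 𝒰.IsSmooth M) : smoothSub 𝒰 M = ⊤ :=
  eq_top_iff.2 fun m _ => hM m

variable {𝒰 M}

/-- functoriality of the smooth part (underlying linear map) -/
def smoothMapLin {N : Rep.{u} k G} (f : M ⟶ N) : smooth 𝒰 M →ₗ[k] smooth 𝒰 N :=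
  (f.hom.toLinearMap).restrict (p := smoothSub 𝒰 M) (q := smoothSub 𝒰 N) (by
    rintro m ⟨U, hU, hm⟩
    refine ⟨U, hU, fun s hs => ?_⟩
    have := Rep.hom_comm_apply f s m
    show N.ρ s (f.hom m) = f.hom m
    rw [← this, hm s hs])

theorem smoothIncl_smoothMapLin {N : Rep.{u} k G} (f : M ⟶ N) (m : smooth 𝒰 M) :
    smoothIncl 𝒰 N (smoothMapLin f m) = f.hom (smoothIncl 𝒰 M m) := rfl

/-- functoriality of the smooth part -/
noncomputable def smoothMap {N : Rep.{u} k G} (f : M ⟶ N) : smooth 𝒰 M ⟶ smooth 𝒰 N :=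
  Rep.ofHom ⟨smoothMapLin f, fun g => by
    ext m
    exact Rep.hom_comm_apply f g m.1⟩

theorem smoothMap_hom_apply {N : Rep.{u} k G} (f : M ⟶ N) (m : smooth 𝒰 M) :
    smoothIncl 𝒰 N ((smoothMap f).hom m) = f.hom (smoothIncl 𝒰 M m) := rfl

/-- the lift of an invariant descent datum of `M`, whose kernel contains a level, to the smooth
part -/
def smoothLift {Q : Type u} [Group Q] {p : G →* Q} {B : Rep.{u} k Q}
    {e : B →ₗ[k] M} (h : IsInvDescent M p B e) {U : Subgroup G} (hU : U ∈ 𝒰.levels)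
    (hker : U ≤ p.ker) : B →ₗ[k] smooth 𝒰 M :=
  e.codRestrict (smoothSub 𝒰 M) fun b => ⟨U, hU, fun s hs => h.fixed b (hker hs)⟩

theorem smoothIncl_smoothLift {Q : Type u} [Group Q] {p : G →* Q} {B : Rep.{u} k Q}
    {e : B →ₗ[k] M} (h : IsInvDescent M p B e) {U : Subgroup G} (hU : U ∈ 𝒰.levels)
    (hker : U ≤ p.ker) (b : B) : smoothIncl 𝒰 M (smoothLift h hU hker b) = e b := rfl

/-- **invariants of the smooth part**: an invariant descent datum of `M` whose kernel contains a
level is an invariant descent datum of `smooth 𝒰 M`. -/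
theorem isInvDescent_smoothLift {Q : Type u} [Group Q] {p : G →* Q} {B : Rep.{u} k Q}
    {e : B →ₗ[k] M} (h : IsInvDescent M p B e) {U : Subgroup G} (hU : U ∈ 𝒰.levels)
    (hker : U ≤ p.ker) : IsInvDescent (smooth 𝒰 M) p B (smoothLift h hU hker) := by
  refine ⟨?_, ?_, ?_⟩
  · intro b b' hbb'
    apply h.inj
    exact congrArg (smoothIncl 𝒰 M) hbb'
  · intro a
    constructor
    · rintro ⟨b, rfl⟩ s hs
      apply smoothIncl_injective
      rw [smoothIncl_ρ]
      exact h.fixed b hs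
    · intro ha
      have : ∀ s : G, p s = 1 → M.ρ s (smoothIncl 𝒰 M a) = smoothIncl 𝒰 M a := by
        intro s hs
        rw [← smoothIncl_ρ, ha s hs]
      obtain ⟨b, hb⟩ := h.exists_eq this
      exact ⟨b, smoothIncl_injective 𝒰 M hb⟩
  · intro g b
    apply smoothIncl_injective
    rw [smoothIncl_ρ]
    exact h.equivariant g b

end Fermat.Agent.S55.CS79.Smooth
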