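/-
S55 / 36-CS (helper79): the LIMIT semilocal modules as smooth `G_ℚ`-modules.

`Jbig q A = Rep.coind (localGaloisToGlobal q) A` is the big coinduced module (all functions
`f : G_ℚ → A` with `f (τ̄ g) = τ f g`), `JS S q A` its smooth part for `Profin15.globalLevels S`.
For every Galois `S`-level `L` the `Gal(ℚbar/L)`-invariants of `JS S q A` are helper73's finite
level module `Rep.coind (locHom q L) A` (`= Jq q L` for `A = localUnits q`), as an invariant
descent datum along `resL L : G_ℚ → Gal(L/ℚ)`.
-/
import Fermat.Agent.S55.Idele73.Basic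
import Fermat.Agent.S55.Profin15.Global
import Fermat.Agent.S55.CS79.CoindInv
import Fermat.Agent.S55.CS79.Smooth
import Fermat.Agent.S55.CS79.FinLevel

set_option autoImplicit false

open CategoryTheory

namespace Fermat.Agent.S55.CS79.Limit

open Fermat.Agent.S55.Profin15 Fermat.Agent.S55.Idele73.Basic
open Fermat.Agent.S55.CS79.InvDescent Fermat.Agent.S55.CS79.CoindInv Fermat.Agent.S55.CS79.Smooth

variable (S : Finset Nat.Primes) (q : ℕ) [Fact q.Prime]

/-- the big coinduced module `Coind_{G_q}^{G_ℚ} A` -/
noncomputable abbrev Jbig (A : Rep.{0} ℤ (Gq q)) : Rep.{0} ℤ GQ :=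
  Rep.coind (localGaloisToGlobal q) A

/-- the limit semilocal module at `q`: the smooth part of `Coind_{G_q}^{G_ℚ} A` for the
`S`-levels -/
noncomputable abbrev JS (A : Rep.{0} ℤ (Gq q)) : Rep.{0} ℤ GQ :=
  smooth (globalLevels S) (Jbig q A)

theorem isSmooth_JS (A : Rep.{0} ℤ (Gq q)) : (globalLevels S).IsSmooth (JS S q A) :=
  isSmooth_smooth _ _

section level

variable (L : IntermediateField ℚ Qbar) [Normal ℚ L]

theorem resL_ker : (resL L).ker = L.fixingSubgroup := by
  ext σ
  rw [MonoidHom.mem_ker, IntermediateField.mem_fixingSubgroup_iff]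
  constructor
  · intro h x hx
    have := resL_apply L σ ⟨x, hx⟩
    rw [h] at this
    exact this.symm
  · intro h
    ext x
    rw [resL_apply]
    exact h x x.2

theorem fixingSubgroup_mem_globalLevels (hL : L.IsUnramifiedOutside S) :
    L.fixingSubgroup ∈ (globalLevels S).levels := by
  refine ⟨?_, L, hL, rfl⟩
  rw [← resL_ker]
  exact MonoidHom.normal_ker _

/-- the inclusion of the finite level `Rep.coind (locHom q L) A` into the limit module
`JS S q A`: `f ↦ f ∘ resL L` -/
noncomputable def levelIncl (hL : L.IsUnramifiedOutside S) (A : Rep.{0} ℤ (Gq q)) :=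
  smoothLift (𝒰 := globalLevels S)
    (isInvDescent_coind (localGaloisToGlobal q) (resL L) A (resL_surjective L))
    (fixingSubgroup_mem_globalLevels S L hL) (resL_ker L).ge

theorem levelIncl_apply (hL : L.IsUnramifiedOutside S) (A : Rep.{0} ℤ (Gq q))
    (f : Rep.coind (locHom q L) A) (g : GQ) :
    (smoothIncl (globalLevels S) (Jbig q A) (levelIncl S q L hL A f)).1 g = f.1 (resL L g) :=
  rfl

/-- **finite level of the limit module**: for a Galois `S`-level `L`, the
`Gal(ℚbar/L)`-invariants of `JS S q A` are `Rep.coind (locHom q L) A`. -/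
theorem isInvDescent_levelIncl (hL : L.IsUnramifiedOutside S) (A : Rep.{0} ℤ (Gq q)) :
    IsInvDescent (JS S q A) (resL L) (Rep.coind (locHom q L) A) (levelIncl S q L hL A) :=
  isInvDescent_smoothLift _ _ _

end level

end Fermat.Agent.S55.CS79.Limit
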