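/-
S55 / 36-CS (helper79), part 2d: the class module of a "divisor datum" and its comparison with
`J/E`.

Abstract setting (any level structure): smooth modules `K` (`= K_S^×`), `J` (`= J_S`, ideles at
`S`), `I` (`= I^S`, ideals prime to `S`), morphisms `dJ : K ⟶ J` (diagonal), `dI : K ⟶ I`
(divisor).  Then `E := ker dI` (`S`-units), `classMod := coker (K → J × I)` (the `S`-idele class
module, the one with a class formation), `unitQuot := J / dJ(E)`, `clMod := I / dI(K)` (the
`S`-class group) and `0 → unitQuot → classMod → clMod → 0` is exact.  If `clMod` is torsion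
(finiteness of class groups) and has no `p`-torsion (`p`-capitulation: `p`-th roots of elements
whose divisor is divisible by `p` exist in `K`, and `I` is torsion free) then the `p`-primary
part of level `H¹` of `J/E` vanishes as soon as that of `classMod` does, and
`H²(J/E) → H²(classMod)` is injective on `p`-primary classes.
-/
import Fermat.Agent.S55.CS79.Primary

set_option autoImplicit false

universe u

open CategoryTheory groupCohomology

namespace Fermat.Agent.S55.CS79.ClassSeq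

open Fermat.Agent.S55.Profin15 Fermat.Agent.S55.LevelLES13 Fermat.Agent.S55.CS79.Primary

variable {k Γ : Type u} [CommRing k] [Group Γ] {K J I : Rep.{u} k Γ} (dJ : K ⟶ J) (dI : K ⟶ I)

/-- `J × I` -/
noncomputable abbrev prodRep (J I : Rep.{u} k Γ) : Rep.{u} k Γ := Rep.of (J.ρ.prod I.ρ)

/-- the diagonal `K → J × I` (linear map) -/
def diagLin : K →ₗ[k] J × I := dJ.hom.toLinearMap.prod dI.hom.toLinearMap

@[simp] theorem diagLin_apply (x : K) : diagLin dJ dI x = (dJ.hom x, dI.hom x) := rfl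

/-- the image of the diagonal -/
def diagRange : Submodule k (J × I) := LinearMap.range (diagLin dJ dI)

theorem diagRange_le_comap (g : Γ) :
    diagRange dJ dI ≤ (diagRange dJ dI).comap ((J.ρ.prod I.ρ) g) := by
  rintro _ ⟨x, rfl⟩
  refine ⟨K.ρ g x, ?_⟩
  show (dJ.hom (K.ρ g x), dI.hom (K.ρ g x)) = (J.ρ g (dJ.hom x), I.ρ g (dI.hom x))
  rw [Rep.hom_comm_apply, Rep.hom_comm_apply]

/-- **the class module** `coker (K → J × I)` -/
noncomputable abbrev classMod : Rep.{u} k Γ :=
  Rep.quotient (prodRep J I) (diagRange dJ dI) (diagRange_le_comap dJ dI)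

/-- the image in `J` of the units `E = ker dI` -/
def unitImage : Submodule k J := (LinearMap.ker dI.hom.toLinearMap).map dJ.hom.toLinearMap

theorem mem_unitImage_iff (j : J) :
    j ∈ unitImage dJ dI ↔ ∃ x : K, dI.hom x = 0 ∧ dJ.hom x = j := by
  simp only [unitImage, Submodule.mem_map, LinearMap.mem_ker]
  exact Iff.rfl

theorem unitImage_le_comap (g : Γ) :
    unitImage dJ dI ≤ (unitImage dJ dI).comap (J.ρ g) := by
  intro j hj
  obtain ⟨x, hx, rfl⟩ := (mem_unitImage_iff dJ dI j).1 hj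
  refine (mem_unitImage_iff dJ dI _).2 ⟨K.ρ g x, ?_, ?_⟩
  · rw [Rep.hom_comm_apply, hx, map_zero]
  · rw [Rep.hom_comm_apply]

/-- `J / dJ(E)` -/
noncomputable abbrev unitQuot : Rep.{u} k Γ :=
  Rep.quotient J (unitImage dJ dI) (unitImage_le_comap dJ dI)

/-- the principal divisors -/
def divRange : Submodule k I := LinearMap.range dI.hom.toLinearMap

theorem divRange_le_comap (g : Γ) : divRange dI ≤ (divRange dI).comap (I.ρ g) := by
  rintro _ ⟨x, rfl⟩
  exact ⟨K.ρ g x, Rep.hom_comm_apply dI g x⟩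

/-- the class group `I / dI(K)` -/
noncomputable abbrev clMod : Rep.{u} k Γ :=
  Rep.quotient I (divRange dI) (divRange_le_comap dI)

/-- `J / dJ(E) → coker (K → J × I)`, `[j] ↦ [(j, 0)]` (linear map) -/
def inclLin : unitQuot dJ dI →ₗ[k] classMod dJ dI :=
  Submodule.mapQ (unitImage dJ dI) (diagRange dJ dI) (LinearMap.inl k J I) (by
    intro j hj
    obtain ⟨x, hx, rfl⟩ := (mem_unitImage_iff dJ dI j).1 hj
    exact ⟨x, by rw [diagLin_apply, hx]; rfl⟩)

/-- `coker (K → J × I) → I / dI(K)`, `[(j, i)] ↦ [i]` (linear map) -/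
def projLin : classMod dJ dI →ₗ[k] clMod dI :=
  Submodule.mapQ (diagRange dJ dI) (divRange dI) (LinearMap.snd k J I) (by
    rintro _ ⟨x, rfl⟩
    exact ⟨x, rfl⟩)

/-- `J / dJ(E) ⟶ coker (K → J × I)` -/
noncomputable def inclHom : unitQuot dJ dI ⟶ classMod dJ dI :=
  Rep.ofHom ⟨inclLin dJ dI, fun g => LinearMap.ext fun a => by
    obtain ⟨j, rfl⟩ := Submodule.Quotient.mk_surjective _ a
    show (Submodule.Quotient.mk (J.ρ g j, (0 : I)) : (J × I) ⧸ diagRange dJ dI) =
      Submodule.Quotient.mk (J.ρ g j, I.ρ g 0)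
    rw [map_zero]⟩

/-- `coker (K → J × I) ⟶ I / dI(K)` -/
noncomputable def projHom : classMod dJ dI ⟶ clMod dI :=
  Rep.ofHom ⟨projLin dJ dI, fun g => LinearMap.ext fun a => by
    obtain ⟨x, rfl⟩ := Submodule.Quotient.mk_surjective _ a
    rfl⟩

theorem inclHom_mk (j : J) :
    (inclHom dJ dI).hom (Submodule.Quotient.mk j) = Submodule.Quotient.mk (j, (0 : I)) := rfl

theorem projHom_mk (x : J × I) :
    (projHom dJ dI).hom (Submodule.Quotient.mk x) = Submodule.Quotient.mk x.2 := rfl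

/-- **`0 → J/E → C → Cl → 0` is exact** -/
theorem shortExact : ShortExact (inclHom dJ dI) (projHom dJ dI) where
  inj := by
    rw [injective_iff_map_eq_zero]
    intro a ha
    obtain ⟨j, rfl⟩ := Submodule.Quotient.mk_surjective _ a
    rw [inclHom_mk, Submodule.Quotient.mk_eq_zero] at ha
    obtain ⟨x, hx⟩ := ha
    rw [diagLin_apply, Prod.mk.injEq] at hx
    rw [Submodule.Quotient.mk_eq_zero]
    exact (mem_unitImage_iff dJ dI j).2 ⟨x, hx.2, hx.1⟩
  surj := by
    intro t
    obtain ⟨i, rfl⟩ := Submodule.Quotient.mk_surjective _ t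
    exact ⟨Submodule.Quotient.mk (0, i), rfl⟩
  exact := by
    intro b
    obtain ⟨⟨j, i⟩, rfl⟩ := Submodule.Quotient.mk_surjective _ b
    constructor
    · intro hb
      rw [projHom_mk, Submodule.Quotient.mk_eq_zero] at hb
      obtain ⟨x, hx⟩ := hb
      refine ⟨Submodule.Quotient.mk (j - dJ.hom x), ?_⟩
      rw [inclHom_mk, eq_comm, ← sub_eq_zero, ← Submodule.Quotient.mk_sub,
        Submodule.Quotient.mk_eq_zero]
      refine ⟨x, ?_⟩
      rw [diagLin_apply, Prod.mk_sub_mk, sub_sub_cancel, sub_zero]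
      exact congrArg (Prod.mk _) hx
    · rintro ⟨a, ha⟩
      obtain ⟨j', rfl⟩ := Submodule.Quotient.mk_surjective _ a
      rw [← ha, inclHom_mk, projHom_mk, Submodule.Quotient.mk_eq_zero]
      exact zero_mem _

section Defining

/-- the diagonal `K ⟶ J × I` -/
noncomputable def diagHom : K ⟶ prodRep J I :=
  Rep.ofHom ⟨diagLin dJ dI, fun g => LinearMap.ext fun x => by
    show (dJ.hom (K.ρ g x), dI.hom (K.ρ g x)) = (J.ρ g (dJ.hom x), I.ρ g (dI.hom x))
    rw [Rep.hom_comm_apply, Rep.hom_comm_apply]⟩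

/-- the projection `J × I ⟶ coker (K → J × I)` -/
noncomputable def classProj : prodRep J I ⟶ classMod dJ dI :=
  Rep.mkQ (prodRep J I) (diagRange dJ dI) (diagRange_le_comap dJ dI)

theorem diagHom_apply (x : K) : (diagHom dJ dI).hom x = (dJ.hom x, dI.hom x) := rfl

theorem classProj_apply (x : J × I) : (classProj dJ dI).hom x = Submodule.Quotient.mk x := rfl

/-- **`0 → K → J × I → C → 0` is exact** (for an injective diagonal) -/
theorem shortExact_class (hinj : Function.Injective dJ.hom) :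
    ShortExact (diagHom dJ dI) (classProj dJ dI) where
  inj := fun x y hxy => hinj (congrArg Prod.fst hxy)
  surj := Submodule.Quotient.mk_surjective _
  exact := by
    intro b
    rw [classProj_apply, Submodule.Quotient.mk_eq_zero]
    exact Iff.rfl

/-- the units `E = ker dI` as a subrepresentation of `K` -/
noncomputable abbrev unitsRep : Rep.{u} k Γ :=
  Rep.subrepresentation K (LinearMap.ker dI.hom.toLinearMap) (fun g x hx => by
    rw [Submodule.mem_comap, LinearMap.mem_ker]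
    show dI.hom (K.ρ g x) = 0
    have hx0 : dI.hom x = 0 := LinearMap.mem_ker.1 hx
    rw [Rep.hom_comm_apply, hx0, map_zero])

/-- `E ⟶ J` -/
noncomputable def unitsHom : unitsRep dI ⟶ J :=
  Rep.ofHom ⟨dJ.hom.toLinearMap ∘ₗ (LinearMap.ker dI.hom.toLinearMap).subtype,
    fun g => LinearMap.ext fun x => Rep.hom_comm_apply dJ g x.1⟩

/-- `J ⟶ J / dJ(E)` -/
noncomputable def unitQuotProj : J ⟶ unitQuot dJ dI :=
  Rep.mkQ J (unitImage dJ dI) (unitImage_le_comap dJ dI)

theorem unitsHom_apply (x : unitsRep dI) : (unitsHom dJ dI).hom x = dJ.hom x.1 := rfl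

theorem unitQuotProj_apply (j : J) :
    (unitQuotProj dJ dI).hom j = Submodule.Quotient.mk j := rfl

/-- **`0 → E → J → J/E → 0` is exact** (for an injective diagonal) -/
theorem shortExact_units (hinj : Function.Injective dJ.hom) :
    ShortExact (unitsHom dJ dI) (unitQuotProj dJ dI) where
  inj := fun x y hxy => Subtype.ext (hinj hxy)
  surj := Submodule.Quotient.mk_surjective _
  exact := by
    intro j
    rw [unitQuotProj_apply, Submodule.Quotient.mk_eq_zero, mem_unitImage_iff]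
    constructor
    · rintro ⟨x, hx, rfl⟩
      exact ⟨⟨x, LinearMap.mem_ker.2 hx⟩, rfl⟩
    · rintro ⟨x, rfl⟩
      exact ⟨x.1, LinearMap.mem_ker.1 x.2, rfl⟩

end Defining

section Smooth

variable {𝒰 : LevelStr Γ}

theorem isSmooth_prodRep (hJ : 𝒰.IsSmooth J) (hI : 𝒰.IsSmooth I) :
    𝒰.IsSmooth (prodRep J I) := by
  rintro ⟨j, i⟩
  obtain ⟨U, hU, hj⟩ := hJ j
  obtain ⟨V, hV, hi⟩ := hI i
  obtain ⟨W, hW, hle⟩ := 𝒰.directed U hU V hV
  refine ⟨W, hW, fun s hs => ?_⟩
  show (J.ρ s j, I.ρ s i) = (j, i)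
  rw [hj s (hle.trans inf_le_left hs), hi s (hle.trans inf_le_right hs)]

theorem isSmooth_quotient {M : Rep.{u} k Γ} (hM : 𝒰.IsSmooth M) (W : Submodule k M)
    (hW : ∀ g, W ≤ W.comap (M.ρ g)) : 𝒰.IsSmooth (Rep.quotient M W hW) := by
  intro c
  obtain ⟨m, rfl⟩ := Submodule.Quotient.mk_surjective _ c
  obtain ⟨U, hU, hm⟩ := hM m
  refine ⟨U, hU, fun s hs => ?_⟩
  show Submodule.Quotient.mk (M.ρ s m) = Submodule.Quotient.mk m
  rw [hm s hs]

theorem isSmooth_classMod (hJ : 𝒰.IsSmooth J) (hI : 𝒰.IsSmooth I) :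
    𝒰.IsSmooth (classMod dJ dI) :=
  isSmooth_quotient (isSmooth_prodRep hJ hI) _ _

theorem isSmooth_unitQuot (hJ : 𝒰.IsSmooth J) : 𝒰.IsSmooth (unitQuot dJ dI) :=
  isSmooth_quotient hJ _ _

end Smooth

section Capitulation

/-- **`p`-capitulation in the limit**: if `I` is torsion free and every element of `K` whose
divisor is divisible by `p` is a `p`-th power in `K`, the class group `I / dI(K)` has no
`p`-torsion. -/
theorem clMod_no_p_torsion {p : ℕ} (hItf : ∀ a : I, p • a = 0 → a = 0)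
    (hroot : ∀ α : K, (∃ a : I, dI.hom α = p • a) → ∃ β : K, p • β = α)
    (t : clMod dI) (ht : p • t = 0) : t = 0 := by
  obtain ⟨a, rfl⟩ := Submodule.Quotient.mk_surjective _ t
  rw [← Submodule.Quotient.mk_smul, Submodule.Quotient.mk_eq_zero] at ht
  obtain ⟨α, hα⟩ := ht
  obtain ⟨β, rfl⟩ := hroot α ⟨a, hα⟩
  rw [Submodule.Quotient.mk_eq_zero]
  refine ⟨β, ?_⟩
  have h1 : p • (dI.hom β - a) = 0 := by
    rw [smul_sub, ← hα]
    show p • dI.hom β - dI.hom.toLinearMap (p • β) = 0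
    rw [map_nsmul]
    exact sub_self _
  exact sub_eq_zero.1 (hItf _ h1)

/-- the class group is torsion of order prime to `p` -/
theorem clMod_torsion_prime_to_p {p : ℕ} (hp : p.Prime)
    (htors : ∀ a : I, ∃ m : ℕ, 0 < m ∧ ∃ α : K, dI.hom α = m • a)
    (hItf : ∀ a : I, p • a = 0 → a = 0)
    (hroot : ∀ α : K, (∃ a : I, dI.hom α = p • a) → ∃ β : K, p • β = α) (t : clMod dI) :
    ∃ m : ℕ, 0 < m ∧ ¬ p ∣ m ∧ m • t = 0 := by
  refine exists_prime_to_p_nsmul hp ?_ (clMod_no_p_torsion dI hItf hroot) t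
  intro t
  obtain ⟨a, rfl⟩ := Submodule.Quotient.mk_surjective _ t
  obtain ⟨m, hm0, α, hα⟩ := htors a
  refine ⟨m, hm0, ?_⟩
  rw [← Submodule.Quotient.mk_smul, Submodule.Quotient.mk_eq_zero]
  exact ⟨α, hα⟩

end Capitulation

section Main

variable {𝒰 : LevelStr Γ}

/-- **(36-C)(i)** `H¹(classMod)(p) = 0 ⇒ H¹(J/E)(p) = 0`. -/
theorem h1PrimaryVanishes_unitQuot (hJ : 𝒰.IsSmooth J) (hI : 𝒰.IsSmooth I) {p : ℕ}
    (hp : p.Prime)
    (htors : ∀ a : I, ∃ m : ℕ, 0 < m ∧ ∃ α : K, dI.hom α = m • a)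
    (hItf : ∀ a : I, p • a = 0 → a = 0)
    (hroot : ∀ α : K, (∃ a : I, dI.hom α = p • a) → ∃ β : K, p • β = α)
    (hvan : H1PrimaryVanishes 𝒰 p (classMod dJ dI)) :
    H1PrimaryVanishes 𝒰 p (unitQuot dJ dI) :=
  h1PrimaryVanishes_of_shortExact (shortExact dJ dI) (isSmooth_classMod dJ dI hJ hI) hp
    (clMod_torsion_prime_to_p dI hp htors hItf hroot) hvan

/-- **(36-C)(ii)** `H²(J/E) → H²(classMod)` is injective on `p`-primary classes. -/
theorem H2map_inclHom_injective_on_primary (hJ : 𝒰.IsSmooth J) (hI : 𝒰.IsSmooth I) {p : ℕ}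
    (hp : p.Prime)
    (htors : ∀ a : I, ∃ m : ℕ, 0 < m ∧ ∃ α : K, dI.hom α = m • a)
    (hItf : ∀ a : I, p • a = 0 → a = 0)
    (hroot : ∀ α : K, (∃ a : I, dI.hom α = p • a) → ∃ β : K, p • β = α)
    (x : 𝒰.H2 (unitQuot dJ dI)) (hx : ∃ n : ℕ, p ^ n • x = 0)
    (hfx : H2map 𝒰 (inclHom dJ dI) x = 0) : x = 0 :=
  H2map_injective_on_primary (shortExact dJ dI) (isSmooth_classMod dJ dI hJ hI) hp
    (clMod_torsion_prime_to_p dI hp htors hItf hroot) x hx hfx

end Main

end Fermat.Agent.S55.CS79.ClassSeq
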