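/-
S55 / 36-CS (helper79), part 3a: direct sums of representations (for the ideal module
`I^S = ⨁_{ℓ ∉ S} Coind ℤ`): smoothness, invariant descent data, maps into a direct sum from a
finitely supported family of morphisms.
-/
import Fermat.Agent.S55.CS79.InvDescent

set_option autoImplicit false

universe u

open CategoryTheory DirectSum

namespace Fermat.Agent.S55.CS79.DirectSumRep

open Fermat.Agent.S55.Profin15 Fermat.Agent.S55.CS79.InvDescent

variable {k Γ : Type u} [CommRing k] [Group Γ] {ι : Type u}

/-- the direct sum of a family of representations -/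
noncomputable abbrev dsRep (A : ι → Rep.{u} k Γ) : Rep.{u} k Γ :=
  Rep.of (Representation.directSum fun i => (A i).ρ)

theorem dsRep_ρ_apply (A : ι → Rep.{u} k Γ) (g : Γ) (x : dsRep A) (i : ι) :
    ((dsRep A).ρ g x) i = (A i).ρ g (x i) := rfl

/-- the direct sum of smooth representations is smooth -/
theorem isSmooth_dsRep {𝒰 : LevelStr Γ} (A : ι → Rep.{u} k Γ) (hA : ∀ i, 𝒰.IsSmooth (A i)) :
    𝒰.IsSmooth (dsRep A) := by
  classical
  intro x
  -- a common level for the finitely many non-zero components
  have key : ∀ s : Finset ι, ∃ U ∈ 𝒰.levels, ∀ i ∈ s, ∀ g ∈ U, (A i).ρ g (x i) = x i := by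
    intro s
    induction s using Finset.induction_on with
    | empty =>
      obtain ⟨U, hU⟩ := 𝒰.nonempty
      exact ⟨U, hU, fun i hi => absurd hi (Finset.notMem_empty i)⟩
    | insert a s _ ih =>
      obtain ⟨U, hU, h⟩ := ih
      obtain ⟨V, hV, hV'⟩ := hA a (x a)
      obtain ⟨W, hW, hle⟩ := 𝒰.directed U hU V hV
      refine ⟨W, hW, fun i hi g hg => ?_⟩
      rcases Finset.mem_insert.1 hi with rfl | hi
      · exact hV' g (hle.trans inf_le_right hg)
      · exact h i hi g (hle.trans inf_le_left hg)
  obtain ⟨U, hU, h⟩ := key (DFinsupp.support x)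
  refine ⟨U, hU, fun g hg => ?_⟩
  refine DFinsupp.ext fun i => ?_
  rw [dsRep_ρ_apply]
  by_cases hi : i ∈ DFinsupp.support x
  · exact h i hi g hg
  · rw [DFinsupp.notMem_support_iff.1 hi, map_zero]

/-- invariant descent data pass to direct sums -/
theorem isInvDescent_dsRep {Q : Type u} [Group Q] {π : Γ →* Q} (A : ι → Rep.{u} k Γ)
    (B : ι → Rep.{u} k Q) (e : ∀ i, B i →ₗ[k] A i)
    (h : ∀ i, IsInvDescent (A i) π (B i) (e i)) :
    IsInvDescent (dsRep A) π (dsRep B) (DirectSum.lmap e) := by
  classical
  refine ⟨(DirectSum.lmap_injective e).2 fun i => (h i).inj, ?_, ?_⟩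
  · intro x
    constructor
    · rintro ⟨y, rfl⟩ s hs
      refine DFinsupp.ext fun i => ?_
      rw [dsRep_ρ_apply, DirectSum.lmap_apply]
      exact (h i).fixed (y i) hs
    · intro hx
      have hfix : ∀ i, ∀ s : Γ, π s = 1 → (A i).ρ s (x i) = x i := by
        intro i s hs
        exact congrArg (fun z : dsRep A => z i) (hx s hs)
      choose b hb using fun i => (h i).exists_eq (hfix i)
      refine ⟨DFinsupp.mk (DFinsupp.support x) (fun i => b i), ?_⟩
      refine DFinsupp.ext fun i => ?_
      rw [DirectSum.lmap_apply, DFinsupp.mk_apply]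
      by_cases hi : i ∈ DFinsupp.support x
      · rw [dif_pos hi]
        exact hb i
      · rw [dif_neg hi, map_zero, DFinsupp.notMem_support_iff.1 hi]
  · intro g y
    refine DFinsupp.ext fun i => ?_
    rw [dsRep_ρ_apply, DirectSum.lmap_apply, DirectSum.lmap_apply, dsRep_ρ_apply]
    exact (h i).equivariant g (y i)

section Lift

variable [DecidableEq ι] {K : Rep.{u} k Γ} (A : ι → Rep.{u} k Γ) (d : ∀ i, K ⟶ A i)
  (hfin : ∀ x : K, {i | (d i).hom x ≠ 0}.Finite)

/-- the map into the direct sum defined by a finitely supported family of morphisms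
(function) -/
noncomputable def dsLiftFun (x : K) : dsRep A :=
  DFinsupp.mk (hfin x).toFinset (fun i => (d i.1).hom x)

theorem dsLiftFun_apply (x : K) (i : ι) : dsLiftFun A d hfin x i = (d i).hom x := by
  rw [dsLiftFun, DFinsupp.mk_apply]
  split_ifs with hz
  · rfl
  · by_contra hne
    exact hz ((hfin x).mem_toFinset.2 (fun h => hne h.symm))

/-- the map into the direct sum defined by a finitely supported family of morphisms
(linear map) -/
noncomputable def dsLiftLin : K →ₗ[k] dsRep A where
  toFun := dsLiftFun A d hfin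
  map_add' x y := DFinsupp.ext fun i => by
    rw [DFinsupp.add_apply, dsLiftFun_apply, dsLiftFun_apply, dsLiftFun_apply]
    exact map_add (d i).hom.toLinearMap x y
  map_smul' c x := DFinsupp.ext fun i => by
    rw [DFinsupp.smul_apply, dsLiftFun_apply, dsLiftFun_apply]
    exact map_smul (d i).hom.toLinearMap c x

theorem dsLiftLin_apply (x : K) (i : ι) : dsLiftLin A d hfin x i = (d i).hom x :=
  dsLiftFun_apply A d hfin x i

/-- the morphism into the direct sum defined by a finitely supported family of morphisms -/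
noncomputable def dsLift : K ⟶ dsRep A :=
  Rep.ofHom ⟨dsLiftLin A d hfin, fun g => LinearMap.ext fun x => DFinsupp.ext fun i => by
    show dsLiftLin A d hfin (K.ρ g x) i = ((dsRep A).ρ g (dsLiftLin A d hfin x)) i
    rw [dsRep_ρ_apply, dsLiftLin_apply, dsLiftLin_apply]
    exact Rep.hom_comm_apply (d i) g x⟩

theorem dsLift_apply (x : K) (i : ι) : (dsLift A d hfin).hom x i = (d i).hom x :=
  dsLiftLin_apply A d hfin x i

end Lift

end Fermat.Agent.S55.CS79.DirectSumRep
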