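/-
S55 / 36-CS (helper79), part 3b (36-D1): the divisor map in the limit.

For a prime `ℓ ∉ S` and `u ∈ Q_Sˣ` the valuations `v_ℓ(ι_ℓ(g u))`, `g ∈ G_ℚ`, are integers
(`UnrBridge42`), vanish for almost all `ℓ` (`PlaceDict58`) and define
`divAtHom S ℓ : QSxRep S ⟶ JS S ℓ (trivial ℤ)`, hence
`divLim S : QSxRep S ⟶ ISlim S := ⨁_{ℓ ∉ S} JS S ℓ (trivial ℤ)`, the divisor map of `Q_Sˣ`
(kernel = `S`-units `E_S`).  `p`-capitulation (`Capit72`) gives the root hypothesis of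
`ClassSeq`.
-/
import Fermat.Agent.S55.CS79.Limit
import Fermat.Agent.S55.CS79.DirectSum
import Fermat.Agent.S55.CS79.ClassSeq
import Fermat.Agent.S55.ESRep20
import Fermat.Agent.S55.UnrBridge42.IdeleAdapter
import Fermat.Agent.S55.PlaceDict58
import Fermat.Agent.S55.Capit72.Val

set_option autoImplicit false

open CategoryTheory

namespace Fermat.Agent.S55.CS79.DivLimit

open Fermat.Agent.S55.Profin15 Fermat.Agent.S55.Idele73.Basic Fermat.Agent.S55.IdeleVal44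
open Fermat.Agent.S55.ESDiv20 hiding GQ Qb
open Fermat.Agent.S55.ESRep20
open Fermat.Agent.S55.CS79.Smooth Fermat.Agent.S55.CS79.Limit Fermat.Agent.S55.CS79.DirectSumRep

section Coord

variable (ℓ : ℕ) [Fact ℓ.Prime]

/-- the unit `ι_ℓ (g u)` of `PadicAlgCl ℓ` -/
noncomputable def locU (g : GQ) (u : Qbarˣ) : (PadicAlgCl ℓ)ˣ :=
  Units.map ((padicEmbedding ℓ : Qbar →* PadicAlgCl ℓ)) (Units.map (g : Qbar →* Qbar) u)

@[simp] theorem coe_locU (g : GQ) (u : Qbarˣ) :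
    ((locU ℓ g u : (PadicAlgCl ℓ)ˣ) : PadicAlgCl ℓ) = padicEmbedding ℓ (g (u : Qbar)) := rfl

theorem locU_mul (g : GQ) (u v : Qbarˣ) : locU ℓ g (u * v) = locU ℓ g u * locU ℓ g v := by
  simp only [locU, map_mul]

/-- the valuation coordinate `v_ℓ(ι_ℓ(g u))` -/
noncomputable def valAt (g : GQ) (u : Qbarˣ) : ℝ := valAdd ℓ (Additive.ofMul (locU ℓ g u))

theorem valAt_mul (g : GQ) (u v : Qbarˣ) : valAt ℓ g (u * v) = valAt ℓ g u + valAt ℓ g v := by
  rw [valAt, locU_mul, ofMul_mul, map_add]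
  rfl

theorem valAt_mul_right (g σ : GQ) (u : Qbarˣ) :
    valAt ℓ (g * σ) u = valAt ℓ g (Units.map (σ : Qbar →* Qbar) u) := rfl

theorem valAt_local (τ : Gq ℓ) (g : GQ) (u : Qbarˣ) :
    valAt ℓ (localGaloisToGlobal ℓ τ * g) u = valAt ℓ g u := by
  have h : locU ℓ (localGaloisToGlobal ℓ τ * g) u = τ • locU ℓ g u := by
    apply Units.ext
    show padicEmbedding ℓ ((localGaloisToGlobal ℓ τ * g) (u : Qbar)) = τ (padicEmbedding ℓ (g (u : Qbar)))
    rw [AlgEquiv.mul_apply, padicEmbedding_localGaloisToGlobal]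
  rw [valAt, h]
  exact valAdd_smul ℓ τ (Additive.ofMul (locU ℓ g u))

end Coord

section Integral

variable (S : Finset Nat.Primes) (ℓ : ℕ) [Fact ℓ.Prime]

/-- **integrality**: for `ℓ ∉ S` and `u ∈ Q_Sˣ` the valuations `v_ℓ(ι_ℓ(g u))` are integers -/
theorem valAt_int (hℓ : (⟨ℓ, Fact.out⟩ : Nat.Primes) ∉ S) (g : GQ) {u : Qbarˣ}
    (hu : (u : Qbar) ∈ QS S) : ∃ n : ℤ, valAt ℓ g u = n := by
  obtain ⟨F, hF, huF⟩ := mem_QS_iff.1 hu
  have hFg := isUnramifiedOutside_map hF g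
  have hx : padicEmbedding ℓ (g (u : Qbar)) ∈
      ProfinLoc80.localLevel ℓ (F.map (g : Qbar →ₐ[ℚ] Qbar)) :=
    ProfinLoc80.padicEmbedding_mem_localLevel ℓ (F.map (g : Qbar →ₐ[ℚ] Qbar))
      ⟨g (u : Qbar), (IntermediateField.mem_map F).2 ⟨(u : Qbar), huF, rfl⟩⟩
  have hx0 : padicEmbedding ℓ (g (u : Qbar)) ≠ 0 :=
    (map_ne_zero _).mpr ((map_ne_zero _).mpr (Units.ne_zero u))
  obtain ⟨n, hn⟩ := UnrBridge42.exists_zpow_norm_eq ℓ hFg hℓ hx hx0
  exact ⟨n, (Capit72.norm_eq_zpow_iff_valAdd ℓ (locU ℓ g u) n).1 hn⟩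

/-- the `ℤ`-valued divisor coordinate -/
noncomputable def divAt (g : GQ) (u : Qbarˣ) : ℤ := ⌊valAt ℓ g u⌋

theorem divAt_cast (hℓ : (⟨ℓ, Fact.out⟩ : Nat.Primes) ∉ S) (g : GQ) {u : Qbarˣ}
    (hu : (u : Qbar) ∈ QS S) : ((divAt ℓ g u : ℤ) : ℝ) = valAt ℓ g u := by
  obtain ⟨n, hn⟩ := valAt_int S ℓ hℓ g hu
  rw [divAt, hn, Int.floor_intCast]

theorem divAt_mul (hℓ : (⟨ℓ, Fact.out⟩ : Nat.Primes) ∉ S) (g : GQ) {u v : Qbarˣ}
    (hu : (u : Qbar) ∈ QS S) (hv : (v : Qbar) ∈ QS S) :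
    divAt ℓ g (u * v) = divAt ℓ g u + divAt ℓ g v := by
  have huv : ((u * v : Qbarˣ) : Qbar) ∈ QS S := by
    rw [Units.val_mul]
    exact mul_mem hu hv
  have h : ((divAt ℓ g (u * v) : ℤ) : ℝ) = ((divAt ℓ g u + divAt ℓ g v : ℤ) : ℝ) := by
    rw [Int.cast_add, divAt_cast S ℓ hℓ g huv, divAt_cast S ℓ hℓ g hu, divAt_cast S ℓ hℓ g hv,
      valAt_mul]
  exact_mod_cast h

theorem divAt_one (g : GQ) : divAt ℓ g 1 = 0 := by
  have : valAt ℓ g 1 = 0 := by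
    have h : locU ℓ g 1 = 1 := by simp only [locU, map_one]
    rw [valAt, h, ofMul_one, map_zero]
  rw [divAt, this, Int.floor_zero]

theorem divAt_local (τ : Gq ℓ) (g : GQ) (u : Qbarˣ) :
    divAt ℓ (localGaloisToGlobal ℓ τ * g) u = divAt ℓ g u := by
  rw [divAt, valAt_local, divAt]

end Integral

section Hom

variable (S : Finset Nat.Primes) (ℓ : ℕ) [Fact ℓ.Prime]

/-- the trivial coefficient module `ℤ` of the local group -/
noncomputable abbrev trivZ : Rep.{0} ℤ (Gq ℓ) := Rep.trivial ℤ (Gq ℓ) ℤ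

/-- the underlying unit of an element of `QSxRep S` -/
def toUnit (x : QSxRep S) : Qbarˣ := ((Additive.toMul (show Additive ↥(QSx S) from x) : ↥(QSx S)) : Qbarˣ)

theorem toUnit_mem (x : QSxRep S) : ((toUnit S x : Qbarˣ) : Qbar) ∈ QS S :=
  (Additive.toMul (show Additive ↥(QSx S) from x) : ↥(QSx S)).2

theorem toUnit_add (x y : QSxRep S) : toUnit S (x + y) = toUnit S x * toUnit S y := rfl

theorem toUnit_zero : toUnit S (0 : QSxRep S) = 1 := rfl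

theorem toUnit_ρ (σ : GQ) (x : QSxRep S) :
    toUnit S ((QSxRep S).ρ σ x) = Units.map (σ : Qbar →* Qbar) (toUnit S x) := rfl

/-- the divisor of `x ∈ Q_Sˣ` at `ℓ`, as a function on `G_ℚ` -/
noncomputable def divFun (x : QSxRep S) : GQ → ℤ := fun g => divAt ℓ g (toUnit S x)

theorem divFun_mem_coindV (x : QSxRep S) :
    divFun S ℓ x ∈ Representation.coindV (localGaloisToGlobal ℓ) (trivZ ℓ).ρ := by
  intro τ g
  show divAt ℓ (localGaloisToGlobal ℓ τ * g) (toUnit S x) = divAt ℓ g (toUnit S x)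
  exact divAt_local ℓ τ g _

theorem divFun_mem_smoothSub (x : QSxRep S) :
    (⟨divFun S ℓ x, divFun_mem_coindV S ℓ x⟩ : Jbig ℓ (trivZ ℓ)) ∈
      smoothSub (globalLevels S) (Jbig ℓ (trivZ ℓ)) := by
  obtain ⟨F, hF, huF⟩ := mem_QS_iff.1 (toUnit_mem S x)
  obtain ⟨U, hU, hle⟩ := exists_level_le hF
  refine ⟨U, hU, fun s hs => ?_⟩
  apply Subtype.ext
  funext g
  show divAt ℓ (g * s) (toUnit S x) = divAt ℓ g (toUnit S x)
  have hs' : Units.map (s : Qbar →* Qbar) (toUnit S x) = toUnit S x := by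
    apply Units.ext
    exact (IntermediateField.mem_fixingSubgroup_iff F s).1 (hle hs) _ huF
  rw [divAt, valAt_mul_right, hs', divAt]

/-- the divisor at `ℓ ∉ S` (additive map) -/
noncomputable def divAtAdd (hℓ : (⟨ℓ, Fact.out⟩ : Nat.Primes) ∉ S) :
    QSxRep S →+ JS S ℓ (trivZ ℓ) where
  toFun x := ⟨⟨divFun S ℓ x, divFun_mem_coindV S ℓ x⟩, divFun_mem_smoothSub S ℓ x⟩
  map_zero' := by
    apply Subtype.ext
    apply Subtype.ext
    funext g
    show divAt ℓ g (toUnit S 0) = 0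
    rw [toUnit_zero, divAt_one]
  map_add' x y := by
    apply Subtype.ext
    apply Subtype.ext
    funext g
    show divAt ℓ g (toUnit S (x + y)) = divAt ℓ g (toUnit S x) + divAt ℓ g (toUnit S y)
    rw [toUnit_add]
    exact divAt_mul S ℓ hℓ g (toUnit_mem S x) (toUnit_mem S y)

theorem divAtAdd_apply (hℓ : (⟨ℓ, Fact.out⟩ : Nat.Primes) ∉ S) (x : QSxRep S) (g : GQ) :
    (smoothIncl (globalLevels S) (Jbig ℓ (trivZ ℓ)) (divAtAdd S ℓ hℓ x)).1 g =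
      divAt ℓ g (toUnit S x) := rfl

/-- **the divisor at `ℓ ∉ S`** `Q_Sˣ ⟶ JS S ℓ ℤ` -/
noncomputable def divAtHom (hℓ : (⟨ℓ, Fact.out⟩ : Nat.Primes) ∉ S) :
    QSxRep S ⟶ JS S ℓ (trivZ ℓ) :=
  Rep.ofHom ⟨(divAtAdd S ℓ hℓ).toIntLinearMap, fun σ => LinearMap.ext fun x => by
    apply Subtype.ext
    apply Subtype.ext
    funext g
    rfl⟩

theorem divAtHom_apply (hℓ : (⟨ℓ, Fact.out⟩ : Nat.Primes) ∉ S) (x : QSxRep S) (g : GQ) :
    (smoothIncl (globalLevels S) (Jbig ℓ (trivZ ℓ)) ((divAtHom S ℓ hℓ).hom x)).1 g =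
      divAt ℓ g (toUnit S x) := rfl

end Hom

section Sum

variable (S : Finset Nat.Primes)

/-- the primes outside `S` -/
abbrev PrimesOut : Type := {ℓ : Nat.Primes // ℓ ∉ S}

instance factPrimesOut (ℓ : PrimesOut S) : Fact ((ℓ.1 : ℕ)).Prime := ⟨ℓ.1.2⟩

theorem primesOut_notMem (ℓ : PrimesOut S) : (⟨(ℓ.1 : ℕ), Fact.out⟩ : Nat.Primes) ∉ S := ℓ.2

/-- **the limit ideal module** `I^S = ⨁_{ℓ ∉ S} JS S ℓ ℤ` -/
noncomputable abbrev ISlim : Rep.{0} ℤ GQ :=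
  dsRep (fun ℓ : PrimesOut S => JS S (ℓ.1 : ℕ) (trivZ (ℓ.1 : ℕ)))

theorem isSmooth_ISlim : (globalLevels S).IsSmooth (ISlim S) :=
  isSmooth_dsRep _ fun ℓ => isSmooth_JS S (ℓ.1 : ℕ) (trivZ (ℓ.1 : ℕ))

/-- almost all valuations of `u ∈ ℚ̄ˣ` vanish -/
theorem exists_nat_forall_valAt_eq_zero (u : Qbarˣ) :
    ∃ N : ℕ, N ≠ 0 ∧ ∀ (ℓ : ℕ) [Fact ℓ.Prime], ¬ ℓ ∣ N → ∀ g : GQ, valAt ℓ g u = 0 := by
  let L : IntermediateField ℚ Qbar := ⊤
  let x : Lˣ := Units.map ((IntermediateField.topEquiv (F := ℚ) (E := Qbar)).symm : Qbar →* L) u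
  obtain ⟨N, hN, h⟩ := PlaceDict58.exists_nat_forall_nrm_eq_one L x
  refine ⟨N, hN, fun ℓ _ hdvd g => ?_⟩
  have h1 := h ℓ hdvd ((g : Qbar →ₐ[ℚ] Qbar).comp L.val)
  have h2 : ‖((locU ℓ g u : (PadicAlgCl ℓ)ˣ) : PadicAlgCl ℓ)‖ = 1 := h1
  rw [valAt, valAdd_apply, toMul_ofMul, h2, Real.log_one, neg_zero, zero_div]

theorem finite_divAtHom_ne_zero (x : QSxRep S) :
    {ℓ : PrimesOut S | (divAtHom S (ℓ.1 : ℕ) (primesOut_notMem S ℓ)).hom x ≠ 0}.Finite := by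
  obtain ⟨N, hN, h⟩ := exists_nat_forall_valAt_eq_zero (toUnit S x)
  have hfin : {ℓ : PrimesOut S | ((ℓ.1 : Nat.Primes) : ℕ) ∣ N}.Finite := by
    have h1 : {n : ℕ | n ∣ N}.Finite := by
      apply Set.Finite.subset (Set.finite_Iic N)
      intro n hn
      exact Nat.le_of_dvd (Nat.pos_of_ne_zero hN) hn
    exact Set.Finite.preimage (f := fun ℓ : PrimesOut S => ((ℓ.1 : Nat.Primes) : ℕ))
      ((Subtype.val_injective.comp Subtype.val_injective).injOn) h1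
  refine hfin.subset fun ℓ hℓ => ?_
  by_contra hdvd
  apply hℓ
  apply Subtype.ext
  apply Subtype.ext
  funext g
  show divAt (ℓ.1 : ℕ) g (toUnit S x) = 0
  rw [divAt, h (ℓ.1 : ℕ) hdvd g, Int.floor_zero]

/-- **the divisor map in the limit** `Q_Sˣ ⟶ I^S` -/
noncomputable def divLim : QSxRep S ⟶ ISlim S :=
  dsLift (fun ℓ : PrimesOut S => JS S (ℓ.1 : ℕ) (trivZ (ℓ.1 : ℕ)))
    (fun ℓ => divAtHom S (ℓ.1 : ℕ) (primesOut_notMem S ℓ)) (finite_divAtHom_ne_zero S)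

theorem divLim_apply (x : QSxRep S) (ℓ : PrimesOut S) (g : GQ) :
    (smoothIncl (globalLevels S) (Jbig (ℓ.1 : ℕ) (trivZ (ℓ.1 : ℕ)))
      ((divLim S).hom x ℓ)).1 g = divAt (ℓ.1 : ℕ) g (toUnit S x) := by
  rw [divLim, dsLift_apply]
  rfl

end Sum

section ClassHyp

variable (S : Finset Nat.Primes)

/-- the limit ideal module is torsion free -/
theorem ISlim_torsion_free {m : ℕ} (hm : m ≠ 0) (a : ISlim S) (ha : m • a = 0) : a = 0 := by
  refine DFinsupp.ext fun ℓ => ?_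
  have h1 : m • (a ℓ) = 0 := by
    have := congrArg (fun z : ISlim S => z ℓ) ha
    exact this
  apply Subtype.ext
  apply Subtype.ext
  funext g
  have h2 := congrFun (congrArg Subtype.val (congrArg Subtype.val h1)) g
  have h3 : m • ((a ℓ).1.1 g) = 0 := h2
  rw [nsmul_eq_mul] at h3
  rcases mul_eq_zero.1 h3 with h | h
  · exact absurd (by exact_mod_cast h) hm
  · exact h

variable {p : ℕ} [Fact p.Prime]

/-- **`p`-capitulation in the limit** (`Capit72`): an element of `Q_Sˣ` whose divisor is divisible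
by `p` is a `p`-th power in `Q_Sˣ` (for `p ∈ S`). -/
theorem exists_root_of_divLim (hpS : ExtCitation.pPrime p ∈ S) (α : QSxRep S)
    (hα : ∃ a : ISlim S, (divLim S).hom α = p • a) : ∃ β : QSxRep S, p • β = α := by
  obtain ⟨a, ha⟩ := hα
  obtain ⟨F, hF, hαF⟩ := mem_QS_iff.1 (toUnit_mem S α)
  have hα0 : ((toUnit S α : Qbarˣ) : Qbar) ≠ 0 := Units.ne_zero _
  have hval : ∀ (q : ℕ) [Fact q.Prime], (⟨q, Fact.out⟩ : Nat.Primes) ∉ S → ∀ σ : GQ,
      ∃ n : ℤ, valAdd q (Additive.ofMul (Capit72.locUnit q σ hα0)) = ((p ^ 1 : ℕ) : ℤ) * n := by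
    intro q _ hq σ
    let ℓ : PrimesOut S := ⟨⟨q, Fact.out⟩, hq⟩
    refine ⟨(a ℓ).1.1 σ, ?_⟩
    have h1 : Capit72.locUnit q σ hα0 = locU q σ (toUnit S α) := Units.ext rfl
    have h2 : (((divLim S).hom α ℓ).1.1 σ : ℤ) = p * (a ℓ).1.1 σ := by
      rw [ha]
      show (p • (a ℓ)).1.1 σ = _
      exact nsmul_eq_mul _ _
    have h3 : (((divLim S).hom α ℓ).1.1 σ : ℤ) = divAt q σ (toUnit S α) := divLim_apply S α ℓ σ
    have h4 := divAt_cast S q hq σ (toUnit_mem S α)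
    rw [h1]
    show valAt q σ (toUnit S α) = _
    rw [← h4, ← h3, h2]
    push_cast
    ring
  obtain ⟨F', -, hF', -, β, hβF', hβ⟩ :=
    Capit72.exists_level_root_pow_of_valAdd hpS hF 1 hαF hα0 hval
  rw [pow_one] at hβ
  have hβ0 : β ≠ 0 := by
    rintro rfl
    rw [zero_pow (Fact.out : p.Prime).ne_zero] at hβ
    exact hα0 hβ.symm
  let βu : Qbarˣ := Units.mk0 β hβ0
  have hβQ : βu ∈ QSx S := le_QS hF' hβF'
  refine ⟨Additive.ofMul (⟨βu, hβQ⟩ : ↥(QSx S)), ?_⟩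
  show Additive.ofMul ((⟨βu, hβQ⟩ : ↥(QSx S)) ^ p) = α
  have h5 : (⟨βu, hβQ⟩ : ↥(QSx S)) ^ p = Additive.toMul (show Additive ↥(QSx S) from α) := by
    apply Subtype.ext
    apply Units.ext
    exact hβ
  rw [h5]
  rfl

end ClassHyp

section Main

open Fermat.Agent.S55.CS79.ClassSeq Fermat.Agent.S55.CS79.Primary Fermat.Agent.S55.LevelLES13

variable (S : Finset Nat.Primes) {J : Rep.{0} ℤ GQ} (dJ : QSxRep S ⟶ J)

/-- **the limit `S`-idele class module** `C_S = coker (Q_Sˣ → J × I^S)` (for any idele module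
`J` with diagonal `dJ`, e.g. helper94's `JSp S`, `diagJ`) -/
noncomputable abbrev CSlim : Rep.{0} ℤ GQ := classMod dJ (divLim S)

/-- `J / E_S`, `E_S = ker (divLim S)` the `S`-units of `Q_S` -/
noncomputable abbrev CSunit : Rep.{0} ℤ GQ := unitQuot dJ (divLim S)

/-- finiteness of the `S`-class groups, in the only form used: every element of the limit ideal
module has a non-zero multiple which is a principal divisor (NAMED hypothesis; provider: the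
dictionary `I^S(L)/div(Lˣ) = Cl(𝒪_{L,S})` + finiteness of class groups). -/
def ClassTorsion : Prop :=
  ∀ a : ISlim S, ∃ m : ℕ, 0 < m ∧ ∃ α : QSxRep S, (divLim S).hom α = m • a

variable {p : ℕ} [Fact p.Prime]

/-- **(36-C)(i), concrete, over any open subgroup / any group `Γ → G_ℚ`**:
`H¹(C_S)(p) = 0 ⇒ H¹(J/E_S)(p) = 0`. -/
theorem h1PrimaryVanishes_CSunit {Γ : Type} [Group Γ] (r : Γ →* GQ) (𝒰 : LevelStr Γ)
    (hJ : 𝒰.IsSmooth (Rep.res r J)) (hI : 𝒰.IsSmooth (Rep.res r (ISlim S)))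
    (hpS : ExtCitation.pPrime p ∈ S) (htors : ClassTorsion S)
    (hvan : H1PrimaryVanishes 𝒰 p (classMod (Rep.resMap r dJ) (Rep.resMap r (divLim S)))) :
    H1PrimaryVanishes 𝒰 p (unitQuot (Rep.resMap r dJ) (Rep.resMap r (divLim S))) :=
  h1PrimaryVanishes_unitQuot (Rep.resMap r dJ) (Rep.resMap r (divLim S)) hJ hI
    (Fact.out : p.Prime) htors
    (fun a ha => ISlim_torsion_free S (Fact.out : p.Prime).ne_zero a ha)
    (fun α hα => exists_root_of_divLim S hpS α hα) hvan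

/-- **(36-C)(ii), concrete**: `H²(J/E_S) → H²(C_S)` is injective on `p`-primary classes. -/
theorem H2map_CSunit_injective_on_primary {Γ : Type} [Group Γ] (r : Γ →* GQ) (𝒰 : LevelStr Γ)
    (hJ : 𝒰.IsSmooth (Rep.res r J)) (hI : 𝒰.IsSmooth (Rep.res r (ISlim S)))
    (hpS : ExtCitation.pPrime p ∈ S) (htors : ClassTorsion S)
    (x : 𝒰.H2 (unitQuot (Rep.resMap r dJ) (Rep.resMap r (divLim S))))
    (hx : ∃ n : ℕ, p ^ n • x = 0)
    (hfx : H2map 𝒰 (inclHom (Rep.resMap r dJ) (Rep.resMap r (divLim S))) x = 0) : x = 0 :=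
  H2map_inclHom_injective_on_primary (Rep.resMap r dJ) (Rep.resMap r (divLim S)) hJ hI
    (Fact.out : p.Prime) htors
    (fun a ha => ISlim_torsion_free S (Fact.out : p.Prime).ne_zero a ha)
    (fun α hα => exists_root_of_divLim S hpS α hα) x hx hfx

end Main

end Fermat.Agent.S55.CS79.DivLimit
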