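/-
S55 / 36-CS (helper79), part 4a (36-D2, generic): invariant descent data for binary products
and for finite products presented as direct sums at the finite level.
-/
import Fermat.Agent.S55.CS79.ClassSeq
import Fermat.Agent.S55.CS79.DirectSum
import Fermat.Agent.S55.GlobalMod94.Generic

set_option autoImplicit false

universe u

open CategoryTheory DirectSum

namespace Fermat.Agent.S55.CS79.ProdPi

open Fermat.Agent.S55.Profin15 Fermat.Agent.S55.CS79.InvDescent
open Fermat.Agent.S55.CS79.ClassSeq Fermat.Agent.S55.CS79.DirectSumRep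
open Fermat.Agent.S55.GlobalMod94.Generic

variable {k Γ Q : Type u} [CommRing k] [Group Γ] [Group Q] {π : Γ →* Q}

/-- the product of two linear maps, between the carriers of product representations -/
def prodMapRep {J I : Rep.{u} k Γ} {BJ BI : Rep.{u} k Q} (eJ : BJ →ₗ[k] J) (eI : BI →ₗ[k] I) :
    prodRep BJ BI →ₗ[k] prodRep J I :=
  eJ.prodMap eI

@[simp] theorem prodMapRep_apply {J I : Rep.{u} k Γ} {BJ BI : Rep.{u} k Q} (eJ : BJ →ₗ[k] J)
    (eI : BI →ₗ[k] I) (x : BJ × BI) : prodMapRep eJ eI x = (eJ x.1, eI x.2) := rfl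

/-- invariant descent data pass to binary products -/
theorem isInvDescent_prod {J I : Rep.{u} k Γ} {BJ BI : Rep.{u} k Q} {eJ : BJ →ₗ[k] J}
    {eI : BI →ₗ[k] I} (hJ : IsInvDescent J π BJ eJ) (hI : IsInvDescent I π BI eI) :
    IsInvDescent (prodRep J I) π (prodRep BJ BI) (prodMapRep eJ eI) := by
  refine ⟨?_, ?_, ?_⟩
  · rintro ⟨a, b⟩ ⟨a', b'⟩ h
    have h1 : eJ a = eJ a' := congrArg Prod.fst h
    have h2 : eI b = eI b' := congrArg Prod.snd h
    rw [hJ.inj h1, hI.inj h2]
  · rintro ⟨x, y⟩
    constructor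
    · rintro ⟨⟨a, b⟩, hab⟩ s hs
      have h1 : eJ a = x := congrArg Prod.fst hab
      have h2 : eI b = y := congrArg Prod.snd hab
      show (J.ρ s x, I.ρ s y) = (x, y)
      rw [← h1, ← h2, hJ.fixed a hs, hI.fixed b hs]
    · intro hfix
      have hx : ∀ s : Γ, π s = 1 → J.ρ s x = x := fun s hs => congrArg Prod.fst (hfix s hs)
      have hy : ∀ s : Γ, π s = 1 → I.ρ s y = y := fun s hs => congrArg Prod.snd (hfix s hs)
      obtain ⟨a, ha⟩ := hJ.exists_eq hx
      obtain ⟨b, hb⟩ := hI.exists_eq hy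
      exact ⟨(a, b), Prod.ext ha hb⟩
  · rintro g ⟨a, b⟩
    show (J.ρ g (eJ a), I.ρ g (eI b)) = (eJ (BJ.ρ (π g) a), eI (BI.ρ (π g) b))
    rw [hJ.equivariant, hI.equivariant]

section Pi

variable {ι : Type u} (A : ι → Rep.{u} k Γ) (B : ι → Rep.{u} k Q) (e : ∀ i, B i →ₗ[k] A i)

/-- the componentwise map from a direct sum to a product -/
def dsToPi : dsRep B →ₗ[k] piObj A :=
  LinearMap.pi fun i => (e i).comp (DirectSum.component k ι (fun i => B i) i)

@[simp] theorem dsToPi_apply (y : dsRep B) (i : ι) : dsToPi A B e y i = e i (y i) := rfl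

/-- invariant descent data pass from finite direct sums (finite level) to finite products
(limit) -/
theorem isInvDescent_pi_ds [Finite ι] (h : ∀ i, IsInvDescent (A i) π (B i) (e i)) :
    IsInvDescent (piObj A) π (dsRep B) (dsToPi A B e) := by
  classical
  have := Fintype.ofFinite ι
  refine ⟨?_, ?_, ?_⟩
  · intro y y' hyy'
    refine DFinsupp.ext fun i => (h i).inj ?_
    exact congrFun hyy' i
  · intro a
    constructor
    · rintro ⟨y, rfl⟩ s hs
      funext i
      rw [piObj_ρ_apply, dsToPi_apply]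
      exact (h i).fixed (y i) hs
    · intro hfix
      have hfix' : ∀ i, ∀ s : Γ, π s = 1 → (A i).ρ s (a i) = a i := by
        intro i s hs
        have := congrFun (hfix s hs) i
        rwa [piObj_ρ_apply] at this
      choose b hb using fun i => (h i).exists_eq (hfix' i)
      refine ⟨DFinsupp.equivFunOnFintype.symm b, ?_⟩
      funext i
      rw [dsToPi_apply]
      exact hb i
  · intro g y
    funext i
    rw [piObj_ρ_apply, dsToPi_apply, dsToPi_apply, dsRep_ρ_apply]
    exact (h i).equivariant g (y i)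

end Pi

section IntLin

/-- a linear map between the carriers of two representations (of possibly different groups)
from an additive map; the `Module` instances are those of the representations -/
def linOfAdd {A : Rep.{u} k Γ} {B : Rep.{u} k Q} (f : B →+ A)
    (hf : ∀ (c : k) (b : B), f (c • b) = c • f b) : B →ₗ[k] A :=
  { f with map_smul' := hf }

@[simp] theorem linOfAdd_apply {A : Rep.{u} k Γ} {B : Rep.{u} k Q} (f : B →+ A)
    (hf : ∀ (c : k) (b : B), f (c • b) = c • f b) (b : B) : linOfAdd f hf b = f b := rfl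

/-- over `ℤ` every additive map is linear (for the module structures of the representations) -/
def intLin {Γ Q : Type} [Group Γ] [Group Q] {A : Rep.{0} ℤ Γ} {B : Rep.{0} ℤ Q} (f : B →+ A) :=
  linOfAdd (k := ℤ) (A := A) (B := B) f (fun c b => by
    have := @map_intCast_smul _ _ _ _ _ _ _ f ℤ ℤ _ _ B.hV2 A.hV2 c b
    simpa only [Int.cast_id] using this)

@[simp] theorem intLin_apply {Γ Q : Type} [Group Γ] [Group Q] {A : Rep.{0} ℤ Γ} {B : Rep.{0} ℤ Q}
    (f : B →+ A) (b : B) : intLin f b = f b := rfl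

end IntLin

section MapQ

/-- the map induced on quotient representations (of possibly different groups) by a linear map
of the carriers -/
def mapQRep {M : Rep.{u} k Γ} {BM : Rep.{u} k Q} (W : Submodule k M)
    (hW : ∀ g, W ≤ W.comap (M.ρ g)) (WB : Submodule k BM) (hWB : ∀ q, WB ≤ WB.comap (BM.ρ q))
    (e : BM →ₗ[k] M) (h : WB ≤ W.comap e) : Rep.quotient BM WB hWB →ₗ[k] Rep.quotient M W hW :=
  Submodule.mapQ WB W e h

theorem mapQRep_mk {M : Rep.{u} k Γ} {BM : Rep.{u} k Q} (W : Submodule k M)
    (hW : ∀ g, W ≤ W.comap (M.ρ g)) (WB : Submodule k BM) (hWB : ∀ q, WB ≤ WB.comap (BM.ρ q))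
    (e : BM →ₗ[k] M) (h : WB ≤ W.comap e) (b : BM) :
    mapQRep W hW WB hWB e h (Submodule.Quotient.mk b) = Submodule.Quotient.mk (e b) := rfl

end MapQ

end Fermat.Agent.S55.CS79.ProdPi
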