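/-
S55 / 36-CS (helper79), part 2c: invariants of a quotient module.

For a short exact sequence `0 → K → M → C → 0` of smooth modules and a finite level
`π : Γ →* Q`, if `ker π` has trivial level `H¹` with coefficients in `K` (Hilbert 90 for
`K = K_S^×`), then the `ker π`-invariants of `C` are the cokernel of the invariants:
from descent data `(B_K, e_K)`, `(B_M, e_M)` and a cokernel `B_M → B_C` of `B_K → B_M` we get a
descent datum `(B_C, e_C)` for `C`.  This identifies `C_S^{U_L}` with the finite-level class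
module `coker (Lˣ → J_S(L) × I^S(L))`.
-/
import Fermat.Agent.S55.CS79.Restrict
import Fermat.Agent.S55.LevelLES13.Delta

set_option autoImplicit false

universe u

open CategoryTheory groupCohomology

namespace Fermat.Agent.S55.CS79.QuotInv

open Fermat.Agent.S55.Profin15 Fermat.Agent.S55.CS79.InvDescent Fermat.Agent.S55.CD3
open Fermat.Agent.S55.LevelLES13

variable {k Γ Q : Type u} [CommRing k] [Group Γ] [Group Q]

/-- elementary form of "level `H¹(N, K) = 0`" for a subgroup `N` containing a level -/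
def H1SubVanishes (𝒰 : LevelStr Γ) (K : Rep.{u} k Γ) (N : Subgroup Γ) (hN : IsOpenSub 𝒰 N) :
    Prop :=
  ∀ z : ↥N → K, (restrictLevels 𝒰 N hN).IsConst₁ z →
    (∀ s t : ↥N, z (s * t) = K.ρ (s : Γ) (z t) + z s) →
    ∃ κ : K, ∀ s : ↥N, z s = K.ρ (s : Γ) κ - κ

/-- vanishing of the level `H¹` of the restriction gives the elementary form -/
theorem h1SubVanishes_of_H1 {𝒰 : LevelStr Γ} {K : Rep.{u} k Γ} {N : Subgroup Γ}
    (hN : IsOpenSub 𝒰 N)
    (h : ∀ x : (restrictLevels 𝒰 N hN).H1 (Rep.res N.subtype K), x = 0) :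
    H1SubVanishes 𝒰 K N hN := by
  intro z hz hcoc
  have hz' : z ∈ (restrictLevels 𝒰 N hN).Z₁ (Rep.res N.subtype K) := by
    refine ⟨?_, hz⟩
    exact (mem_cocycles₁_iff (A := Rep.res N.subtype K) z).2 fun s t => hcoc s t
  have := h ((restrictLevels 𝒰 N hN).H1π _ ⟨z, hz'⟩)
  rw [LevelStr.H1π_eq_zero_iff] at this
  obtain ⟨κ, hκ⟩ := this
  refine ⟨κ, fun s => ?_⟩
  have := congrFun hκ s
  simp only [d₀₁_hom_apply] at this
  exact this.symm

variable {𝒰 : LevelStr Γ} {K M C : Rep.{u} k Γ} {f : K ⟶ M} {g : M ⟶ C}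
  {π : Γ →* Q} {BK BM BC : Rep.{u} k Q} {eK : BK →ₗ[k] K} {eM : BM →ₗ[k] M}
  {eC : BC →ₗ[k] C}

/-- **invariants of a quotient**: `C^{ker π} = coker (K^{ker π} → M^{ker π})` when the level
`H¹(ker π, K)` vanishes. -/
theorem isInvDescent_quotient (h : ShortExact f g) (hM : 𝒰.IsSmooth M)
    (hopen : IsOpenSub 𝒰 π.ker)
    (hK : IsInvDescent K π BK eK) (hMd : IsInvDescent M π BM eM)
    (fB : BK →ₗ[k] BM) (gB : BM →ₗ[k] BC)
    (hfB : ∀ b, eM (fB b) = f.hom (eK b)) (hgB : ∀ b, eC (gB b) = g.hom (eM b))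
    (hgB_surj : Function.Surjective gB) (hexact : ∀ b, gB b = 0 ↔ ∃ a, fB a = b)
    (hgB_equiv : ∀ (q : Q) (b : BM), gB (BM.ρ q b) = BC.ρ q (gB b))
    (hH90 : H1SubVanishes 𝒰 K π.ker hopen) :
    IsInvDescent C π BC eC := by
  refine ⟨?_, ?_, ?_⟩
  · -- injectivity
    rw [injective_iff_map_eq_zero]
    intro c hc
    obtain ⟨b, rfl⟩ := hgB_surj c
    rw [hgB] at hc
    obtain ⟨κ, hκ⟩ := (h.exact _).1 hc
    have hκfix : ∀ s : Γ, π s = 1 → K.ρ s κ = κ := by
      intro s hs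
      apply h.inj
      rw [Rep.hom_comm_apply, hκ, hMd.fixed b hs]
    obtain ⟨bK, rfl⟩ := hK.exists_eq hκfix
    rw [← hfB] at hκ
    have := hMd.inj hκ
    exact (hexact b).2 ⟨bK, this⟩
  · intro c
    constructor
    · rintro ⟨c', rfl⟩ s hs
      obtain ⟨b, rfl⟩ := hgB_surj c'
      rw [hgB, ← Rep.hom_comm_apply, hMd.fixed b hs]
    · intro hc
      obtain ⟨m, rfl⟩ := h.surj c
      -- the cocycle `s ↦ s m - m` with values in `K`
      have hg0 : ∀ s : ↥π.ker, g.hom (M.ρ (s : Γ) m - m) = 0 := by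
        intro s
        rw [map_sub, Rep.hom_comm_apply, hc (s : Γ) (MonoidHom.mem_ker.1 s.2), sub_self]
      let z : ↥π.ker → K := fun s => h.pre (M.ρ (s : Γ) m - m)
      have hz : ∀ s, f.hom (z s) = M.ρ (s : Γ) m - m := fun s => h.f_pre (hg0 s)
      have hzcoc : ∀ s t : ↥π.ker, z (s * t) = K.ρ (s : Γ) (z t) + z s := by
        intro s t
        apply h.inj
        rw [map_add, Rep.hom_comm_apply, hz, hz, hz, Subgroup.coe_mul, map_mul,
          Module.End.mul_apply, map_sub]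
        abel
      have hzconst : (restrictLevels 𝒰 π.ker hopen).IsConst₁ z := by
        obtain ⟨U, hU, hfix⟩ := hM m
        obtain ⟨U0, hU0, hle0⟩ := hopen
        obtain ⟨W, hW, hle⟩ := 𝒰.directed U hU U0 hU0
        refine ⟨W.subgroupOf π.ker, ⟨W, hW, (hle.trans inf_le_right).trans hle0, rfl⟩,
          fun s u hu => ?_⟩
        rw [Subgroup.mem_subgroupOf] at hu
        apply h.inj
        rw [hz, hz, Subgroup.coe_mul, map_mul, Module.End.mul_apply,
          hfix _ (hle.trans inf_le_left hu)]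
      obtain ⟨κ, hκ⟩ := hH90 z hzconst hzcoc
      have hfix' : ∀ s : Γ, π s = 1 → M.ρ s (m - f.hom κ) = m - f.hom κ := by
        intro s hs
        have h1 := hz ⟨s, MonoidHom.mem_ker.2 hs⟩
        rw [hκ ⟨s, MonoidHom.mem_ker.2 hs⟩, map_sub, Rep.hom_comm_apply] at h1
        rw [map_sub]
        have : M.ρ s (f.hom κ) - f.hom κ = M.ρ s m - m := h1
        rw [sub_eq_sub_iff_add_eq_add] at this ⊢
        rw [← this, add_comm]
      obtain ⟨b, hb⟩ := hMd.exists_eq hfix'
      refine ⟨gB b, ?_⟩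
      rw [hgB, hb, map_sub, h.g_f, sub_zero]
  · intro γ c
    obtain ⟨b, rfl⟩ := hgB_surj c
    rw [← hgB_equiv, hgB, hgB, ← hMd.equivariant, Rep.hom_comm_apply]

end Fermat.Agent.S55.CS79.QuotInv
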