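/-
S55 / 36-CS (helper79), part 4b (36-D2): **the finite levels of the limit `S`-idele class
module.**

`C_S := CSlim S (diagJ S) = coker (Q_Sˣ → J_S × I^S)` (helper94's `JSp S`, `diagJ S`; this
package's `ISlim S`, `divLim S`).  For every Galois `S`-level `L` (finite, normal, unramified
outside `S`) the `Gal(ℚbar/L)`-invariants of `C_S` are helper44's finite level class module
`IdeleVal44.CS h = (J_S(L) × I^S(L)) / Lˣ`, as an invariant descent datum along
`resL L : G_ℚ → Gal(L/ℚ)`:

  `isInvDescent_CS : IsInvDescent (CSlim S (diagJ S)) (resL L) (IdeleVal44.CS h) (cIncl S L hL h)`.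

Ingredients: the level data of `Q_Sˣ` (infinite Galois theory), of `J_S` and `I^S` (coinduced
modules, `CS79.Limit`), Hilbert 90 for `Q_Sˣ` over `Gal(ℚbar/L)` (`ESRep20.hilbert90_level`) and
`CS79.QuotInv.isInvDescent_quotient`.
-/
import Fermat.Agent.S55.CS79.DivLimit
import Fermat.Agent.S55.CS79.ProdPi
import Fermat.Agent.S55.CS79.QuotInv
import Fermat.Agent.S55.GlobalMod94.JS
import Fermat.Agent.S55.IdeleVal44.Class

set_option autoImplicit false

open CategoryTheory

namespace Fermat.Agent.S55.CS79.LevelClass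

open Fermat.Agent.S55.Profin15 Fermat.Agent.S55.Idele73.Basic
open Fermat.Agent.S55.ESDiv20 hiding GQ Qb
open Fermat.Agent.S55.ESRep20
open Fermat.Agent.S55.CS79.InvDescent Fermat.Agent.S55.CS79.Smooth Fermat.Agent.S55.CS79.Limit
open Fermat.Agent.S55.CS79.DivLimit Fermat.Agent.S55.CS79.ProdPi Fermat.Agent.S55.CS79.QuotInv
open Fermat.Agent.S55.CS79.ClassSeq Fermat.Agent.S55.CS79.DirectSumRep
open Fermat.Agent.S55.CD3
open Fermat.Agent.S55.GlobalMod94.JS Fermat.Agent.S55.GlobalMod94.Generic
open Fermat.Agent.Lib.FrobeniusExists (isAlgebraic_Qb isAlgClosure_Qb isGalois_Qb)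

attribute [local instance] isAlgebraic_Qb isAlgClosure_Qb isGalois_Qb
attribute [local instance] IdeleVal44.factPrimes44

variable (S : Finset Nat.Primes) (L : IntermediateField ℚ Qbar)

theorem toUnit_injective : Function.Injective (toUnit S) := by
  intro x y h
  exact congrArg Additive.ofMul (Subtype.ext h)

/-! ### Hilbert 90 -/

/-- **Hilbert 90** for `Q_Sˣ` over any open subgroup, in the elementary form of `QuotInv` -/
theorem h1SubVanishes_QSx (N : Subgroup GQ) (hN : IsOpenSub (globalLevels S) N) :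
    H1SubVanishes (globalLevels S) (QSxRep S) N hN := by
  intro z hz hcoc
  obtain ⟨W, ⟨U, ⟨_, F, hF, rfl⟩, hUN, rfl⟩, hconst⟩ := hz
  have := hF.1
  obtain ⟨b, hbM, hb⟩ := hilbert90_level N.subtype (fun s => toUnit S (z s))
    (fun σ τ => by
      have h := congrArg (toUnit S) (hcoc σ τ)
      rw [toUnit_add, toUnit_ρ] at h
      rw [h, mul_comm]
      rfl)
    F
    (fun σ s hs => by
      show toUnit S (z (σ * s)) = toUnit S (z σ)
      rw [hconst σ s (Subgroup.mem_subgroupOf.2 hs)])
    (QS S) (fun σ => toUnit_mem S (z σ))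
    (fun σ c hc => QS_galois_stable _ (le_QS hF hc))
  refine ⟨Additive.ofMul (⟨b, hbM⟩ : ↥(QSx S)), fun s => ?_⟩
  apply toUnit_injective
  rw [hb s]
  rfl

/-! ### the level datum of `Q_Sˣ` -/

/-- `Lˣ → Q_Sˣ` for an `S`-level `L` -/
noncomputable def kInclMul (hL : L.IsUnramifiedOutside S) : Lˣ →* ↥(QSx S) where
  toFun x := ⟨Units.map (L.val : L →* Qbar) x, le_QS hL (x : L).2⟩
  map_one' := Subtype.ext (map_one _)
  map_mul' x y := Subtype.ext (map_mul _ x y)

/-- the underlying unit of an element of `Lx L` -/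
def toUnitL (x : Lx L) : Lˣ := Additive.toMul (show Additive Lˣ from x)

theorem toUnitL_ρ (σ : GalL L) (x : Lx L) :
    ((toUnitL L ((Lx L).ρ σ x) : Lˣ) : L) = σ ((toUnitL L x : Lˣ) : L) := rfl

/-- `Lˣ → Q_Sˣ` as an additive map of the carriers -/
noncomputable def kInclAdd (hL : L.IsUnramifiedOutside S) : (Lx L) →+ (QSxRep S) :=
  (show Additive Lˣ →+ Additive ↥(QSx S) from MonoidHom.toAdditive (kInclMul S L hL))

/-- `Lˣ → Q_Sˣ` as a linear map of the carriers -/
noncomputable def kIncl (hL : L.IsUnramifiedOutside S) :=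
  intLin (A := QSxRep S) (B := Lx L) (kInclAdd S L hL)

theorem kIncl_coe (hL : L.IsUnramifiedOutside S) (x : Lx L) :
    ((toUnit S (kIncl S L hL x) : Qbarˣ) : Qbar) = ((toUnitL L x : L) : Qbar) := rfl

variable [Normal ℚ L]

/-- **the level datum of `Q_Sˣ`**: `(Q_Sˣ)^{Gal(ℚbar/L)} = Lˣ` -/
theorem isInvDescent_kIncl (hL : L.IsUnramifiedOutside S) :
    IsInvDescent (QSxRep S) (resL L) (Lx L) (kIncl S L hL) := by
  refine ⟨?_, ?_, ?_⟩
  · intro x y hxy
    have h1 := congrArg (fun z : QSxRep S => ((DivLimit.toUnit S z : Qbarˣ) : Qbar)) hxy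
    have h2 : ((toUnitL L x : L) : Qbar) = ((toUnitL L y : L) : Qbar) := h1
    exact congrArg Additive.ofMul (Units.ext (Subtype.ext h2))
  · intro a
    constructor
    · rintro ⟨x, rfl⟩ s hs
      apply toUnit_injective
      apply Units.ext
      rw [toUnit_ρ, Units.coe_map]
      show s ((toUnit S (kIncl S L hL x) : Qbarˣ) : Qbar) =
        ((toUnit S (kIncl S L hL x) : Qbarˣ) : Qbar)
      rw [kIncl_coe]
      have := resL_apply L s (toUnitL L x : L)
      rw [hs] at this
      exact this.symm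
    · intro hfix
      have hmem : ((toUnit S a : Qbarˣ) : Qbar) ∈ L := by
        rw [← InfiniteGalois.fixedField_fixingSubgroup L, IntermediateField.mem_fixedField_iff]
        intro s hs
        have hs' : resL L s = 1 := by
          rw [← MonoidHom.mem_ker, resL_ker]
          exact hs
        have := congrArg (fun z : QSxRep S => ((toUnit S z : Qbarˣ) : Qbar)) (hfix s hs')
        exact this
      have h0 : (⟨((toUnit S a : Qbarˣ) : Qbar), hmem⟩ : L) ≠ 0 := by
        intro h
        have := congrArg Subtype.val h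
        exact Units.ne_zero _ this
      refine ⟨Additive.ofMul (Units.mk0 _ h0), ?_⟩
      apply toUnit_injective
      apply Units.ext
      rfl
  · intro g b
    apply toUnit_injective
    apply Units.ext
    rw [toUnit_ρ, Units.coe_map]
    show g ((toUnit S (kIncl S L hL b) : Qbarˣ) : Qbar) = _
    rw [kIncl_coe, kIncl_coe, toUnitL_ρ]
    exact (resL_apply L g (toUnitL L b : L)).symm

/-! ### the level data of `J_S` and `I^S` -/

/-- `J_S(L) → J_S` -/
noncomputable def jIncl (hL : L.IsUnramifiedOutside S) :=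
  dsToPi (fun q : ↥S => JSq S ((q : Nat.Primes) : ℕ)) (fun q : ↥S => Jq ((q : Nat.Primes) : ℕ) L)
    (fun q => levelIncl S ((q : Nat.Primes) : ℕ) L hL (localUnits ((q : Nat.Primes) : ℕ)))

/-- **the level datum of `J_S`**: `J_S^{Gal(ℚbar/L)} = J_S(L)` (helper44's `IdeleVal44.JS L S`,
helper94's `JSp S`) -/
theorem isInvDescent_jIncl (hL : L.IsUnramifiedOutside S) :
    IsInvDescent (JSp S) (resL L) (IdeleVal44.JS L S) (jIncl S L hL) :=
  isInvDescent_pi_ds _ _ _ fun q =>
    isInvDescent_levelIncl S ((q : Nat.Primes) : ℕ) L hL (localUnits ((q : Nat.Primes) : ℕ))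

/-- `I^S(L) → I^S` -/
noncomputable def iIncl (hL : L.IsUnramifiedOutside S) :=
  DirectSum.lmap (fun ℓ : PrimesOut S => levelIncl S (ℓ.1 : ℕ) L hL (trivZ (ℓ.1 : ℕ)))

/-- **the level datum of `I^S`**: `(I^S)^{Gal(ℚbar/L)} = I^S(L)` (helper44's
`IdeleVal44.IS L S`) -/
theorem isInvDescent_iIncl (hL : L.IsUnramifiedOutside S) :
    IsInvDescent (ISlim S) (resL L) (IdeleVal44.IS L S) (iIncl S L hL) :=
  isInvDescent_dsRep _ _ _ fun ℓ => isInvDescent_levelIncl S (ℓ.1 : ℕ) L hL (trivZ (ℓ.1 : ℕ))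

/-- `J_S(L) × I^S(L) → J_S × I^S` -/
noncomputable def mIncl (hL : L.IsUnramifiedOutside S) :=
  prodMapRep (J := JSp S) (I := ISlim S) (BJ := IdeleVal44.JS L S) (BI := IdeleVal44.IS L S)
    (jIncl S L hL) (iIncl S L hL)

theorem isInvDescent_mIncl (hL : L.IsUnramifiedOutside S) :
    IsInvDescent (prodRep (JSp S) (ISlim S)) (resL L) (IdeleVal44.JIS L S) (mIncl S L hL) :=
  isInvDescent_prod (isInvDescent_jIncl S L hL) (isInvDescent_iIncl S L hL)

/-! ### compatibility of the diagonal and of the divisor map with the level data -/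

theorem unrOutside (hL : L.IsUnramifiedOutside S) : IdeleVal44.UnrOutside L S :=
  fun ℓ hℓ => UnrBridge42.isUnrAt_locHom ℓ.1 L hL hℓ

/-- the local coordinates of the diagonal at level `L` and in the limit agree -/
theorem diag_resL (q : ℕ) [Fact q.Prime] (hL : L.IsUnramifiedOutside S) (x : Lx L) (g : GQ) :
    Rep.toAdditive (((diag q L).hom x).1 (resL L g)) =
      Additive.ofMul (locU q g (toUnit S (kIncl S L hL x))) := by
  rw [IdeleVal44.diag_hom_apply]
  apply congrArg Additive.ofMul
  apply Units.ext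
  show iotaL q L ((resL L g) ((toUnitL L x : Lˣ) : L)) =
    padicEmbedding q (g ((toUnit S (kIncl S L hL x) : Qbarˣ) : Qbar))
  rw [iotaL_apply, resL_apply, kIncl_coe]

/-- the diagonal commutes with the level data -/
theorem jIncl_diagS (hL : L.IsUnramifiedOutside S) (x : Lx L) :
    jIncl S L hL ((IdeleVal44.diagS L S).hom x) = (diagJ S).hom (kIncl S L hL x) := by
  funext q
  apply Subtype.ext
  apply Subtype.ext
  funext g
  have h1 : ((jIncl S L hL ((IdeleVal44.diagS L S).hom x)) q).1.1 g =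
      ((diag ((q : Nat.Primes) : ℕ) L).hom x).1 (resL L g) := rfl
  rw [h1]
  exact diag_resL S L ((q : Nat.Primes) : ℕ) hL x g

/-- the divisor map commutes with the level data -/
theorem iIncl_idealMap (hL : L.IsUnramifiedOutside S) (x : Lx L) :
    iIncl S L hL ((IdeleVal44.idealMap (unrOutside S L hL)).hom x) =
      (divLim S).hom (kIncl S L hL x) := by
  refine DFinsupp.ext fun ℓ => ?_
  apply Subtype.ext
  apply Subtype.ext
  funext g
  have h1 : ((iIncl S L hL ((IdeleVal44.idealMap (unrOutside S L hL)).hom x)) ℓ).1.1 g =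
      (IdeleVal44.dsRep.toDS _ ((IdeleVal44.idealMap (unrOutside S L hL)).hom x) ℓ).1
        (resL L g) := rfl
  have h2 : (((divLim S).hom (kIncl S L hL x)) ℓ).1.1 g =
      divAt (ℓ.1 : ℕ) g (toUnit S (kIncl S L hL x)) := divLim_apply S _ ℓ g
  rw [h1, h2]
  apply Int.cast_injective (α := ℝ)
  rw [IdeleVal44.idealMap_coord, divAt_cast S (ℓ.1 : ℕ) ℓ.2 g (toUnit_mem S _), valAt,
    diag_resL S L (ℓ.1 : ℕ) hL x g]

/-! ### the class module -/

theorem mIncl_deltaS (hL : L.IsUnramifiedOutside S) (x : Lx L) :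
    mIncl S L hL ((IdeleVal44.deltaS (unrOutside S L hL)).hom x) =
      (diagHom (diagJ S) (divLim S)).hom (kIncl S L hL x) :=
  Prod.ext (jIncl_diagS S L hL x) (iIncl_idealMap S L hL x)

/-- `C_S(L) → C_S`: the map induced by `J_S(L) × I^S(L) → J_S × I^S` on the class modules -/
noncomputable def cIncl (hL : L.IsUnramifiedOutside S) :=
  mapQRep (M := prodRep (JSp S) (ISlim S)) (BM := IdeleVal44.JIS L S)
    (diagRange (diagJ S) (divLim S)) (diagRange_le_comap (diagJ S) (divLim S))
    (LinearMap.range (IdeleVal44.deltaS (unrOutside S L hL)).hom.toLinearMap)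
    (IdeleVal44.range_deltaS_le_comap (unrOutside S L hL)) (mIncl S L hL) (by
      rintro _ ⟨x, rfl⟩
      exact ⟨kIncl S L hL x, (mIncl_deltaS S L hL x).symm⟩)

theorem cIncl_toCS (hL : L.IsUnramifiedOutside S) (y : IdeleVal44.JIS L S) :
    cIncl S L hL ((IdeleVal44.toCS (unrOutside S L hL)).hom y) =
      (classProj (diagJ S) (divLim S)).hom (mIncl S L hL y) := rfl

/-- **(36-D2) the finite levels of the limit class module**: for a Galois `S`-level `L` the
`Gal(ℚbar/L)`-invariants of `C_S = coker (Q_Sˣ → J_S × I^S)` are helper44's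
`C_S(L) = (J_S(L) × I^S(L)) / Lˣ`. -/
theorem isInvDescent_CS (hS : S.Nonempty) (hL : L.IsUnramifiedOutside S)
    (h : IdeleVal44.UnrOutside L S) :
    IsInvDescent (CSlim S (diagJ S)) (resL L) (IdeleVal44.CS h) (cIncl S L hL) := by
  have hopen : IsOpenSub (globalLevels S) (resL L).ker :=
    ⟨L.fixingSubgroup, fixingSubgroup_mem_globalLevels S L hL, (resL_ker L).ge⟩
  exact isInvDescent_quotient (𝒰 := globalLevels S)
    (shortExact_class (diagJ S) (divLim S) (diagJ_injective S hS))
    (isSmooth_prodRep (JSp_isSmooth S) (isSmooth_ISlim S)) hopen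
    (isInvDescent_kIncl S L hL) (isInvDescent_mIncl S L hL)
    (IdeleVal44.deltaS h).hom.toLinearMap (IdeleVal44.toCS h).hom.toLinearMap
    (fun b => mIncl_deltaS S L hL b) (fun b => cIncl_toCS S L hL b)
    (IdeleVal44.toCS_surjective h)
    (fun b => by
      rw [show ((IdeleVal44.toCS h).hom.toLinearMap b = 0) ↔ _ from
        IdeleVal44.toCS_eq_zero_iff h b]
      exact Iff.rfl)
    (fun q b => Rep.hom_comm_apply (IdeleVal44.toCS h) q b)
    (h1SubVanishes_QSx S _ hopen)

end Fermat.Agent.S55.CS79.LevelClass
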