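/-
S55 / 36-CS (helper79), part 5: **seam 33 → (F1)(p) for the true class module, instantiated.**

With `CS79.LevelClass.isInvDescent_CS` (36-D2) the finite levels of `C_S = CSlim S (diagJ S)` are
helper44's `IdeleVal44.CS h`.  Hence the two inequalities (31-OUT), (32-OUT) of helper77's
`Adapt77.HcycGlue` at the Galois `S`-levels `L ⊇ L₀` give helper77's per-level statement
`Adapt77.GlobalCofinal.LevelIneq p C_S V₀ L`, hence (his `GlobalCofinal`) the vanishing of the
`p`-primary part of level `H¹(V, C_S)` for every open `V ≤ V₀`, in all the consumer shapes.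
-/
import Fermat.Agent.S55.CS79.LevelClass
import Fermat.Agent.S55.Adapt77.GlobalCofinal

set_option autoImplicit false

open CategoryTheory

namespace Fermat.Agent.S55.CS79.CofinalCS

open Fermat.Agent.S55.Profin15 Fermat.Agent.S55.Idele73.Basic
open Fermat.Agent.S55.ESDiv20 hiding GQ Qb
open Fermat.Agent.S55.ESRep20
open Fermat.Agent.S55.CS79.InvDescent Fermat.Agent.S55.CS79.Limit
open Fermat.Agent.S55.CS79.DivLimit Fermat.Agent.S55.CS79.LevelClass
open Fermat.Agent.S55.CS79.ClassSeq Fermat.Agent.S55.CS79.Primary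
open Fermat.Agent.S55.CD3
open Fermat.Agent.S55.GlobalMod94.JS
open Fermat.Agent.S55.Adapt77.HcycGlue Fermat.Agent.S55.Adapt77.CofinalInputs
open Fermat.Agent.S55.Adapt77.GlobalCofinal

variable (S : Finset Nat.Primes) (p : ℕ)

/-- the limit `S`-idele class module `C_S = coker (Q_Sˣ → J_S × I^S)` -/
noncomputable abbrev CS : Rep.{0} ℤ GQ := CSlim S (diagJ S)

theorem isSmooth_CS : (globalLevels S).IsSmooth (CS S) :=
  isSmooth_classMod (diagJ S) (divLim S) (JSp_isSmooth S) (isSmooth_ISlim S)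

/-- **the arithmetic input of 33 (NAMED)**: at every Galois `S`-level `L ⊇ L₀`, for helper44's
finite level class module: (31-OUT) the first inequality for all cyclic layers of order `p`,
(32-OUT) the second inequality for the layers below some `H₀ ⊇ π_L(V₀)` (base field `∋ ζ_p`). -/
def IneqOut (L₀ : IntermediateField ℚ Qbar) (V₀ : Subgroup GQ) : Prop :=
  ∀ (L : IntermediateField ℚ Qbar) [Normal ℚ L], L.IsUnramifiedOutside S → L₀ ≤ L →
    ∀ h : IdeleVal44.UnrOutside L S,
      FirstIneqOut (IdeleVal44.CS h) ⊤ p ∧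
        ∃ H₀ : Subgroup (GalL L), V₀.map (resL L) ≤ H₀ ∧ SecondIneqOut (IdeleVal44.CS h) H₀ p

variable {S p}

/-- **helper77's per-level statement for `C_S`** from (36-D2) and the two inequalities -/
theorem levelIneq_CS (hS : S.Nonempty) {V₀ : Subgroup GQ} (L : IntermediateField ℚ Qbar)
    [Normal ℚ L] (hL : L.IsUnramifiedOutside S) (h : IdeleVal44.UnrOutside L S)
    (h31 : FirstIneqOut (IdeleVal44.CS h) ⊤ p) {H₀ : Subgroup (GalL L)}
    (hH₀ : V₀.map (resL L) ≤ H₀) (h32 : SecondIneqOut (IdeleVal44.CS h) H₀ p) :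
    LevelIneq p (CS S) V₀ L :=
  LevelIneq.mk' (isInvDescent_CS S L hS hL h) h31 hH₀ h32

theorem levelIneq_of_ineqOut (hS : S.Nonempty) {L₀ : IntermediateField ℚ Qbar}
    {V₀ : Subgroup GQ} (h : IneqOut S p L₀ V₀) (L : IntermediateField ℚ Qbar) [Normal ℚ L]
    (hL : L.IsUnramifiedOutside S) (hle : L₀ ≤ L) : LevelIneq p (CS S) V₀ L := by
  obtain ⟨h31, H₀, hH₀, h32⟩ := h L hL hle (unrOutside S L hL)
  exact levelIneq_CS hS L hL _ h31 hH₀ h32

/-- **33 ⇒ helper77's cofinal datum for the true class module `C_S`** -/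
theorem cofinalIneqBelow_CS (hS : S.Nonempty) {L₀ : IntermediateField ℚ Qbar}
    (hL₀ : L₀.IsUnramifiedOutside S) {V₀ : Subgroup GQ} (h : IneqOut S p L₀ V₀) :
    CofinalIneqBelow (globalLevels S) p (CS S) V₀ :=
  cofinalIneqBelow_global L₀ hL₀ fun L _ hL hle => levelIneq_of_ineqOut hS h L hL hle

variable [Fact p.Prime]

/-- **(F1)(p) for `C_S` over every open subgroup `V ≤ V₀`** -/
theorem h1PrimaryVanishes_CS_res (hS : S.Nonempty) {L₀ : IntermediateField ℚ Qbar}
    (hL₀ : L₀.IsUnramifiedOutside S) {V₀ : Subgroup GQ} (h : IneqOut S p L₀ V₀)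
    (V : Subgroup GQ) (hV : IsOpenSub (globalLevels S) V) (hVV₀ : V ≤ V₀) :
    H1PrimaryVanishes (restrictLevels (globalLevels S) V hV) p (Rep.res V.subtype (CS S)) :=
  h1PrimaryVanishes_global (isSmooth_CS S) L₀ hL₀
    (fun L _ hL hle => levelIneq_of_ineqOut hS h L hL hle) V hV hVV₀

/-- the same in helper41's shape `S1Limit41.H1Cofinal.FiniteLevelH1` -/
theorem finiteLevelH1_CS (hS : S.Nonempty) {L₀ : IntermediateField ℚ Qbar}
    (hL₀ : L₀.IsUnramifiedOutside S) {V₀ : Subgroup GQ} (h : IneqOut S p L₀ V₀)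
    (V : Subgroup GQ) (hVV₀ : V ≤ V₀) :
    Fermat.Agent.S55.S1Limit41.H1Cofinal.FiniteLevelH1 (globalLevels S) p (CS S) V :=
  finiteLevelH1_global L₀ hL₀ (fun L _ hL hle => levelIneq_of_ineqOut hS h L hL hle) V hVV₀

end Fermat.Agent.S55.CS79.CofinalCS
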