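/-
S55 / 36-CS (helper79), part 6: the finite levels of the limit modules `Q_Sˣ`, `J_S`, `I^S`,
`C_S` as **cofinal families of descent data** in helper99's sense (`LimDesc99.Family`), indexed by
the Galois `S`-levels (ordered by reverse inclusion: smaller index = bigger field).

With these, `LimDesc99.Family.presH2` presents the level `H²` of each limit module as the
colimit of the Mathlib `H²(Gal(L/ℚ), -)` of helper44's finite level modules, and
`LimDesc99.Family.InvSystem.ofMap` turns finite level invariant maps into the limit invariant map.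
-/
import Fermat.Agent.S55.CS79.CofinalCS
import Fermat.Agent.S55.LimDesc99.Datum

set_option autoImplicit false

open CategoryTheory

namespace Fermat.Agent.S55.CS79.FamilyCS

open Fermat.Agent.S55.Profin15 Fermat.Agent.S55.Idele73.Basic
open Fermat.Agent.S55.ESDiv20 hiding GQ Qb
open Fermat.Agent.S55.ESRep20
open Fermat.Agent.S55.CS79.InvDescent Fermat.Agent.S55.CS79.Limit
open Fermat.Agent.S55.CS79.DivLimit Fermat.Agent.S55.CS79.LevelClass
open Fermat.Agent.S55.CS79.ClassSeq Fermat.Agent.S55.CS79.CofinalCS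
open Fermat.Agent.S55.GlobalMod94.JS
open Fermat.Agent.S55.LimDesc99
open Fermat.Agent.Lib.FrobeniusExists (isAlgebraic_Qb isAlgClosure_Qb isGalois_Qb)

attribute [local instance] isAlgebraic_Qb isAlgClosure_Qb isGalois_Qb

variable (S : Finset Nat.Primes)

/-- the Galois `S`-levels -/
def GalLev : Type :=
  {L : IntermediateField ℚ Qbar // Normal ℚ L ∧ L.IsUnramifiedOutside S}

/-- the index preorder: smaller index = bigger field = deeper level -/
instance : Preorder (GalLev S) where
  le i j := j.1 ≤ i.1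
  le_refl i := le_refl i.1
  le_trans _ _ _ hij hjk := le_trans hjk hij

variable {S}

theorem GalLev.le_def {i j : GalLev S} : i ≤ j ↔ j.1 ≤ i.1 := Iff.rfl

instance (i : GalLev S) : Normal ℚ i.1 := i.2.1

theorem GalLev.unr (i : GalLev S) : i.1.IsUnramifiedOutside S := i.2.2

/-- the bottom level `ℚ` -/
noncomputable def GalLev.bot : GalLev S :=
  ⟨⊥, Normal.of_algEquiv (IntermediateField.botEquiv ℚ Qbar).symm,
    IntermediateField.isUnramifiedOutside_bot S⟩

/-- the compositum of two Galois `S`-levels -/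
noncomputable def GalLev.sup (i j : GalLev S) : GalLev S :=
  ⟨i.1 ⊔ j.1, @IntermediateField.normal_sup ℚ Qbar _ _ _ i.1 j.1 i.2.1 j.2.1, i.unr.sup j.unr⟩

theorem GalLev.sup_le_left (i j : GalLev S) : i.sup j ≤ i := (le_sup_left : i.1 ≤ i.1 ⊔ j.1)

theorem GalLev.sup_le_right (i j : GalLev S) : i.sup j ≤ j := (le_sup_right : j.1 ≤ i.1 ⊔ j.1)

theorem GalLev.ker_mem (i : GalLev S) : (resL i.1).ker ∈ (globalLevels S).levels := by
  rw [resL_ker]
  exact fixingSubgroup_mem_globalLevels S i.1 i.unr

theorem GalLev.ker_mono {i j : GalLev S} (h : j ≤ i) : (resL j.1).ker ≤ (resL i.1).ker := by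
  rw [resL_ker, resL_ker]
  exact IntermediateField.fixingSubgroup_le h

/-- the levels are the fixing subgroups of the Galois `S`-levels -/
theorem exists_galois_level {U : Subgroup GQ} (hU : U ∈ (globalLevels S).levels) :
    ∃ L : IntermediateField ℚ Qbar, Normal ℚ L ∧ L.IsUnramifiedOutside S ∧
      L.fixingSubgroup = U := by
  obtain ⟨hn, F, hF, rfl⟩ := hU
  have : IsGalois ℚ F := (InfiniteGalois.normal_iff_isGalois F).1 hn
  exact ⟨F, inferInstance, hF, rfl⟩

/-- every level contains the level of a Galois `S`-level below a given one -/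
theorem GalLev.cofinal {V : Subgroup GQ} (hV : V ∈ (globalLevels S).levels) (i : GalLev S) :
    ∃ j, j ≤ i ∧ (resL j.1).ker ≤ V := by
  obtain ⟨L, hn, hL, rfl⟩ := exists_galois_level hV
  refine ⟨i.sup ⟨L, hn, hL⟩, GalLev.sup_le_left _ _, ?_⟩
  rw [resL_ker]
  exact IntermediateField.fixingSubgroup_le (le_sup_right : L ≤ i.1 ⊔ L)

/-- a family of descent data indexed by the Galois `S`-levels, from one descent datum along
`resL L` per level -/
noncomputable def famOf {k : Type} [CommRing k] {A : Rep.{0, 0, 0} k GQ}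
    (B : ∀ i : GalLev S, Rep.{0, 0, 0} k (GalL i.1)) (e : ∀ i : GalLev S, B i →ₗ[k] A)
    (h : ∀ i : GalLev S, IsInvDescent A (resL i.1) (B i) (e i)) :
    Family (globalLevels S) A (GalLev S) where
  d i := { Q := GalL i.1, p := resL i.1, B := B i, e := e i, desc := h i,
           surj := resL_surjective i.1, ker_mem := i.ker_mem }
  mono h := GalLev.ker_mono h
  nonempty := ⟨GalLev.bot⟩
  directed i j := ⟨i.sup j, GalLev.sup_le_left i j, GalLev.sup_le_right i j⟩
  cofinal _ hV i := GalLev.cofinal hV i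

/-! ### the concrete families -/

@[simp] theorem famOf_Q {k : Type} [CommRing k] {A : Rep.{0, 0, 0} k GQ}
    (B : ∀ i : GalLev S, Rep.{0, 0, 0} k (GalL i.1)) (e : ∀ i : GalLev S, B i →ₗ[k] A)
    (h : ∀ i : GalLev S, IsInvDescent A (resL i.1) (B i) (e i)) (i : GalLev S) :
    ((famOf B e h).d i).Q = GalL i.1 := rfl

@[simp] theorem famOf_p {k : Type} [CommRing k] {A : Rep.{0, 0, 0} k GQ}
    (B : ∀ i : GalLev S, Rep.{0, 0, 0} k (GalL i.1)) (e : ∀ i : GalLev S, B i →ₗ[k] A)
    (h : ∀ i : GalLev S, IsInvDescent A (resL i.1) (B i) (e i)) (i : GalLev S) :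
    ((famOf B e h).d i).p = resL i.1 := rfl

@[simp] theorem famOf_B {k : Type} [CommRing k] {A : Rep.{0, 0, 0} k GQ}
    (B : ∀ i : GalLev S, Rep.{0, 0, 0} k (GalL i.1)) (e : ∀ i : GalLev S, B i →ₗ[k] A)
    (h : ∀ i : GalLev S, IsInvDescent A (resL i.1) (B i) (e i)) (i : GalLev S) :
    ((famOf B e h).d i).B = B i := rfl

@[simp] theorem famOf_e {k : Type} [CommRing k] {A : Rep.{0, 0, 0} k GQ}
    (B : ∀ i : GalLev S, Rep.{0, 0, 0} k (GalL i.1)) (e : ∀ i : GalLev S, B i →ₗ[k] A)
    (h : ∀ i : GalLev S, IsInvDescent A (resL i.1) (B i) (e i)) (i : GalLev S) :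
    ((famOf B e h).d i).e = e i := rfl

variable (S)

/-- **`Q_Sˣ = colim Lˣ`** -/
noncomputable def famK : Family (globalLevels S) (QSxRep S) (GalLev S) :=
  famOf (fun i => Lx i.1) (fun i => kIncl S i.1 i.unr) (fun i => isInvDescent_kIncl S i.1 i.unr)

/-- **`J_S = colim J_S(L)`** (helper94's `JSp S`, helper44's `IdeleVal44.JS L S`) -/
noncomputable def famJ : Family (globalLevels S) (JSp S) (GalLev S) :=
  famOf (fun i => IdeleVal44.JS i.1 S) (fun i => jIncl S i.1 i.unr)
    (fun i => isInvDescent_jIncl S i.1 i.unr)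

/-- **`I^S = colim I^S(L)`** (helper44's `IdeleVal44.IS L S`) -/
noncomputable def famI : Family (globalLevels S) (ISlim S) (GalLev S) :=
  famOf (fun i => IdeleVal44.IS i.1 S) (fun i => iIncl S i.1 i.unr)
    (fun i => isInvDescent_iIncl S i.1 i.unr)

/-- **`C_S = colim C_S(L)`** (helper44's `IdeleVal44.CS h`) -/
noncomputable def famC (hS : S.Nonempty) : Family (globalLevels S) (CS S) (GalLev S) :=
  famOf (fun i => IdeleVal44.CS (unrOutside S i.1 i.unr)) (fun i => cIncl S i.1 i.unr)
    (fun i => isInvDescent_CS S i.1 hS i.unr (unrOutside S i.1 i.unr))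

end Fermat.Agent.S55.CS79.FamilyCS
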