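/-
S55 / 36-CS (helper79), part 7: the limit short exact sequence of the TRUE class module

  `0 → Q_Sˣ → J_S × I^S → C_S → 0`      (`ClassSeq.shortExact_class (diagJ S) (divLim S)`)

as the colimit of helper44's finite level sequences `IdeleVal44.sesJIS h`
(`0 → Lˣ → J_S(L) × I^S(L) → C_S(L) → 0`): the three `LimDesc99.Family`s `famK`, `famM`, `famC`
over the Galois `S`-levels, and the compatibility of the maps with the inflations, in the
literal hypothesis shapes `ha`, `hb` of helper99's `LimDesc99.Family.exists_formation_inv`.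
-/
import Fermat.Agent.S55.CS79.FamilyCS
import Fermat.Agent.S55.LimDesc99.FormationFamily

set_option autoImplicit false

open CategoryTheory groupCohomology

namespace Fermat.Agent.S55.CS79.FamilyMaps

open Fermat.Agent.S55.Profin15 Fermat.Agent.S55.Idele73.Basic
open Fermat.Agent.S55.ESDiv20 hiding GQ Qb
open Fermat.Agent.S55.ESRep20
open Fermat.Agent.S55.CS79.InvDescent Fermat.Agent.S55.CS79.Limit
open Fermat.Agent.S55.CS79.DivLimit Fermat.Agent.S55.CS79.LevelClass
open Fermat.Agent.S55.CS79.ClassSeq Fermat.Agent.S55.CS79.CofinalCS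
open Fermat.Agent.S55.CS79.FamilyCS
open Fermat.Agent.S55.GlobalMod94.JS
open Fermat.Agent.S55.LimDesc99

variable (S : Finset Nat.Primes)

/-- the limit module `J_S × I^S` (ideles modulo the unit ideles outside `S`) -/
noncomputable def MS : Rep.{0} ℤ GQ := prodRep (JSp S) (ISlim S)

theorem isSmooth_MS : (globalLevels S).IsSmooth (MS S) :=
  isSmooth_prodRep (JSp_isSmooth S) (isSmooth_ISlim S)

/-- the diagonal `Q_Sˣ ⟶ J_S × I^S` -/
noncomputable def δS : QSxRep S ⟶ MS S := diagHom (diagJ S) (divLim S)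

/-- the projection `J_S × I^S ⟶ C_S` -/
noncomputable def πS : MS S ⟶ CS S := classProj (diagJ S) (divLim S)

/-- **the limit sequence `0 → Q_Sˣ → J_S × I^S → C_S → 0` is exact** -/
theorem shortExact_S (hS : S.Nonempty) : LevelLES13.ShortExact (δS S) (πS S) :=
  shortExact_class (diagJ S) (divLim S) (diagJ_injective S hS)

theorem MS_eq : MS S = prodRep (JSp S) (ISlim S) := rfl

theorem δS_apply (x : QSxRep S) :
    (δS S).hom x = (show MS S from ((diagJ S).hom x, (divLim S).hom x)) := rfl

theorem πS_apply (y : MS S) :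
    (πS S).hom y = (classProj (diagJ S) (divLim S)).hom y := rfl

/-- the same in helper15's raw `LevelStr.ShortExact` form -/
theorem levelShortExact_S (hS : S.Nonempty) :
    LevelStr.ShortExact (A := QSxRep S) (B := MS S) (C := CS S) (δS S).hom.toLinearMap
      (πS S).hom.toLinearMap where
  equivariant_left := LevelStr.isEquivariant_hom (δS S)
  equivariant_right := LevelStr.isEquivariant_hom (πS S)
  injective := (shortExact_S S hS).inj
  surjective := (shortExact_S S hS).surj
  exact := fun y => by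
    constructor
    · intro hy
      obtain ⟨a, ha⟩ := ((shortExact_S S hS).exact y).1 hy
      exact ⟨a, ha⟩
    · rintro ⟨a, rfl⟩
      exact (shortExact_S S hS).g_f a

/-- **`J_S × I^S = colim (J_S(L) × I^S(L))`** (helper44's `IdeleVal44.JIS L S`) -/
noncomputable def famM : Family (globalLevels S) (MS S) (GalLev S) :=
  famOf (fun i => IdeleVal44.JIS i.1 S) (fun i => mIncl S i.1 i.unr)
    (fun i => isInvDescent_mIncl S i.1 i.unr)

variable {S}

/-- the finite level diagonal `Lˣ ⟶ J_S(L) × I^S(L)` on `H²` -/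
noncomputable def aLev (i : GalLev S) :
    H2 (Lx i.1) →+ H2 (IdeleVal44.JIS i.1 S) :=
  (groupCohomology.map (MonoidHom.id (GalL i.1))
    (IdeleVal44.deltaS (unrOutside S i.1 i.unr)) 2).hom.toAddMonoidHom

/-- the finite level projection `J_S(L) × I^S(L) ⟶ C_S(L)` on `H²` -/
noncomputable def bLev (i : GalLev S) :
    H2 (IdeleVal44.JIS i.1 S) →+ H2 (IdeleVal44.CS (unrOutside S i.1 i.unr)) :=
  (groupCohomology.map (MonoidHom.id (GalL i.1))
    (IdeleVal44.toCS (unrOutside S i.1 i.unr)) 2).hom.toAddMonoidHom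

/-- **`ha`**: the diagonal commutes with the inflations -/
theorem pushH2_δS_infl₂ (i : GalLev S) (x : H2 (Lx i.1)) :
    pushH2 (𝒰 := globalLevels S) (δS S) (((famK S).d i).infl₂ x) =
      ((famM S).d i).infl₂ (aLev i x) :=
  Datum.H2map_infl₂ (δS S).hom.toLinearMap (LevelStr.isEquivariant_hom (δS S))
    ((famK S).d i) ((famM S).d i) (MonoidHom.id (GalL i.1)) (fun _ => rfl)
    (IdeleVal44.deltaS (unrOutside S i.1 i.unr))
    (fun b => mIncl_deltaS S i.1 i.unr b) x

/-- **`hb`**: the projection commutes with the inflations -/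
theorem pushH2_πS_infl₂ (hS : S.Nonempty) (i : GalLev S) (x : H2 (IdeleVal44.JIS i.1 S)) :
    pushH2 (𝒰 := globalLevels S) (πS S) (((famM S).d i).infl₂ x) =
      ((famC S hS).d i).infl₂ (bLev i x) :=
  Datum.H2map_infl₂ (πS S).hom.toLinearMap (LevelStr.isEquivariant_hom (πS S))
    ((famM S).d i) ((famC S hS).d i) (MonoidHom.id (GalL i.1)) (fun _ => rfl)
    (IdeleVal44.toCS (unrOutside S i.1 i.unr))
    (fun b => cIncl_toCS S i.1 i.unr b) x

end Fermat.Agent.S55.CS79.FamilyMaps
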