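/-
S55 / 36-CS (helper79), part 8a: the formation invariant on the `p`-primary part of level
`H²(C)` from (α), (β→), (β←) on an ARBITRARY cofinal family of finite-level descent data, with a
TOTAL idelic invariant `invJ : 𝒰.H2 J →+ T` (no finite index set of places).

This is helper99's `LimDesc99.Family.exists_formation_inv` with `LimAlg14.exists_invCp_of_total`
in place of `LimAlg14.exists_formation_inv`: it is the version needed for the sequence
`0 → Q_Sˣ → J_S × I^S → C_S → 0` of the TRUE class module, where `H²(J_S × I^S)` carries the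
infinitely many unramified local invariants of the places outside `S`.
-/
import Fermat.Agent.S55.LimDesc99.FormationFamily

set_option autoImplicit false

open CategoryTheory groupCohomology
open Fermat.Agent.S55.Profin15 Fermat.Agent.S55.CS79.InvDescent
open Fermat.Agent.S55.PrimaryExt14 Fermat.Agent.S55.LimDesc99

universe u

noncomputable section

namespace Fermat.Agent.S55.CS79.FormationTotal

section Abstract

variable {ι : Type*} [Preorder ι]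
  {XE XJ XC : ι → Type*} [∀ j, AddCommGroup (XE j)] [∀ j, AddCommGroup (XJ j)]
  [∀ j, AddCommGroup (XC j)]
  {YE YJ YC : Type*} [AddCommGroup YE] [AddCommGroup YJ] [AddCommGroup YC]
  {T : Type*} [AddCommGroup T]
  (PE : Pres ι XE YE) (PJ : Pres ι XJ YJ) (PC : Pres ι XC YC)
  (I : YE →+ YJ) (Ψ : YJ →+ YC) (a : ∀ j, XE j →+ XJ j) (b : ∀ j, XJ j →+ XC j)
  (ha : ∀ (j : ι) (x : XE j), I (PE.infl j x) = PJ.infl j (a j x))
  (hb : ∀ (j : ι) (x : XJ j), Ψ (PJ.infl j x) = PC.infl j (b j x))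
  (p : ℕ) [Fact p.Prime]

include ha hb in
/-- **abstract form**: `LimAlg14.exists_invCp_of_total` from (α), (β→), (β←) on three
presentations. -/
theorem exists_invCp_of_pres
    (hΨI : ∀ e, Ψ (I e) = 0) (hex : ∀ y, Ψ y = 0 → y ∈ Set.range I)
    (htE : ∀ e : YE, ∃ n : ℕ, 0 < n ∧ n • e = 0)
    (invJ : YJ →+ T) (invJU : ∀ j : ι, XJ j →+ T)
    (hinvJ : ∀ (j : ι) (x : XJ j), invJ (PJ.infl j x) = invJU j x)
    (hα : ∀ (j : ι) (x : XC j) (n : ℕ), (p ^ n) • x = 0 →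
      ∃ (l : ι) (h : l ≤ j) (y : XJ l) (m : ℕ), (p ^ m) • y = 0 ∧ b l y = PC.trans h x)
    (hβto : ∀ (j : ι) (e : XE j) (n : ℕ), (p ^ n) • e = 0 →
      ∃ (l : ι) (h : l ≤ j), invJU l (a l (PE.trans h e)) = 0)
    (hβfrom : ∀ (j : ι) (x : XJ j) (n : ℕ), (p ^ n) • x = 0 → invJU j x = 0 →
      ∃ (l : ι) (h : l ≤ j) (e : XE l), a l e = PJ.trans h x) :
    ∃ invC : primary p YC →+ T,
      (∀ y : primary p YJ, invC (mapPrimary p Ψ y) = invJ (y : YJ)) ∧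
      (∀ c : primary p YC, invC c = 0 → c = 0) := by
  refine LimAlg14.exists_invCp_of_total p I Ψ hΨI hex htE invJ ?_ ?_ ?_
  · -- (A)
    rintro c ⟨n, hn⟩
    obtain ⟨j, x, hx, rfl⟩ := PC.exists_infl_eq_of_nsmul_eq_zero (p ^ n) c hn
    obtain ⟨l, h, y, m, hy, hyx⟩ := hα j x n hx
    refine ⟨PJ.infl l y, ⟨m, by rw [← map_nsmul, hy, map_zero]⟩, ?_⟩
    rw [hb, hyx, PC.infl_trans]
  · -- (B→)
    rintro e ⟨n, hn⟩
    obtain ⟨j, x, hx, rfl⟩ := PE.exists_infl_eq_of_nsmul_eq_zero (p ^ n) e hn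
    obtain ⟨l, h, hl⟩ := hβto j x n hx
    rw [← PE.infl_trans h x, ha, hinvJ, hl]
  · -- (B←)
    rintro y ⟨n, hn⟩ h0
    obtain ⟨j, x, hx, rfl⟩ := PJ.exists_infl_eq_of_nsmul_eq_zero (p ^ n) y hn
    have h1 : invJU j x = 0 := by rw [← hinvJ j x]; exact h0
    obtain ⟨l, h, e, he⟩ := hβfrom j x n hx h1
    exact ⟨PE.infl l e, by rw [ha, he, PJ.infl_trans]⟩

end Abstract

section Fam

variable {k Γ : Type u} [CommRing k] [Group Γ] {𝒰 : LevelStr Γ}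
  {E J C : Rep.{u, u, u} k Γ} (i : E ⟶ J) (π : J ⟶ C)
  (hses : LevelStr.ShortExact (A := E) (B := J) (C := C) i.hom.toLinearMap π.hom.toLinearMap)
  (hJ : 𝒰.IsSmooth J) {T : Type*} [AddCommGroup T] (p : ℕ) [Fact p.Prime]
  {ι : Type*} [Preorder ι]
  (FE : Family 𝒰 E ι) (FJ : Family 𝒰 J ι) (FC : Family 𝒰 C ι)

include hses hJ in
/-- **THE FORMATION INVARIANT ON THE `p`-PRIMARY PART OF LEVEL `H²(C)` FROM A COFINAL FAMILY OF
DESCENT DATA, TOTAL IDELIC INVARIANT.**  `a j`, `b j` are the finite-level maps induced by `i`,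
`π` (compatible with the inflations), `invJU j` the finite-level idelic invariants computing
`invJ` on inflated classes. -/
theorem exists_invCp_of_family
    (a : ∀ j : ι, H2 (FE.d j).B →+ H2 (FJ.d j).B) (b : ∀ j : ι, H2 (FJ.d j).B →+ H2 (FC.d j).B)
    (ha : ∀ (j : ι) (x : H2 (FE.d j).B),
      pushH2 (𝒰 := 𝒰) i ((FE.d j).infl₂ x) = (FJ.d j).infl₂ (a j x))
    (hb : ∀ (j : ι) (x : H2 (FJ.d j).B),
      pushH2 (𝒰 := 𝒰) π ((FJ.d j).infl₂ x) = (FC.d j).infl₂ (b j x))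
    (invJ : 𝒰.H2 J →+ T) (invJU : ∀ j : ι, H2 (FJ.d j).B →+ T)
    (hinvJ : ∀ (j : ι) (x : H2 (FJ.d j).B), invJ ((FJ.d j).infl₂ x) = invJU j x)
    (hα : ∀ (j : ι) (x : H2 (FC.d j).B) (n : ℕ), (p ^ n) • x = 0 →
      ∃ (l : ι) (h : l ≤ j) (y : H2 (FJ.d l).B) (m : ℕ), (p ^ m) • y = 0 ∧
        b l y = Datum.trans₂ (FC.mono h) x)
    (hβto : ∀ (j : ι) (e : H2 (FE.d j).B) (n : ℕ), (p ^ n) • e = 0 →
      ∃ (l : ι) (h : l ≤ j), invJU l (a l (Datum.trans₂ (FE.mono h) e)) = 0)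
    (hβfrom : ∀ (j : ι) (x : H2 (FJ.d j).B) (n : ℕ), (p ^ n) • x = 0 → invJU j x = 0 →
      ∃ (l : ι) (h : l ≤ j) (e : H2 (FE.d l).B), a l e = Datum.trans₂ (FJ.mono h) x) :
    ∃ invC : primary p (𝒰.H2 C) →+ T,
      (∀ y : primary p (𝒰.H2 J),
        invC (mapPrimary p (pushH2 (𝒰 := 𝒰) π) y) = invJ (y : 𝒰.H2 J)) ∧
      (∀ c : primary p (𝒰.H2 C), invC c = 0 → c = 0) := by
  have hE : 𝒰.IsSmooth E := hses.smooth_left 𝒰 hJ
  have hC : 𝒰.IsSmooth C := hses.smooth_right 𝒰 hJ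
  have hex := hses.exact_H2map_H2map 𝒰 hJ
  exact exists_invCp_of_pres (FE.presH2 hE) (FJ.presH2 hJ) (FC.presH2 hC)
    (pushH2 (𝒰 := 𝒰) i) (pushH2 (𝒰 := 𝒰) π) a b ha hb p
    (fun e => (hex _).2 ⟨e, rfl⟩) (fun y hy => (hex y).1 hy)
    (H2_torsion15 E) invJ invJU hinvJ hα hβto hβfrom

end Fam

end Fermat.Agent.S55.CS79.FormationTotal
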