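/-
S55 / 36-CS (helper79), part 8b: **the formation invariant of the TRUE class module over an open
subgroup `V` of `G_ℚ`, from finite-level statements on helper44's `sesJIS h`.**

`𝒱 := restrictLevels (globalLevels S) V hV`; `K_V, M_V, C_V := Res_V` of `Q_Sˣ`, `J_S × I^S`,
`C_S`; index `LevV S V` = the Galois `S`-levels `L` with `Gal(ℚbar/L) ≤ V` (i.e. `L ⊇ K := ℚbar^V`);
finite levels `(Gal(L/K), Res (Lx L → JIS L S → CS h))`, `Gal(L/K) = V.map (resL L)`.

`exists_invCp_CS`: from a total idelic invariant `invM` on `𝒱.H2 M_V` computed at the finite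
levels by `invMU`, and (α), (β→), (β←) at the finite levels, the invariant `invC` on the
`p`-primary part of `𝒱.H2 C_V`, compatible with `invM` and injective.
-/
import Fermat.Agent.S55.CS79.FamilyMaps
import Fermat.Agent.S55.CS79.FormationTotal
import Fermat.Agent.S55.LimDesc99.Restrict

set_option autoImplicit false

open CategoryTheory groupCohomology

namespace Fermat.Agent.S55.CS79.FormationCS

open Fermat.Agent.S55.Profin15 Fermat.Agent.S55.Idele73.Basic
open Fermat.Agent.S55.ESDiv20 hiding GQ Qb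
open Fermat.Agent.S55.ESRep20
open Fermat.Agent.S55.CS79.InvDescent Fermat.Agent.S55.CS79.Limit
open Fermat.Agent.S55.CS79.DivLimit Fermat.Agent.S55.CS79.LevelClass
open Fermat.Agent.S55.CS79.ClassSeq Fermat.Agent.S55.CS79.CofinalCS
open Fermat.Agent.S55.CS79.FamilyCS Fermat.Agent.S55.CS79.FamilyMaps
open Fermat.Agent.S55.CS79.FormationTotal
open Fermat.Agent.S55.GlobalMod94.JS
open Fermat.Agent.S55.LimDesc99 Fermat.Agent.S55.CD3 Fermat.Agent.S55.PrimaryExt14

variable (S : Finset Nat.Primes) (V : Subgroup GQ) (hV : IsOpenSub (globalLevels S) V)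

/-- the Galois `S`-levels whose fixing subgroup lies in `V` (i.e. containing the fixed field of
`V`) -/
abbrev LevV : Type := {i : GalLev S // (resL i.1).ker ≤ V}

/-- `Gal(L/K)`, `K` the fixed field of `V` -/
noncomputable abbrev HV (i : LevV S V) : Subgroup (GalL i.1.1) := V.map (resL i.1.1)

/-- the restricted modules -/
noncomputable abbrev KV : Rep.{0} ℤ ↥V := Rep.res V.subtype (QSxRep S)

noncomputable abbrev MV : Rep.{0} ℤ ↥V := Rep.res V.subtype (MS S)

noncomputable abbrev CV : Rep.{0} ℤ ↥V := Rep.res V.subtype (CS S)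

/-- the restricted maps -/
noncomputable abbrev δV : KV S V ⟶ MV S V := Rep.resMap V.subtype (δS S)

noncomputable abbrev πV : MV S V ⟶ CV S V := Rep.resMap V.subtype (πS S)

theorem isSmooth_MV : (restrictLevels (globalLevels S) V hV).IsSmooth (MV S V) :=
  Restrict.isSmooth_res (isSmooth_MS S) hV

theorem levelShortExact_V (hS : S.Nonempty) :
    LevelStr.ShortExact (A := KV S V) (B := MV S V) (C := CV S V) (δV S V).hom.toLinearMap
      (πV S V).hom.toLinearMap where
  equivariant_left := LevelStr.isEquivariant_hom (δV S V)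
  equivariant_right := LevelStr.isEquivariant_hom (πV S V)
  injective := (levelShortExact_S S hS).injective
  surjective := (levelShortExact_S S hS).surjective
  exact := (levelShortExact_S S hS).exact

/-- the restricted families -/
noncomputable def famKV : Family (restrictLevels (globalLevels S) V hV) (KV S V) (LevV S V) :=
  (famK S).restrict V hV

noncomputable def famMV : Family (restrictLevels (globalLevels S) V hV) (MV S V) (LevV S V) :=
  (famM S).restrict V hV

noncomputable def famCV (hS : S.Nonempty) :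
    Family (restrictLevels (globalLevels S) V hV) (CV S V) (LevV S V) :=
  (famC S hS).restrict V hV

variable {S V}

/-- `H²(Gal(L/K), Lˣ) → H²(Gal(L/K), J_S(L) × I^S(L))` -/
noncomputable def aLevV (i : LevV S V) :
    H2 (Rep.res (HV S V i).subtype (Lx i.1.1)) →+
      H2 (Rep.res (HV S V i).subtype (IdeleVal44.JIS i.1.1 S)) :=
  (groupCohomology.map (MonoidHom.id ↥(HV S V i))
    (Rep.resMap (HV S V i).subtype (IdeleVal44.deltaS (unrOutside S i.1.1 i.1.unr))) 2).hom.toAddMonoidHom

/-- `H²(Gal(L/K), J_S(L) × I^S(L)) → H²(Gal(L/K), C_S(L))` -/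
noncomputable def bLevV (i : LevV S V) :
    H2 (Rep.res (HV S V i).subtype (IdeleVal44.JIS i.1.1 S)) →+
      H2 (Rep.res (HV S V i).subtype (IdeleVal44.CS (unrOutside S i.1.1 i.1.unr))) :=
  (groupCohomology.map (MonoidHom.id ↥(HV S V i))
    (Rep.resMap (HV S V i).subtype (IdeleVal44.toCS (unrOutside S i.1.1 i.1.unr))) 2).hom.toAddMonoidHom

/-- **`ha`** over `V` -/
theorem pushH2_δV_infl₂ (i : LevV S V) (x : H2 (Rep.res (HV S V i).subtype (Lx i.1.1))) :
    pushH2 (𝒰 := restrictLevels (globalLevels S) V hV) (δV S V) (((famKV S V hV).d i).infl₂ x) =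
      ((famMV S V hV).d i).infl₂ (aLevV i x) :=
  Datum.H2map_infl₂ (δV S V).hom.toLinearMap (LevelStr.isEquivariant_hom (δV S V))
    ((famKV S V hV).d i) ((famMV S V hV).d i) (MonoidHom.id ↥(HV S V i)) (fun _ => rfl)
    (Rep.resMap (HV S V i).subtype (IdeleVal44.deltaS (unrOutside S i.1.1 i.1.unr)))
    (fun b => mIncl_deltaS S i.1.1 i.1.unr b) x

/-- **`hb`** over `V` -/
theorem pushH2_πV_infl₂ (hS : S.Nonempty) (i : LevV S V)
    (x : H2 (Rep.res (HV S V i).subtype (IdeleVal44.JIS i.1.1 S))) :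
    pushH2 (𝒰 := restrictLevels (globalLevels S) V hV) (πV S V) (((famMV S V hV).d i).infl₂ x) =
      ((famCV S V hV hS).d i).infl₂ (bLevV i x) :=
  Datum.H2map_infl₂ (πV S V).hom.toLinearMap (LevelStr.isEquivariant_hom (πV S V))
    ((famMV S V hV).d i) ((famCV S V hV hS).d i) (MonoidHom.id ↥(HV S V i)) (fun _ => rfl)
    (Rep.resMap (HV S V i).subtype (IdeleVal44.toCS (unrOutside S i.1.1 i.1.unr)))
    (fun b => cIncl_toCS S i.1.1 i.1.unr b) x

variable {T : Type*} [AddCommGroup T] (p : ℕ) [Fact p.Prime]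

/-- **THE FORMATION INVARIANT OF THE TRUE CLASS MODULE OVER `V`** from the finite levels
`(Gal(L/K), Res (Lˣ → J_S(L) × I^S(L) → C_S(L)))`, `L ⊇ K = ℚbar^V` Galois `S`-levels:
`invM` a total idelic invariant on level `H²(V, J_S × I^S)` computed at the finite levels by
`invMU`; (α) every `p`-primary class of `H²(Gal(L/K), C_S(L))` comes, after inflation to some
`L' ⊇ L`, from a `p`-primary idele class; (β→) reciprocity; (β←) Hasse principle. -/
theorem exists_invCp_CS (hS : S.Nonempty)
    (invM : (restrictLevels (globalLevels S) V hV).H2 (MV S V) →+ T)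
    (invMU : ∀ i : LevV S V, H2 (Rep.res (HV S V i).subtype (IdeleVal44.JIS i.1.1 S)) →+ T)
    (hinvM : ∀ (i : LevV S V) (x : H2 (Rep.res (HV S V i).subtype (IdeleVal44.JIS i.1.1 S))),
      invM (((famMV S V hV).d i).infl₂ x) = invMU i x)
    (hα : ∀ (j : LevV S V)
      (x : H2 (Rep.res (HV S V j).subtype (IdeleVal44.CS (unrOutside S j.1.1 j.1.unr)))) (n : ℕ),
      (p ^ n) • x = 0 →
      ∃ (l : LevV S V) (h : l ≤ j)
        (y : H2 (Rep.res (HV S V l).subtype (IdeleVal44.JIS l.1.1 S))) (m : ℕ),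
        (p ^ m) • y = 0 ∧ bLevV l y = Datum.trans₂ ((famCV S V hV hS).mono h) x)
    (hβto : ∀ (j : LevV S V) (e : H2 (Rep.res (HV S V j).subtype (Lx j.1.1))) (n : ℕ),
      (p ^ n) • e = 0 →
      ∃ (l : LevV S V) (h : l ≤ j),
        invMU l (aLevV l (Datum.trans₂ ((famKV S V hV).mono h) e)) = 0)
    (hβfrom : ∀ (j : LevV S V)
      (x : H2 (Rep.res (HV S V j).subtype (IdeleVal44.JIS j.1.1 S))) (n : ℕ),
      (p ^ n) • x = 0 → invMU j x = 0 →
      ∃ (l : LevV S V) (h : l ≤ j) (e : H2 (Rep.res (HV S V l).subtype (Lx l.1.1))),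
        aLevV l e = Datum.trans₂ ((famMV S V hV).mono h) x) :
    ∃ invC : primary p ((restrictLevels (globalLevels S) V hV).H2 (CV S V)) →+ T,
      (∀ y : primary p ((restrictLevels (globalLevels S) V hV).H2 (MV S V)),
        invC (mapPrimary p (pushH2 (𝒰 := restrictLevels (globalLevels S) V hV) (πV S V)) y) =
          invM (y : (restrictLevels (globalLevels S) V hV).H2 (MV S V))) ∧
      (∀ c : primary p ((restrictLevels (globalLevels S) V hV).H2 (CV S V)),
        invC c = 0 → c = 0) :=
  exists_invCp_of_family (δV S V) (πV S V) (levelShortExact_V S V hS) (isSmooth_MV S V hV) p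
    (famKV S V hV) (famMV S V hV) (famCV S V hV hS) aLevV bLevV (pushH2_δV_infl₂ hV)
    (pushH2_πV_infl₂ hV hS) invM invMU hinvM hα hβto hβfrom

end Fermat.Agent.S55.CS79.FormationCS
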