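/-
S55 / 36-CS (helper79), part 9: **the concrete cofinal family of finite-level short complexes of
the TRUE class module sequence over an open subgroup `V` of `G_ℚ`** (request (R) of helper91),
in the vocabulary of helper91 (`GlobalInv91.SCDatum/SCFamily`) AND of helper99
(`LimDesc99.SeqDatum/SeqFamily`), from ONE construction.

* limit sequence `XV S V := (XS S).map (Rep.resFunctor V.subtype)`,
  `XS S := (Q_Sˣ ⟶ J_S × I^S ⟶ C_S)` (`δS S`, `πS S` of `CS79.FamilyMaps`);
* index `LevV S V` = the Galois `S`-levels `L` with `Gal(ℚbar/L) ≤ V`;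
* finite levels `Q := ↥(HV S V i) = ↥(V.map (resL L)) = Gal(L/K)`,
  `YV S V i := (IdeleVal44.sesJIS (unrOutside S L _)).map (Rep.resFunctor (HV S V i).subtype)`;
* embeddings `kIncl`, `mIncl`, `cIncl` with helper79's descent statements restricted to `V`.
-/
import Fermat.Agent.S55.CS79.FormationCS
import Fermat.Agent.S55.GlobalInv91.Fam
import Fermat.Agent.S55.LimDesc99.SeqFamily
import Fermat.Agent.S55.CLDescent35.Hilbert90

set_option autoImplicit false

open CategoryTheory groupCohomology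

namespace Fermat.Agent.S55.CS79.SCFamilyCS

open Fermat.Agent.S55.Profin15 Fermat.Agent.S55.Idele73.Basic
open Fermat.Agent.S55.ESDiv20 hiding GQ Qb
open Fermat.Agent.S55.ESRep20
open Fermat.Agent.S55.CS79.InvDescent Fermat.Agent.S55.CS79.Limit
open Fermat.Agent.S55.CS79.DivLimit Fermat.Agent.S55.CS79.LevelClass
open Fermat.Agent.S55.CS79.ClassSeq Fermat.Agent.S55.CS79.CofinalCS
open Fermat.Agent.S55.CS79.FamilyCS Fermat.Agent.S55.CS79.FamilyMaps
open Fermat.Agent.S55.CS79.FormationCS
open Fermat.Agent.S55.GlobalMod94.JS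
open Fermat.Agent.S55.LimDesc99 Fermat.Agent.S55.CD3 Fermat.Agent.S55.PrimaryExt14
open Fermat.Agent.S55.GlobalInv91

section Generic

universe u

variable {k Γ : Type u} [CommRing k] [Group Γ] {K J I : Rep.{u} k Γ} (dJ : K ⟶ J) (dI : K ⟶ I)

/-- the class sequence `K ⟶ J × I ⟶ (J × I)/K` is a complex -/
theorem diagHom_classProj : diagHom dJ dI ≫ classProj dJ dI = 0 := by
  apply Rep.hom_ext
  ext x
  show (classProj dJ dI).hom ((diagHom dJ dI).hom x) = 0
  rw [classProj_apply, Submodule.Quotient.mk_eq_zero]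
  exact ⟨x, rfl⟩

end Generic

variable (S : Finset Nat.Primes) (V : Subgroup GQ) (hV : IsOpenSub (globalLevels S) V)

/-! ### the limit sequence -/

theorem δS_πS : δS S ≫ πS S = 0 := diagHom_classProj (diagJ S) (divLim S)

/-- the limit sequence `Q_Sˣ ⟶ J_S × I^S ⟶ C_S` of `G_ℚ`-modules -/
noncomputable def XS : ShortComplex (Rep.{0, 0, 0} ℤ GQ) := ShortComplex.mk (δS S) (πS S) (δS_πS S)

/-- the limit sequence restricted to `V` -/
noncomputable def XV : ShortComplex (Rep.{0, 0, 0} ℤ ↥V) := (XS S).map (Rep.resFunctor V.subtype)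

theorem XV_X₁ : (XV S V).X₁ = KV S V := rfl

theorem XV_X₂ : (XV S V).X₂ = MV S V := rfl

theorem XV_X₃ : (XV S V).X₃ = CV S V := rfl

theorem XV_f : (XV S V).f = δV S V := rfl

theorem XV_g : (XV S V).g = πV S V := rfl

theorem levelShortExact_XV (hS : S.Nonempty) :
    LevelStr.ShortExact (A := (XV S V).X₁) (B := (XV S V).X₂) (C := (XV S V).X₃)
      (XV S V).f.hom.toLinearMap (XV S V).g.hom.toLinearMap :=
  levelShortExact_V S V hS

theorem isSmooth_XV₂ : (restrictLevels (globalLevels S) V hV).IsSmooth (XV S V).X₂ :=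
  isSmooth_MV S V hV

/-! ### the finite levels -/

/-- the finite-level sequence `Res (Lˣ ⟶ J_S(L) × I^S(L) ⟶ C_S(L))` of `Gal(L/K)`-modules -/
noncomputable def YV (i : LevV S V) : ShortComplex (Rep.{0, 0, 0} ℤ ↥(HV S V i)) :=
  (IdeleVal44.sesJIS (unrOutside S i.1.1 i.1.unr)).map (Rep.resFunctor (HV S V i).subtype)

theorem YV_X₁ (i : LevV S V) : (YV S V i).X₁ = Rep.res (HV S V i).subtype (Lx i.1.1) := rfl

theorem YV_X₂ (i : LevV S V) :
    (YV S V i).X₂ = Rep.res (HV S V i).subtype (IdeleVal44.JIS i.1.1 S) := rfl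

theorem YV_X₃ (i : LevV S V) :
    (YV S V i).X₃ =
      Rep.res (HV S V i).subtype (IdeleVal44.CS (unrOutside S i.1.1 i.1.unr)) := rfl

theorem YV_f (i : LevV S V) :
    (YV S V i).f =
      Rep.resMap (HV S V i).subtype (IdeleVal44.deltaS (unrOutside S i.1.1 i.1.unr)) := rfl

theorem YV_g (i : LevV S V) :
    (YV S V i).g =
      Rep.resMap (HV S V i).subtype (IdeleVal44.toCS (unrOutside S i.1.1 i.1.unr)) := rfl

/-- `YV S V i` is helper35's `sesRes` (the vocabulary of helper91's `GlobalInv91.InstD2`) -/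
theorem YV_eq_sesRes (i : LevV S V) :
    YV S V i =
      CLDescent35.Hilbert90.sesRes (unrOutside S i.1.1 i.1.unr) (HV S V i) := rfl

theorem YV_shortExact (hS : S.Nonempty) (i : LevV S V) : (YV S V i).ShortExact :=
  (Rep.shortExact_res (HV S V i).subtype).2
    (IdeleVal44.sesJIS_shortExact (unrOutside S i.1.1 i.1.unr) hS)

/-! ### helper91's vocabulary -/

/-- the datum at the level `i` -/
noncomputable def scDatumV (hS : S.Nonempty) (i : LevV S V) :
    SCDatum (restrictLevels (globalLevels S) V hV) (XV S V) where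
  Q := ↥(HV S V i)
  p := ((famKV S V hV).d i).p
  surj := ((famKV S V hV).d i).surj
  ker_mem := ((famKV S V hV).d i).ker_mem
  Y := YV S V i
  e₁ := ((famKV S V hV).d i).e
  e₂ := ((famMV S V hV).d i).e
  e₃ := ((famCV S V hV hS).d i).e
  desc₁ := ((famKV S V hV).d i).desc
  desc₂ := ((famMV S V hV).d i).desc
  desc₃ := ((famCV S V hV hS).d i).desc
  comm_f := fun b => mIncl_deltaS S i.1.1 i.1.unr b
  comm_g := fun b => cIncl_toCS S i.1.1 i.1.unr b

/-- **the concrete `SCFamily`** -/
noncomputable def scFamilyV (hS : S.Nonempty) :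
    SCFamily (restrictLevels (globalLevels S) V hV) (XV S V) (LevV S V) where
  d := scDatumV S V hV hS
  mono := fun h => (famKV S V hV).mono h
  nonempty := (famKV S V hV).nonempty
  directed := (famKV S V hV).directed
  cofinal := (famKV S V hV).cofinal

/-! ### helper99's vocabulary -/

/-- the datum at the level `i` -/
noncomputable def seqDatumV (hS : S.Nonempty) (i : LevV S V) :
    SeqDatum (restrictLevels (globalLevels S) V hV) (XV S V) where
  Q := ↥(HV S V i)
  p := ((famKV S V hV).d i).p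
  Y := YV S V i
  e₁ := ((famKV S V hV).d i).e
  e₂ := ((famMV S V hV).d i).e
  e₃ := ((famCV S V hV hS).d i).e
  desc₁ := ((famKV S V hV).d i).desc
  desc₂ := ((famMV S V hV).d i).desc
  desc₃ := ((famCV S V hV hS).d i).desc
  surj := ((famKV S V hV).d i).surj
  ker_mem := ((famKV S V hV).d i).ker_mem
  comm_f := fun b => (mIncl_deltaS S i.1.1 i.1.unr b).symm
  comm_g := fun b => (cIncl_toCS S i.1.1 i.1.unr b).symm

/-- **the concrete `SeqFamily`** -/
noncomputable def seqFamilyV (hS : S.Nonempty) :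
    SeqFamily (restrictLevels (globalLevels S) V hV) (XV S V) (LevV S V) where
  D := seqDatumV S V hV hS
  mono := fun h => (famKV S V hV).mono h
  nonempty := (famKV S V hV).nonempty
  directed := (famKV S V hV).directed
  cofinal := (famKV S V hV).cofinal

/-! ### comparison with the families of `CS79.FormationCS`, and the transition data -/

variable {S V}

theorem scFamilyV_fam₁ (hS : S.Nonempty) : (scFamilyV S V hV hS).fam₁ = famKV S V hV := rfl

theorem scFamilyV_fam₂ (hS : S.Nonempty) : (scFamilyV S V hV hS).fam₂ = famMV S V hV := rfl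

theorem scFamilyV_fam₃ (hS : S.Nonempty) : (scFamilyV S V hV hS).fam₃ = famCV S V hV hS := rfl

theorem seqFamilyV_fam₁ (hS : S.Nonempty) : (seqFamilyV S V hV hS).fam₁ = famKV S V hV := rfl

theorem seqFamilyV_fam₂ (hS : S.Nonempty) : (seqFamilyV S V hV hS).fam₂ = famMV S V hV := rfl

theorem seqFamilyV_fam₃ (hS : S.Nonempty) : (seqFamilyV S V hV hS).fam₃ = famCV S V hV hS := rfl

theorem scFamilyV_d_Y (hS : S.Nonempty) (i : LevV S V) :
    ((scFamilyV S V hV hS).d i).Y = YV S V i := rfl

theorem seqFamilyV_D_Y (hS : S.Nonempty) (i : LevV S V) :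
    ((seqFamilyV S V hV hS).D i).Y = YV S V i := rfl

/-- the projection `V → Gal(L/K)` is the restriction `σ ↦ σ|_L` -/
theorem scDatumV_p_coe (hS : S.Nonempty) (i : LevV S V) (v : ↥V) :
    ((show ↥(HV S V i) from (scDatumV S V hV hS i).p v) : GalL i.1.1) = resL i.1.1 (v : GQ) :=
  rfl

/-- the transition map `Gal(L'/K) → Gal(L/K)` is the restriction: `σ|_{L'} ↦ σ|_L` -/
theorem scFamilyV_q_coe (hS : S.Nonempty) {i j : LevV S V} (h : j ≤ i) (v : ↥V) :
    ((show ↥(HV S V i) from
        SCDatum.q ((scFamilyV S V hV hS).mono h) ((scDatumV S V hV hS j).p v)) : GalL i.1.1) =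
      resL i.1.1 (v : GQ) :=
  congrArg Subtype.val (Datum.q_p (d := ((scFamilyV S V hV hS).d i).dat₂)
    (d' := ((scFamilyV S V hV hS).d j).dat₂) ((scFamilyV S V hV hS).mono h) v)

/-- the transition maps of helper91's family are those of `CS79.FormationCS` -/
theorem scFamilyV_tr₂ (hS : S.Nonempty) {i j : LevV S V} (h : j ≤ i)
    (x : H2 (Rep.res (HV S V i).subtype (IdeleVal44.JIS i.1.1 S))) :
    (SCDatum.tr₂ ((scFamilyV S V hV hS).mono h)).hom x =
      Datum.trans₂ ((famMV S V hV).mono h) x :=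
  (SCDatum.trans₂_eq_tr₂ ((scFamilyV S V hV hS).mono h) x).symm

end Fermat.Agent.S55.CS79.SCFamilyCS
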