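/-
S55 / 36-CS (helper79), part 11: the two landed copies of the concrete finite-level family of the
true class sequence over `V` (helper99 `LimDesc99.D2.{XSV, scFamV, seqFamV}` and helper79
`CS79.SCFamilyCS.{XV, scFamilyV, seqFamilyV}`, written simultaneously) are THE SAME TERMS up to
definitional unfolding: every statement about one is a statement about the other.
-/
import Fermat.Agent.S55.CS79.SCFamilyCS
import Fermat.Agent.S55.LimDesc99.SCAdapter

set_option autoImplicit false

open CategoryTheory groupCohomology

namespace Fermat.Agent.S55.CS79.SCFamilyBridge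

open Fermat.Agent.S55.Profin15 Fermat.Agent.S55.CD3
open Fermat.Agent.S55.Idele73.Basic
open Fermat.Agent.S55.ESDiv20 hiding GQ Qb
open Fermat.Agent.S55.CS79.SCFamilyCS Fermat.Agent.S55.CS79.FormationCS
open Fermat.Agent.S55.LimDesc99 Fermat.Agent.S55.GlobalInv91

variable (S : Finset Nat.Primes) (V : Subgroup GQ) (hV : IsOpenSub (globalLevels S) V)

theorem XS_eq : D2.XS S = XS S := rfl

theorem XSV_eq : D2.XSV S V = XV S V := rfl

theorem YV_eq (i : LevV S V) : D2.YV S V i = YV S V i := rfl

theorem scFamV_eq (hS : S.Nonempty) :
    (D2.scFamV S V hV hS :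
      SCFamily (restrictLevels (globalLevels S) V hV) (XV S V) (LevV S V)) =
      scFamilyV S V hV hS := rfl

theorem seqFamV_eq (hS : S.Nonempty) :
    (D2.seqFamV S V hV hS :
      SeqFamily (restrictLevels (globalLevels S) V hV) (XV S V) (LevV S V)) =
      seqFamilyV S V hV hS := rfl

end Fermat.Agent.S55.CS79.SCFamilyBridge
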