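/-
S55 / 36-CS (helper79), part 12 (35-HTR-GLUE): **inflation invariance of the finite-level total
invariants along the D2 tower over an open `V ≤ G_ℚ`, from the limit-level invariant.**

The binder `htr` of `LimDesc99.A3.hasFormationDatum_of_D2` / `A3.core_of_D2`
(`invJU j (tr₂ x) = invJU i x` for `j ≤ i`) is a formal consequence of the existence of ONE
limit-level map `InvP` computing all the `invJU i` on inflated classes (`hinvJ`):
`invJU j (tr₂ x) = InvP (infl₂_j (tr₂ x)) = InvP (infl₂_i x) = invJU i x`.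

* `htr_of_hinvJ` : the generic statement (any target group, any `InvP`);
* `hinvJ_totalSysU`, `htr_totalSysU` : the concrete instance for helper37's unconditional total
  systems `totalSysU hp2 Ω_i S`, with `InvP := InvLim53.Total.invTot … InvS` (helper53), from the
  `S`-part binder `hSJ` (= `hS` of `InvLim53.TotalU.invTot_infl₂_totalSysU` = helper94's HSAssembly
  (H3)) alone; generic in the open subgroup `V`.
-/
import Fermat.Agent.S55.LimDesc99.SCAdapter
import Fermat.Agent.S55.InvLim53.TotalU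
import Fermat.Agent.S55.CS79.SCFamilyBridge

set_option autoImplicit false
set_option linter.unusedSectionVars false

open CategoryTheory groupCohomology

namespace Fermat.Agent.S55.CS79.HtrGlue

open Fermat.Agent.S55.Profin15 Fermat.Agent.S55.Idele73.Basic
open Fermat.Agent.S55.ESDiv20 hiding GQ Qb
open Fermat.Agent.S55.ESRep20
open Fermat.Agent.S55.CS79.LevelClass
open Fermat.Agent.S55.CS79.FamilyCS Fermat.Agent.S55.CS79.FamilyMaps
open Fermat.Agent.S55.CS79.FormationCS
open Fermat.Agent.S55.GlobalMod94.JS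
open Fermat.Agent.S55.LimDesc99 Fermat.Agent.S55.CD3
open Fermat.Agent.S55.LimDesc99.D2 (scFamV XSV)
open Fermat.Agent.S55.GlobalInv91
open Fermat.Agent.S55.CycloRecip37 Fermat.Agent.S55.CycloRecip37.DescendK
open Fermat.Agent.S55.CycloRecip37.TotalSys Fermat.Agent.S55.CycloRecip37.RecT
open Fermat.Agent.S55.CycloRecip37.Uncond
open Fermat.Agent.S55.IdeleCoh54.IdealSys
open Fermat.Agent.S55.FrobSys98.Tame (qzProj qzProj_one)
open Fermat.Agent.S55.QZ33 Fermat.Agent.S55.Idele73.Local
open Fermat.Agent.S55.InvLim53.Ideal Fermat.Agent.S55.InvLim53.Total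
open Fermat.Agent.S55.InvLim53.TotalU

attribute [local instance] IdeleVal44.factPrimes44 IdeleCoh54.IdealSys.fintypeGalL

variable (S : Finset Nat.Primes) (V : Subgroup GQ) (hV : IsOpenSub (globalLevels S) V)
  (hS : S.Nonempty)

/-- **`htr` from `hinvJ`** (generic): finite-level invariants computed by one limit-level map on
inflated classes are compatible with the transition maps of the D2 family. -/
theorem htr_of_hinvJ {T : Type*} [AddCommGroup T]
    (InvP : (restrictLevels (globalLevels S) V hV).H2 (XSV S V).X₂ →+ T)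
    (invJU : ∀ i : LevV S V, H2 ((scFamV S V hV hS).d i).Y.X₂ →+ T)
    (hinvJ : ∀ (i : LevV S V) (x : H2 ((scFamV S V hV hS).d i).Y.X₂),
      InvP (((scFamV S V hV hS).d i).dat₂.infl₂ x) = invJU i x)
    (i j : LevV S V) (h : j ≤ i) (x : H2 ((scFamV S V hV hS).d i).Y.X₂) :
    invJU j ((SCDatum.tr₂ ((scFamV S V hV hS).mono h)).hom x) = invJU i x := by
  have h1 := SCDatum.trans₂_eq_tr₂ ((scFamV S V hV hS).mono h) x
  have h2 := Datum.infl₂_trans₂ (d := ((scFamV S V hV hS).d i).dat₂)
    (d' := ((scFamV S V hV hS).d j).dat₂) ((scFamV S V hV hS).mono h) x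
  exact (((congrArg (invJU j) h1.symm).trans (hinvJ j _).symm).trans
    (congrArg InvP h2)).trans (hinvJ i x)

variable {p : ℕ} [hp : Fact p.Prime] (hp2 : p ≠ 2)

/-- **`hinvJ` for the unconditional total systems**, on the D2 family `scFamV` (helper53's
`invTot_infl₂_totalSysU` read through `dat₂ (scFamV) = famMV`). -/
theorem hinvJ_totalSysU
    (InvS : (restrictLevels (globalLevels S) V hV).H2 (Rep.res V.subtype (JSp S)) →+ QZ)
    (hSJ : ∀ (i : LevV S V) (y : H2 (Rep.res (HV S V i).subtype (IdeleVal44.JS i.1.1 S))),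
      InvS (((famJV S V hV).d i).infl₂ y) = SysMore.toH2 (jsSysU hp2 S V i) (HV S V i) y)
    (i : LevV S V) (x : H2 ((scFamV S V hV hS).d i).Y.X₂) :
    invTot S V hV qzProj qzProj_one InvS (((scFamV S V hV hS).d i).dat₂.infl₂ x) =
      SysMore.toH2 (totalSysU hp2 i.1.1 S) (HV S V i) x :=
  invTot_infl₂_totalSysU hp2 S V hV InvS hSJ i x

/-- **`htr` for the unconditional total systems**: inflation invariance of
`SysMore.toH2 (totalSysU hp2 Ω_i S) (Gal(Ω_i/K))` along the D2 tower over `V`. -/
theorem htr_totalSysU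
    (InvS : (restrictLevels (globalLevels S) V hV).H2 (Rep.res V.subtype (JSp S)) →+ QZ)
    (hSJ : ∀ (i : LevV S V) (y : H2 (Rep.res (HV S V i).subtype (IdeleVal44.JS i.1.1 S))),
      InvS (((famJV S V hV).d i).infl₂ y) = SysMore.toH2 (jsSysU hp2 S V i) (HV S V i) y)
    (i j : LevV S V) (h : j ≤ i) (x : H2 ((scFamV S V hV hS).d i).Y.X₂) :
    SysMore.toH2 (totalSysU hp2 j.1.1 S) (HV S V j)
        ((SCDatum.tr₂ ((scFamV S V hV hS).mono h)).hom x) =
      SysMore.toH2 (totalSysU hp2 i.1.1 S) (HV S V i) x :=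
  htr_of_hinvJ S V hV hS (invTot S V hV qzProj qzProj_one InvS)
    (fun i => SysMore.toH2 (totalSysU hp2 i.1.1 S) (HV S V i))
    (hinvJ_totalSysU S V hV hS hp2 InvS hSJ) i j h x

/-- the same in the `toH2top ∘ restrict` normal form (the `invJ` of helper37's `finLayerHyp_D2`). -/
theorem htr_totalSysU_top
    (InvS : (restrictLevels (globalLevels S) V hV).H2 (Rep.res V.subtype (JSp S)) →+ QZ)
    (hSJ : ∀ (i : LevV S V) (y : H2 (Rep.res (HV S V i).subtype (IdeleVal44.JS i.1.1 S))),
      InvS (((famJV S V hV).d i).infl₂ y) = SysMore.toH2 (jsSysU hp2 S V i) (HV S V i) y)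
    (i j : LevV S V) (h : j ≤ i) (x : H2 ((scFamV S V hV hS).d i).Y.X₂) :
    SysH2.toH2top (SysH2.restrict (HV S V j) (totalSysU hp2 j.1.1 S))
        ((SCDatum.tr₂ ((scFamV S V hV hS).mono h)).hom x) =
      SysH2.toH2top (SysH2.restrict (HV S V i) (totalSysU hp2 i.1.1 S)) x := by
  rw [IdeleCoh54.ToH2Bridge.toH2top_restrict, IdeleCoh54.ToH2Bridge.toH2top_restrict]
  exact htr_totalSysU S V hV hS hp2 InvS hSJ i j h x

end Fermat.Agent.S55.CS79.HtrGlue
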