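/-
S55 / 36-CS (helper79), part 10: **slot A3 (`CDArith63.P1Chain.HasFormationDatum p S V hV`)
directly from the finite-level tower hypotheses at the D2 levels**:

* `hasFormationDatum_of_scFamily` = helper91's `GlobalInv91.SCFamily.exists_invCp`
  (`FinLayerHyp` inputs) ∘ helper72's `ClassFormation72.CSlim.hasFormationDatum_of_total`;
* `hasFormationDatum_of_seqFamily` = helper99's `LimDesc99.SeqFamily.exists_invCp_of_towerModels`
  (`TowerModelHyp` inputs) ∘ the same;

both generic in the cofinal family of the TRUE class sequence `XV S V` over `V`; the concrete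
family is `CS79.SCFamilyCS.scFamilyV / seqFamilyV` (`_concrete` versions below).
-/
import Fermat.Agent.S55.CS79.SCFamilyCS
import Fermat.Agent.S55.ClassFormation72.CSlim
import Fermat.Agent.S55.LimDesc99.TowerFamily

set_option autoImplicit false
set_option linter.unusedSectionVars false
set_option linter.unusedVariables false

open CategoryTheory groupCohomology ExtCitation Limits

namespace Fermat.Agent.S55.CS79.SlotA3Fam

open Fermat.Agent.S55.Profin15 Fermat.Agent.S55.Profin15.LevelStr Fermat.Agent.S55.CD3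
open Fermat.Agent.S55.Idele73.Basic
open Fermat.Agent.S55.CDArith63 Fermat.Agent.S55.CDArith63.Adapter
open Fermat.Agent.S55.CDArith63.P1Chain
open Fermat.Agent.S55.ESDiv20 hiding GQ Qb
open Fermat.Agent.S55.ESRep20 Fermat.Agent.S55.GlobalMod94.JS
open Fermat.Agent.S55.CS79.DivLimit Fermat.Agent.S55.CS79.Restrict Fermat.Agent.S55.CS79.Primary
open Fermat.Agent.S55.CS79.FamilyMaps Fermat.Agent.S55.CS79.FormationCS
open Fermat.Agent.S55.CS79.SCFamilyCS
open Fermat.Agent.S55.ClassData72 Fermat.Agent.S55.ClassFormation72 Fermat.Agent.S55.QZ33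
open Fermat.Agent.S55.ClassFormation72.CSlim
open Fermat.Agent.S55.PrimaryExt14 Fermat.Agent.S55.LimDesc99 Fermat.Agent.S55.GlobalInv91

variable {p : ℕ} [hp : Fact p.Prime] {S : Finset Nat.Primes}
variable (V : Subgroup GQ) (hV : IsOpenSub (globalLevels S) V)

/-- **SLOT A3 FROM `FinLayerHyp` AT THE LEVELS OF A COFINAL FAMILY** (helper91's vocabulary). -/
theorem hasFormationDatum_of_scFamily {ι : Type*} [Preorder ι]
    (F : SCFamily (restrictLevels (globalLevels S) V hV) (XV S V) ι)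
    (hpS : pPrime p ∈ S) {W : Type} [Fintype W] [Nonempty W]
    (invJp : W → (primary p ((restrictLevels (globalLevels S) V hV).H2
      (Rep.res V.subtype (JSp S))) →+ QZ))
    (hinjp : ∀ x : primary p ((restrictLevels (globalLevels S) V hV).H2
      (Rep.res V.subtype (JSp S))), (∀ w, invJp w x = 0) → x = 0)
    (hsurjp : ∀ (t : W → QZ) (n : ℕ), (∀ w, (p ^ n) • t w = 0) →
      ∃ x : primary p ((restrictLevels (globalLevels S) V hV).H2 (Rep.res V.subtype (JSp S))),
        (p ^ n) • x = 0 ∧ ∀ w, invJp w x = t w)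
    (invM : (restrictLevels (globalLevels S) V hV).H2 (MV S V) →+ QZ)
    (hG3 : ∀ x : primary p ((restrictLevels (globalLevels S) V hV).H2
        (Rep.res V.subtype (JSp S))),
      invM ((restrictLevels (globalLevels S) V hV).H2map (inlV (S := S) V)
        (inlV_equivariant V) (x : (restrictLevels (globalLevels S) V hV).H2
          (Rep.res V.subtype (JSp S)))) = ∑ w, invJp w x)
    (invMU : ∀ i : ι, H2 (F.d i).Y.X₂ →+ QZ)
    (hinvM : ∀ (i : ι) (x : H2 (F.d i).Y.X₂), invM ((F.d i).dat₂.infl₂ x) = invMU i x)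
    (hsplit : ∀ (i : ι) (x : H2 (F.d i).Y.X₂) (n : ℕ), (p ^ n) • x = 0 →
      ∃ (j : ι) (h : j ≤ i) (m : ℕ) (χ : (F.d j).Q →* Multiplicative (ZMod (p ^ m))),
        FinLayerHyp (F.d j).Y p m χ (invMU j) ∧
        (res₂ (F.d j).Y.X₂ χ.ker).hom ((SCDatum.tr₂ (F.mono h)).hom x) = 0)
    (halpha : ∀ i : ι,
      ∃ (j : ι) (h : j ≤ i) (m : ℕ) (χ : (F.d j).Q →* Multiplicative (ZMod (p ^ m))),
        FinLayerHyp (F.d j).Y p m χ (invMU j) ∧
        Nat.card (InfRes9.pPrimary p (H2 (F.d i).Y.X₃)) ∣ p ^ m ∧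
        p ^ m ∣ (SCDatum.q (F.mono h)).ker.index ∧
        IsZero (groupCohomology
          (Rep.res (SCDatum.q (F.mono h)).ker.subtype (F.d j).Y.X₃) 1) ∧
        ∃ invJN : H2 (Rep.res (SCDatum.q (F.mono h)).ker.subtype (F.d j).Y.X₂) →+ QZ,
          (∀ y : H2 (F.d j).Y.X₂,
            invJN ((res₂ (F.d j).Y.X₂ (SCDatum.q (F.mono h)).ker).hom y) =
              (SCDatum.q (F.mono h)).ker.index • invMU j y) ∧
          ∃ invCN : H2 (Rep.res (SCDatum.q (F.mono h)).ker.subtype (F.d j).Y.X₃) →+ QZ,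
            Function.Injective invCN ∧
            ∀ x : H2 (Rep.res (SCDatum.q (F.mono h)).ker.subtype (F.d j).Y.X₂),
              invCN ((pushS₂ (F.d j).Y.g (SCDatum.q (F.mono h)).ker).hom x) = invJN x)
    (hH1C : H1PrimaryVanishes (restrictLevels (globalLevels S) V hV) p
      (Rep.res V.subtype (CSl S)))
    (hH3J : H3TorsVan (restrictLevels (globalLevels S) V hV) p (resSub (canρ (JSp S)) V)) :
    HasFormationDatum p S V hV := by
  obtain ⟨invCp, hG2, hinjCp⟩ := F.exists_invCp (levelShortExact_XV S V (⟨_, hpS⟩ : S.Nonempty))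
    (isSmooth_XV₂ S V hV) p invM invMU hinvM hsplit halpha
  exact hasFormationDatum_of_total V hV hpS invJp hinjp hsurjp invM hG3 invCp (fun y => hG2 y)
    hinjCp hH1C hH3J

/-- **SLOT A3 FROM `TowerModelHyp` AT THE LEVELS OF A COFINAL FAMILY** (helper99's vocabulary). -/
theorem hasFormationDatum_of_seqFamily {ι : Type*} [Preorder ι]
    (F : SeqFamily (restrictLevels (globalLevels S) V hV) (XV S V) ι)
    (hpS : pPrime p ∈ S) {W : Type} [Fintype W] [Nonempty W]
    (invJp : W → (primary p ((restrictLevels (globalLevels S) V hV).H2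
      (Rep.res V.subtype (JSp S))) →+ QZ))
    (hinjp : ∀ x : primary p ((restrictLevels (globalLevels S) V hV).H2
      (Rep.res V.subtype (JSp S))), (∀ w, invJp w x = 0) → x = 0)
    (hsurjp : ∀ (t : W → QZ) (n : ℕ), (∀ w, (p ^ n) • t w = 0) →
      ∃ x : primary p ((restrictLevels (globalLevels S) V hV).H2 (Rep.res V.subtype (JSp S))),
        (p ^ n) • x = 0 ∧ ∀ w, invJp w x = t w)
    (invM : (restrictLevels (globalLevels S) V hV).H2 (MV S V) →+ QZ)
    (hG3 : ∀ x : primary p ((restrictLevels (globalLevels S) V hV).H2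
        (Rep.res V.subtype (JSp S))),
      invM ((restrictLevels (globalLevels S) V hV).H2map (inlV (S := S) V)
        (inlV_equivariant V) (x : (restrictLevels (globalLevels S) V hV).H2
          (Rep.res V.subtype (JSp S)))) = ∑ w, invJp w x)
    (invMU : ∀ j : ι, H2 (F.D j).Y.X₂ →+ QZ)
    (hinvM : ∀ (j : ι) (x : H2 (F.D j).Y.X₂), invM ((F.D j).d₂.infl₂ x) = invMU j x)
    (hsplit : ∀ (j : ι) (x : H2 (F.D j).Y.X₂) (n : ℕ), (p ^ n) • x = 0 →
      ∃ (l : ι) (h : l ≤ j) (m : ℕ) (χ : (F.D l).Q →* Multiplicative (ZMod (p ^ m))),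
        TowerModelHyp (F.D l).Y p m χ (invMU l) ∧
        (GlobalInv91.res₂ (F.D l).Y.X₂ χ.ker).hom
          (Datum.trans₂ (d := (F.D j).d₂) (d' := (F.D l).d₂) (F.mono h) x) = 0)
    (halpha : ∀ j : ι,
      ∃ (l : ι) (h : l ≤ j) (m : ℕ) (χ : (F.D l).Q →* Multiplicative (ZMod (p ^ m))),
        TowerModelHyp (F.D l).Y p m χ (invMU l) ∧
        Nat.card (InfRes9.pPrimary p (H2 (F.D j).Y.X₃)) ∣ p ^ m ∧
        p ^ m ∣ (SeqDatum.kerQ (F.mono h)).index ∧
        IsZero (groupCohomology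
          (Rep.res (SeqDatum.kerQ (F.mono h)).subtype (F.D l).Y.X₃) 1) ∧
        ∃ invJN : H2 (Rep.res (SeqDatum.kerQ (F.mono h)).subtype (F.D l).Y.X₂) →+ QZ,
          (∀ y : H2 (F.D l).Y.X₂,
            invJN ((GlobalInv91.res₂ (F.D l).Y.X₂ (SeqDatum.kerQ (F.mono h))).hom y) =
              (SeqDatum.kerQ (F.mono h)).index • invMU l y) ∧
          ∃ invCN : H2 (Rep.res (SeqDatum.kerQ (F.mono h)).subtype (F.D l).Y.X₃) →+ QZ,
            Function.Injective invCN ∧
            ∀ x : H2 (Rep.res (SeqDatum.kerQ (F.mono h)).subtype (F.D l).Y.X₂),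
              invCN ((GlobalInv91.pushS₂ (F.D l).Y.g (SeqDatum.kerQ (F.mono h))).hom x) =
                invJN x)
    (hH1C : H1PrimaryVanishes (restrictLevels (globalLevels S) V hV) p
      (Rep.res V.subtype (CSl S)))
    (hH3J : H3TorsVan (restrictLevels (globalLevels S) V hV) p (resSub (canρ (JSp S)) V)) :
    HasFormationDatum p S V hV := by
  obtain ⟨invCp, hG2, hinjCp⟩ := F.exists_invCp_of_towerModels
    (levelShortExact_XV S V (⟨_, hpS⟩ : S.Nonempty)) (isSmooth_XV₂ S V hV) p invM invMU hinvM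
    hsplit halpha
  exact hasFormationDatum_of_total V hV hpS invJp hinjp hsurjp invM hG3 invCp (fun y => hG2 y)
    hinjCp hH1C hH3J

/-! ### the concrete family: everything at the literal D2 levels -/

/-- the restriction `Gal(L'/K) → Gal(L/K)` (`L ⊆ L'`), as the transition map of the families of
`CS79.FormationCS` -/
noncomputable def qV {i j : LevV S V} (h : j ≤ i) : ↥(HV S V j) →* ↥(HV S V i) :=
  Datum.q (d := (famMV S V hV).d i) (d' := (famMV S V hV).d j) ((famMV S V hV).mono h)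

theorem qV_coe {i j : LevV S V} (h : j ≤ i) (v : ↥V) :
    ((qV V hV h (((famMV S V hV).d j).p v) : ↥(HV S V i)) : GalL i.1.1) = resL i.1.1 (v : GQ) :=
  congrArg Subtype.val (Datum.q_p (d := (famMV S V hV).d i) (d' := (famMV S V hV).d j)
    ((famMV S V hV).mono h) v)

theorem qV_eq (hS : S.Nonempty) {i j : LevV S V} (h : j ≤ i) :
    SCDatum.q ((scFamilyV S V hV hS).mono h) = qV V hV h := rfl

/-- **SLOT A3 FROM `FinLayerHyp` AT THE LITERAL D2 LEVELS**
`(Gal(L/K) = ↥(HV S V i), YV S V i = Res (Lˣ → J_S(L) × I^S(L) → C_S(L)))`. -/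
theorem hasFormationDatum_of_finLayers (hpS : pPrime p ∈ S) {W : Type} [Fintype W] [Nonempty W]
    (invJp : W → (primary p ((restrictLevels (globalLevels S) V hV).H2
      (Rep.res V.subtype (JSp S))) →+ QZ))
    (hinjp : ∀ x : primary p ((restrictLevels (globalLevels S) V hV).H2
      (Rep.res V.subtype (JSp S))), (∀ w, invJp w x = 0) → x = 0)
    (hsurjp : ∀ (t : W → QZ) (n : ℕ), (∀ w, (p ^ n) • t w = 0) →
      ∃ x : primary p ((restrictLevels (globalLevels S) V hV).H2 (Rep.res V.subtype (JSp S))),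
        (p ^ n) • x = 0 ∧ ∀ w, invJp w x = t w)
    (invM : (restrictLevels (globalLevels S) V hV).H2 (MV S V) →+ QZ)
    (hG3 : ∀ x : primary p ((restrictLevels (globalLevels S) V hV).H2
        (Rep.res V.subtype (JSp S))),
      invM ((restrictLevels (globalLevels S) V hV).H2map (inlV (S := S) V)
        (inlV_equivariant V) (x : (restrictLevels (globalLevels S) V hV).H2
          (Rep.res V.subtype (JSp S)))) = ∑ w, invJp w x)
    (invMU : ∀ i : LevV S V, H2 (YV S V i).X₂ →+ QZ)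
    (hinvM : ∀ (i : LevV S V) (x : H2 (YV S V i).X₂),
      invM (((famMV S V hV).d i).infl₂ x) = invMU i x)
    (hsplit : ∀ (i : LevV S V) (x : H2 (YV S V i).X₂) (n : ℕ), (p ^ n) • x = 0 →
      ∃ (j : LevV S V) (h : j ≤ i) (m : ℕ) (χ : ↥(HV S V j) →* Multiplicative (ZMod (p ^ m))),
        FinLayerHyp (YV S V j) p m χ (invMU j) ∧
        (res₂ (YV S V j).X₂ χ.ker).hom (Datum.trans₂ ((famMV S V hV).mono h) x) = 0)
    (halpha : ∀ i : LevV S V,
      ∃ (j : LevV S V) (h : j ≤ i) (m : ℕ) (χ : ↥(HV S V j) →* Multiplicative (ZMod (p ^ m))),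
        FinLayerHyp (YV S V j) p m χ (invMU j) ∧
        Nat.card (InfRes9.pPrimary p (H2 (YV S V i).X₃)) ∣ p ^ m ∧
        p ^ m ∣ (qV V hV h).ker.index ∧
        IsZero (groupCohomology (Rep.res (qV V hV h).ker.subtype (YV S V j).X₃) 1) ∧
        ∃ invJN : H2 (Rep.res (qV V hV h).ker.subtype (YV S V j).X₂) →+ QZ,
          (∀ y : H2 (YV S V j).X₂,
            invJN ((res₂ (YV S V j).X₂ (qV V hV h).ker).hom y) =
              (qV V hV h).ker.index • invMU j y) ∧
          ∃ invCN : H2 (Rep.res (qV V hV h).ker.subtype (YV S V j).X₃) →+ QZ,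
            Function.Injective invCN ∧
            ∀ x : H2 (Rep.res (qV V hV h).ker.subtype (YV S V j).X₂),
              invCN ((pushS₂ (YV S V j).g (qV V hV h).ker).hom x) = invJN x)
    (hH1C : H1PrimaryVanishes (restrictLevels (globalLevels S) V hV) p
      (Rep.res V.subtype (CSl S)))
    (hH3J : H3TorsVan (restrictLevels (globalLevels S) V hV) p (resSub (canρ (JSp S)) V)) :
    HasFormationDatum p S V hV := by
  have hS : S.Nonempty := ⟨_, hpS⟩
  refine hasFormationDatum_of_scFamily V hV (scFamilyV S V hV hS) hpS invJp hinjp hsurjp invM hG3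
    invMU hinvM ?_ halpha hH1C hH3J
  intro i x n hx
  obtain ⟨j, h, m, χ, hyp, hs⟩ := hsplit i x n hx
  refine ⟨j, h, m, χ, hyp, ?_⟩
  rw [scFamilyV_tr₂ hV hS h x]
  exact hs

end Fermat.Agent.S55.CS79.SlotA3Fam
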